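import Fermat.Agent.Ihara.Alg

set_option autoImplicit false

/-!
# The cokernel of `(Tr, Tr ∘ W)`
-/

open CongruenceSubgroup
open scoped MatrixGroups

noncomputable section

namespace Fermat.Agent.Ihara

open Fermat.Agent.Top Matrix ALD

variable {N q : ℕ}

theorem mt_ext_mul {M : ℕ} {γ γ' : Gamma0 M} (h : mt γ = mt γ') : γ = γ' := mt_injective h

theorem ev_comp_FH {B : Type*} [AddCommGroup B] (φ : Symb N ℤ →+ B) (γ : Gamma0 N) :
    ev (φ.comp (FH N)) γ = φ (Fs N γ) := rfl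

theorem Fs_conj {γ δ X : Gamma0 N} (h : γ * X = X * δ) : Fs N γ = Fs N δ := by
  have h1 := congrArg (Fs N) h
  rw [Fs_mul, Fs_mul, add_comm] at h1
  exact add_left_cancel h1

/-- Functionals killing the image of `(Tr, Tr ∘ W)` give gluing pairs. -/
theorem coker_glue (a : ALD N q) (hq : q.Prime) (hqN : ¬ q ∣ N) {B : Type*} [AddCommGroup B]
    (φ1 φ2 : Symb N ℤ →+ B)
    (h : ∀ f : Symb (q * N) ℤ, φ1 (a.Tr ℤ hq hqN f) +
      φ2 (a.Tr ℤ hq hqN (a.W ℤ hq.ne_zero f)) = 0) :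
    Glue (q : ℤ) (φ2.comp (FH N)) (-(φ1.comp (FH N))) := by
  intro γ γ' hr
  have hq0 : (q : ℤ) ≠ 0 := by exact_mod_cast hq.ne_zero
  -- lift `γ` to level `q N`
  obtain ⟨δ, hδ⟩ : ∃ δ : Gamma0 (q * N), mt γ = mt δ := by
    obtain ⟨c, hc⟩ := dvd_en γ'
    have hdvd : ((q * N : ℕ) : ℤ) ∣ mt γ 1 0 := by
      rw [mt_apply, hr.h10, hc]
      exact ⟨c, by push_cast; ring⟩
    exact exists_mt (isDelta_of_det hdvd (by rw [det_mt]; exact isCoprime_one_left)) (det_mt γ)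
  have h1 : mt δ * dg q = dg q * mt γ' := by
    rw [← hδ]
    ext i j
    fin_cases i <;> fin_cases j <;> simp [dg, Matrix.mul_apply, Fin.sum_univ_two, mt_apply]
    · exact hr.h00.symm
    · rw [hr.h01]; ring
    · exact hr.h10
    · rw [hr.h11]; ring
  obtain ⟨δ2, h2⟩ := a.exists_conj' hq.ne_zero δ
  obtain ⟨δ3, h3⟩ := ALD.conj_dg δ2
  obtain ⟨X, hX⟩ : ∃ X : M2, X = !![a.x, a.y; N * a.z, q * a.t] := ⟨_, rfl⟩
  have hXdet : X.det = 1 := by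
    rw [hX, Matrix.det_fin_two_of]; linear_combination a.h
  obtain ⟨ξ, hξ⟩ := exists_mt (N := N) (X := X) (isDelta_of_det (by rw [hX]; simp)
    (by rw [hXdet]; exact isCoprime_one_left)) hXdet
  have hwd : a.w * dg q = (q : ℤ) • mt ξ := by
    rw [← hξ, hX]
    ext i j
    fin_cases i <;> fin_cases j <;> simp [dg, ALD.w, Matrix.mul_apply, Fin.sum_univ_two] <;> ring
  have hconj : γ * ξ = ξ * δ3 := by
    apply mt_injective
    rw [mt_mul, mt_mul]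
    have e1 : (q : ℤ) • (mt γ * mt ξ) = (q : ℤ) • (mt ξ * mt δ3) := by
      rw [← Matrix.mul_smul, ← hwd, hδ, ← Matrix.mul_assoc, h2, Matrix.mul_assoc, h3,
        ← Matrix.mul_assoc, hwd, Matrix.smul_mul]
    exact smul_right_injective _ hq0 e1
  have key := h (Fs (q * N) δ)
  rw [a.Tr_Fs hq hqN h1, a.W_Fs hq.ne_zero h2, a.Tr_Fs hq hqN h3, ← Fs_conj hconj] at key
  change φ2 (Fs N γ) = -(φ1 (Fs N γ'))
  exact eq_neg_of_add_eq_zero_right key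

theorem hop_comp_FH {B : Type*} [AddCommGroup B] (φ : Symb N ℤ →+ B) (ℓ : Nat.Primes)
    (hℓ : ¬ (ℓ : ℕ) ∣ N) : hop N ℓ (φ.comp (FH N)) = (φ.comp (Ts N ℤ ℓ)).comp (FH N) := by
  rw [hop_comp_left, hop_FH ℓ hℓ]; rfl

/-- The Eisenstein element. -/
def tz (M : ℕ) (ℓ : GP M) : RH M := MvPolynomial.X ℓ - (((ℓ.1 : ℕ) + 1 : ℕ) : RH M)

theorem eS_tz (M L : ℕ) (A : Type*) [AddCommGroup A] (ℓ : GP M) (f : Symb L A) :
    eS M L A (tz M ℓ) f = Ts L A ℓ.1 f - ((ℓ.1 : ℕ) + 1) • f := by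
  rw [tz, map_sub, LinearMap.sub_apply, eS_X, map_natCast, Module.End.natCast_apply]

/-- Hypotheses on the auxiliary prime. -/
structure AuxP (N q p : ℕ) [NeZero N] (ℓ : GP (q * N)) : Prop where
  h2 : (ℓ.1 : ℕ) ≠ 2
  hp : (ℓ.1 : ℕ) ≠ p
  hI : (ℓ.1 : ℕ) ≡ 1 [MOD nI N]
  hN : (ℓ.1 : ℕ) ≡ 1 [MOD N]

theorem AuxP.goodP [NeZero N] {p : ℕ} [Fact p.Prime] {ℓ : GP (q * N)} (h : AuxP N q p ℓ) :
    GoodP N q (ZMod p) ℓ.1 where
  hN h' := ℓ.2 (h'.mul_left q)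
  h2 := h.h2
  hq h' := ℓ.2 (by rw [h']; exact dvd_mul_right q N)
  hk h' := by
    rw [ZMod.natCast_eq_zero_iff, Nat.prime_dvd_prime_iff_eq Fact.out ℓ.1.2] at h'
    exact h.hp h'.symm

theorem coker_kill [NeZero N] {p : ℕ} [Fact p.Prime] (hp : p ≠ 2) (a : ALD N q) (hq : q.Prime)
    (hqN : ¬ q ∣ N) {ℓ : GP (q * N)} (hℓ : AuxP N q p ℓ) (φ1 φ2 : Symb N ℤ →+ ZMod p)
    (h : ∀ f : Symb (q * N) ℤ, φ1 (a.Tr ℤ hq hqN f) +
      φ2 (a.Tr ℤ hq hqN (a.W ℤ hq.ne_zero f)) = 0) (x : Symb N ℤ) :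
    φ1 (eS (q * N) N ℤ (tz (q * N) ℓ ^ 2) x) = 0 ∧
      φ2 (eS (q * N) N ℤ (tz (q * N) ℓ ^ 2) x) = 0 := by
  have hg := hℓ.goodP
  have hqcop : IsCoprime (q : ℤ) (N : ℤ) :=
    Nat.isCoprime_iff_coprime.mpr ((Nat.Prime.coprime_iff_not_dvd hq).mpr hqN)
  have g1 := coker_glue a hq hqN φ1 φ2 h
  have g2 := coker_glue a hq hqN (φ1.comp (Ts N ℤ ℓ.1)) (φ2.comp (Ts N ℤ ℓ.1)) (fun f => by
    rw [AddMonoidHom.comp_apply, AddMonoidHom.comp_apply, ← a.Tr_Ts hq hqN ℓ.1 ℓ.2,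
      ← a.Tr_Ts hq hqN ℓ.1 ℓ.2, ← a.W_Ts hq.ne_zero ℓ.1 ℓ.2]
    exact h _)
  have hopneg : ∀ φ : Symb N ℤ →+ ZMod p, hop N ℓ.1 (-(φ.comp (FH N))) =
      -((φ.comp (Ts N ℤ ℓ.1)).comp (FH N)) := fun φ => by
    rw [map_neg, hop_comp_FH _ _ hg.hN]
  rw [← hop_comp_FH _ _ hg.hN, ← hopneg] at g2
  have e2 := g1.hop_sq hq hqN ℓ.1 ℓ.1 g2 hg hg hℓ.hI
  have e1 := (g1.symm hqcop).hop_sq hq hqN ℓ.1 ℓ.1 (g2.symm hqcop) hg hg hℓ.hI
  have conv : ∀ φ : Symb N ℤ →+ ZMod p,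
      hop N ℓ.1 (hop N ℓ.1 (φ.comp (FH N)) - ((ℓ.1 : ℕ) + 1) • (φ.comp (FH N))) =
      ((ℓ.1 : ℕ) + 1) • (hop N ℓ.1 (φ.comp (FH N)) - ((ℓ.1 : ℕ) + 1) • (φ.comp (FH N))) →
      φ (eS (q * N) N ℤ (tz (q * N) ℓ ^ 2) x) = 0 := by
    intro φ hφ
    have hz : (φ.comp (eS (q * N) N ℤ (tz (q * N) ℓ ^ 2)).toAddMonoidHom) = 0 := by
      apply perfect hp
      intro γ
      rw [hop_comp_FH _ _ hg.hN, map_sub, hop_comp_FH _ _ hg.hN, map_nsmul,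
        hop_comp_FH _ _ hg.hN] at hφ
      have h5 := congrArg (fun ψ => ev ψ γ) hφ
      change φ (Ts N ℤ ℓ.1 (Ts N ℤ ℓ.1 (Fs N γ))) - ((ℓ.1 : ℕ) + 1) • φ (Ts N ℤ ℓ.1 (Fs N γ)) =
        ((ℓ.1 : ℕ) + 1) • (φ (Ts N ℤ ℓ.1 (Fs N γ)) - ((ℓ.1 : ℕ) + 1) • φ (Fs N γ)) at h5
      change φ (eS (q * N) N ℤ (tz (q * N) ℓ ^ 2) (Fs N γ)) = 0
      rw [pow_two, map_mul, Module.End.mul_apply, eS_tz, eS_tz]
      simp only [map_sub, map_nsmul]
      exact sub_eq_zero.mpr h5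
    exact DFunLike.congr_fun hz x
  refine ⟨?_, conv φ2 e2⟩
  have h6 := conv (-φ1) (by
    have e : (-φ1).comp (FH N) = -(φ1.comp (FH N)) := rfl
    rw [e]; exact e1)
  rw [AddMonoidHom.neg_apply, neg_eq_zero] at h6
  exact h6

theorem aeval_prodMap {M M' : Type*} [AddCommGroup M] [AddCommGroup M'] (a : Module.End ℤ M)
    (b : Module.End ℤ M') (P : Polynomial ℤ) (x : M × M') :
    (Polynomial.aeval (LinearMap.prodMap a b : Module.End ℤ (M × M')) P) x =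
      (Polynomial.aeval a P x.1, Polynomial.aeval b P x.2) := by
  induction P using Polynomial.induction_on with
  | C c =>
    rw [Polynomial.aeval_C, Polynomial.aeval_C, Polynomial.aeval_C, Module.algebraMap_end_apply,
      Module.algebraMap_end_apply, Module.algebraMap_end_apply]
    rfl
  | add P Q hP hQ =>
    rw [map_add, map_add, map_add, LinearMap.add_apply, LinearMap.add_apply, LinearMap.add_apply,
      hP, hQ]
    rfl
  | monomial n c _ =>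
    have key : ∀ m : ℕ, ((LinearMap.prodMap a b : Module.End ℤ (M × M')) ^ m) x =
        ((a ^ m) x.1, (b ^ m) x.2) := by
      intro m
      induction m with
      | zero => rfl
      | succ m ih =>
        rw [pow_succ', pow_succ', pow_succ', Module.End.mul_apply, Module.End.mul_apply,
          Module.End.mul_apply, ih]
        rfl
    rw [map_mul, map_mul, map_mul, map_pow, map_pow, map_pow, Polynomial.aeval_X,
      Polynomial.aeval_X, Polynomial.aeval_X, Polynomial.aeval_C, Polynomial.aeval_C,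
      Polynomial.aeval_C, Module.End.mul_apply, Module.End.mul_apply, Module.End.mul_apply, key,
      Module.algebraMap_end_apply, Module.algebraMap_end_apply, Module.algebraMap_end_apply]
    rfl

/-- The map `(Tr, Tr ∘ W)`. -/
def jmap (a : ALD N q) (hq : q.Prime) (hqN : ¬ q ∣ N) :
    Symb (q * N) ℤ →ₗ[ℤ] Symb N ℤ × Symb N ℤ :=
  ((a.Tr ℤ hq hqN).prod ((a.Tr ℤ hq hqN).comp (a.W ℤ hq.ne_zero))).toIntLinearMap

theorem jmap_apply (a : ALD N q) (hq : q.Prime) (hqN : ¬ q ∣ N) (f : Symb (q * N) ℤ) :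
    jmap a hq hqN f = (a.Tr ℤ hq hqN f, a.Tr ℤ hq hqN (a.W ℤ hq.ne_zero f)) := rfl

theorem jmap_eS (a : ALD N q) (hq : q.Prime) (hqN : ¬ q ∣ N) (t : RH (q * N))
    (f : Symb (q * N) ℤ) : jmap a hq hqN (eS (q * N) (q * N) ℤ t f) =
      (eS (q * N) N ℤ t (jmap a hq hqN f).1, eS (q * N) N ℤ t (jmap a hq hqN f).2) := by
  rw [jmap_apply, jmap_apply, eS_W, eS_Tr, eS_Tr]

/-- **The cokernel of `(Tr, Tr ∘ W)` is Eisenstein.** -/
theorem coker_main [NeZero N] {p : ℕ} [Fact p.Prime] (hp : p ≠ 2) (a : ALD N q) (hq : q.Prime)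
    (hqN : ¬ q ∣ N) {ℓ : GP (q * N)} (hℓ : AuxP N q p ℓ) :
    ∃ (n : ℕ) (R : RH (q * N)), ∀ x : Symb N ℤ × Symb N ℤ, ∃ f : Symb (q * N) ℤ,
      jmap a hq hqN f = (eS (q * N) N ℤ (tz (q * N) ℓ ^ n + (p : RH (q * N)) * R) x.1,
        eS (q * N) N ℤ (tz (q * N) ℓ ^ n + (p : RH (q * N)) * R) x.2) := by
  set t := tz (q * N) ℓ with ht
  let e : Module.End ℤ (Symb N ℤ × Symb N ℤ) :=
    LinearMap.prodMap (eS (q * N) N ℤ (t ^ 2)) (eS (q * N) N ℤ (t ^ 2))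
  have he : ∀ x, e x = (eS (q * N) N ℤ (t ^ 2) x.1, eS (q * N) N ℤ (t ^ 2) x.2) := fun _ => rfl
  let J : Submodule ℤ (Symb N ℤ × Symb N ℤ) := LinearMap.range (jmap a hq hqN)
  have hJ : J ≤ J.comap e := by
    rintro _ ⟨f, rfl⟩
    rw [Submodule.mem_comap, he, ← jmap_eS]
    exact ⟨_, rfl⟩
  obtain ⟨n, R, h⟩ := exists_monic_kill e J hJ p (by
    intro x
    by_contra hcon
    let S : AddSubgroup (Symb N ℤ × Symb N ℤ) := J.toAddSubgroup ⊔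
      (nsmulAddMonoidHom p : (Symb N ℤ × Symb N ℤ) →+ (Symb N ℤ × Symb N ℤ)).range
    have hx : e x ∉ S := by
      intro hmem
      obtain ⟨y, hy, z, ⟨z, rfl⟩, hz⟩ := AddSubgroup.mem_sup.mp hmem
      exact hcon ⟨y, hy, z, hz.symm⟩
    obtain ⟨φ, hφ1, hφ2⟩ := exists_functional p S
      (fun v => AddSubgroup.mem_sup_right ⟨v, rfl⟩) (e x) hx
    let φ1 := φ.comp (AddMonoidHom.inl (Symb N ℤ) (Symb N ℤ))
    let φ2 := φ.comp (AddMonoidHom.inr (Symb N ℤ) (Symb N ℤ))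
    have hsplit : ∀ y : Symb N ℤ × Symb N ℤ, φ y = φ1 y.1 + φ2 y.2 := by
      intro y
      change φ y = φ (y.1, 0) + φ (0, y.2)
      rw [← map_add]; simp
    apply hφ2
    have key : ∀ f : Symb (q * N) ℤ, φ1 (a.Tr ℤ hq hqN f) +
        φ2 (a.Tr ℤ hq hqN (a.W ℤ hq.ne_zero f)) = 0 := by
      intro f
      have h1 := hφ1 (jmap a hq hqN f) (AddSubgroup.mem_sup_left ⟨f, rfl⟩)
      rw [hsplit] at h1
      exact h1
    rw [hsplit, he]
    change φ1 (eS (q * N) N ℤ (t ^ 2) x.1) + φ2 (eS (q * N) N ℤ (t ^ 2) x.2) = 0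
    rw [(coker_kill hp a hq hqN hℓ φ1 φ2 key x.1).1, (coker_kill hp a hq hqN hℓ φ1 φ2 key x.2).2,
      add_zero])
  refine ⟨2 * n, Polynomial.aeval (t ^ 2) R, fun x => ?_⟩
  obtain ⟨f, hf⟩ := h x
  refine ⟨f, hf.trans ?_⟩
  have hP : Polynomial.aeval (t ^ 2) (Polynomial.X ^ n + Polynomial.C (p : ℤ) * R) =
      t ^ (2 * n) + (p : RH (q * N)) * Polynomial.aeval (t ^ 2) R := by
    rw [map_add, map_mul, map_pow, Polynomial.aeval_X, Polynomial.aeval_C, pow_mul]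
    simp
  rw [← hP]
  have h2 := aeval_prodMap (eS (q * N) N ℤ (t ^ 2)) (eS (q * N) N ℤ (t ^ 2))
    (Polynomial.X ^ n + Polynomial.C (p : ℤ) * R) x
  rw [Polynomial.aeval_algHom_apply] at h2
  exact h2

end Fermat.Agent.Ihara
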