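import Fermat.Agent.Ihara.Kernel
import Fermat.Agent.Newform.BadPrime
import Fermat.Agent.Genus.LB

set_option autoImplicit false

/-!
# Transfer to cusp forms
-/

open CongruenceSubgroup UpperHalfPlane ModularForm
open scoped MatrixGroups ModularForm

noncomputable section

namespace Fermat.Agent.Ihara

open Fermat.Agent.Top Matrix ALD ModularCurve Fermat.Agent.Period Fermat.Agent.IntStr
  Fermat.Agent.Newform CuspForm Matrix.SpecialLinearGroup

variable {N q : ℕ}

instance neZero_mul_of_prime [NeZero N] [Fact q.Prime] : NeZero (q * N) :=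
  ⟨mul_ne_zero (Fact.out : q.Prime).ne_zero (NeZero.ne N)⟩

/-! ### the Atkin–Lehner automorphism -/

/-- conjugation by the Atkin–Lehner matrix -/
def cj (a : ALD N q) (hq : q ≠ 0) : Gamma0 (q * N) →* Gamma0 (q * N) :=
  have hdw : a.w.det ≠ 0 := by rw [a.det_w]; exact_mod_cast hq
  { toFun := fun γ => (a.conj_mt hq γ).choose
    map_one' := by
      apply mt_injective
      apply mul_right_cancel_det hdw
      rw [← (a.conj_mt hq 1).choose_spec, mt_one, Matrix.one_mul, Matrix.mul_one]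
    map_mul' := fun γ γ' => by
      apply mt_injective
      apply mul_right_cancel_det hdw
      rw [← (a.conj_mt hq (γ * γ')).choose_spec, mt_mul, mt_mul, Matrix.mul_assoc,
        ← (a.conj_mt hq γ').choose_spec, ← Matrix.mul_assoc, ← Matrix.mul_assoc]
      exact congrArg (· * mt γ') (a.conj_mt hq γ).choose_spec }

theorem cj_spec (a : ALD N q) (hq : q ≠ 0) (γ : Gamma0 (q * N)) :
    a.w * mt γ = mt (cj a hq γ) * a.w := (a.conj_mt hq γ).choose_spec

/-- The Atkin–Lehner operator on homomorphisms. -/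
def wop (a : ALD N q) (hq : q ≠ 0) {A : Type*} [AddCommGroup A]
    (φ : Additive (Gamma0 (q * N)) →+ A) : Additive (Gamma0 (q * N)) →+ A :=
  φ.comp (MonoidHom.toAdditive (cj a hq))

theorem ev_wop (a : ALD N q) (hq : q ≠ 0) {A : Type*} [AddCommGroup A]
    (φ : Additive (Gamma0 (q * N)) →+ A) (γ : Gamma0 (q * N)) :
    ev (wop a hq φ) γ = ev φ (cj a hq γ) := rfl

theorem toHom_W (a : ALD N q) (hq : q ≠ 0) {A : Type*} [AddCommGroup A] (f : Symb (q * N) A) :
    toHom (a.W A hq f) = wop a hq (toHom f) := by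
  refine AddMonoidHom.ext fun x => ?_
  obtain ⟨γ, rfl⟩ := Additive.ofMul.surjective x
  exact a.ev_toHom_W hq f (cj_spec a hq γ)

/-! ### the Atkin–Lehner operator on cusp forms -/

/-- The Atkin–Lehner matrix. -/
def alM (a : ALD N q) : GL (Fin 2) ℝ := glz a.w

theorem isAL_alM (a : ALD N q) (hq : q ≠ 0) : IsAL N q (alM a) a.x a.y a.z a.t := by
  have hdw : a.w.det ≠ 0 := by rw [a.det_w]; exact_mod_cast hq
  refine ⟨a.h, ?_⟩
  rw [alM, glz_val hdw]
  ext i j
  fin_cases i <;> fin_cases j <;> simp [w]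

/-- The Atkin–Lehner operator on cusp forms. -/
def wLin (a : ALD N q) (hq : q ≠ 0) [NeZero (q * N)] :
    CuspForm (Gamma0 (q * N)) 2 →ₗ[ℂ] CuspForm (Gamma0 (q * N)) 2 where
  toFun f := ((isAL_alM a hq).isCF hq (IsCF.of_cuspForm f)).toCuspForm
  map_add' f g := by
    apply DFunLike.coe_injective
    change (⇑(f + g) : ℍ → ℂ) ∣[(2 : ℤ)] alM a = (f : ℍ → ℂ) ∣[(2 : ℤ)] alM a +
      (g : ℍ → ℂ) ∣[(2 : ℤ)] alM a
    rw [FunLike.coe_add, SlashAction.add_slash]
  map_smul' c f := by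
    apply DFunLike.coe_injective
    change (⇑(c • f) : ℍ → ℂ) ∣[(2 : ℤ)] alM a = c • ((f : ℍ → ℂ) ∣[(2 : ℤ)] alM a)
    have hσ : UpperHalfPlane.σ (alM a) = ContinuousAlgEquiv.refl ℝ ℂ := by
      have : (0 : ℝ) < (alM a).det := by
        rw [alM, det_glz (by rw [a.det_w]; exact_mod_cast hq), a.det_w]
        exact_mod_cast Nat.pos_of_ne_zero hq
      rw [UpperHalfPlane.σ, if_pos this]
    funext z
    rw [Pi.smul_apply, ModularForm.slash_apply, ModularForm.slash_apply, hσ]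
    simp only [ContinuousAlgEquiv.refl_apply]
    change (c • f (alM a • z)) * _ * _ = c • (_ * _ * _)
    simp only [smul_eq_mul]
    ring

theorem coe_wLin (a : ALD N q) (hq : q ≠ 0) [NeZero (q * N)] (f : CuspForm (Gamma0 (q * N)) 2) :
    (wLin a hq f : ℍ → ℂ) = (f : ℍ → ℂ) ∣[(2 : ℤ)] alM a := rfl

theorem wLin_wLin (a : ALD N q) (hq : q ≠ 0) [NeZero (q * N)] (f : CuspForm (Gamma0 (q * N)) 2) :
    wLin a hq (wLin a hq f) = f := by
  apply DFunLike.coe_injective
  rw [coe_wLin, coe_wLin]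
  exact (isAL_alM a hq).sq hq (IsCF.of_cuspForm f)

/-- The Atkin–Lehner operator commutes with the other Hecke operators. -/
theorem wLin_hOp (a : ALD N q) (hq : q.Prime) [NeZero (q * N)] (ℓ : Nat.Primes)
    (hℓ : (ℓ : ℕ) ≠ q) (f : CuspForm (Gamma0 (q * N)) 2) :
    wLin a hq.ne_zero (hOp (q * N) ℓ f) = hOp (q * N) ℓ (wLin a hq.ne_zero f) := by
  apply DFunLike.coe_injective
  rw [coe_wLin]
  by_cases h : (ℓ : ℕ) ∣ q * N
  · have hN : (ℓ : ℕ) ∣ N := by
      rcases (Nat.Prime.dvd_mul ℓ.2).mp h with h1 | h1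
      · exact absurd ((Nat.prime_dvd_prime_iff_eq ℓ.2 hq).mp h1) hℓ
      · exact h1
    rw [hOp_of_dvd h, CuspForm.coe_heckeULin_apply, CuspForm.coe_heckeULin_apply, coe_wLin]
    exact ((isAL_alM a hq.ne_zero).heckeU_comm hq.ne_zero (IsCF.of_cuspForm f) ℓ.2 hN).symm
  · rw [hOp_of_not_dvd h, CuspForm.coe_heckeTLin_apply, CuspForm.coe_heckeTLin_apply, coe_wLin]
    exact ((isAL_alM a hq.ne_zero).heckeT_comm hq.ne_zero (IsCF.of_cuspForm f) ℓ.2 h).symm

/-- Periods of `f ∣ w`. -/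
theorem periodLin_wLin (a : ALD N q) (hq : q ≠ 0) [NeZero (q * N)]
    (f : CuspForm (Gamma0 (q * N)) 2) :
    periodLin (q * N) (wLin a hq f) = wop a hq (periodLin (q * N) f) := by
  have hdw : 0 < a.w.det := by rw [a.det_w]; exact_mod_cast Nat.pos_of_ne_zero hq
  have hdet : (0 : ℝ) < (alM a).det := by
    rw [alM, det_glz hdw.ne', a.det_w]
    exact_mod_cast Nat.pos_of_ne_zero hq
  have h1 : IsPrimitive (fun τ ↦ prim (q * N) f (alM a • τ)) (wLin a hq f) :=
    IsPrimitive.comp_smul_GL (prim_spec (q * N) f).1 _ hdet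
  obtain ⟨c, hc⟩ := IsPrimitive.exists_sub_eq_const (f := wLin a hq f)
    (prim_spec (q * N) (wLin a hq f)).1 h1
  refine AddMonoidHom.ext fun γ' ↦ ?_
  obtain ⟨γ, rfl⟩ := Additive.ofMul.surjective γ'
  change periodMap (q * N) (wLin a hq f) (Additive.ofMul γ) =
    periodMap (q * N) f (Additive.ofMul (cj a hq γ))
  rw [periodMap_apply _ (prim_spec (q * N) (wLin a hq f)) γ UpperHalfPlane.I,
    periodMap_apply _ (prim_spec (q * N) f) (cj a hq γ) (alM a • UpperHalfPlane.I)]
  have h2 : alM a • ((γ : SL(2, ℤ)) • UpperHalfPlane.I) =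
      ((cj a hq γ : Gamma0 (q * N)) : SL(2, ℤ)) • (alM a • UpperHalfPlane.I) := by
    have e1 : ∀ (δ : Gamma0 (q * N)) (z : ℍ), (δ : SL(2, ℤ)) • z = act (mt δ) z := by
      intro δ z
      unfold act
      have : glz (mt δ) = mapGL ℝ (δ : SL(2, ℤ)) := by
        apply Units.ext
        rw [glz_val (det_mt_pos δ).ne', mapGL_coe]
        rfl
      rw [this]
      rfl
    rw [e1, e1]
    change act a.w (act (mt γ) UpperHalfPlane.I) = act (mt _) (act a.w UpperHalfPlane.I)
    rw [← act_mul hdw.ne' (det_mt_pos γ).ne', cj_spec, act_mul (det_mt_pos _).ne' hdw.ne']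
  have h3 := hc ((γ : SL(2, ℤ)) • UpperHalfPlane.I)
  have h4 := hc UpperHalfPlane.I
  rw [h2] at h3
  linear_combination h3 - h4

/-! ### Eichler–Shimura -/

/-- complex conjugation of homomorphisms -/
def cnj {G : Type*} [AddMonoid G] (φ : G →+ ℂ) : G →+ ℂ := (starRingEnd ℂ).toAddMonoidHom.comp φ

theorem cnj_apply {G : Type*} [AddMonoid G] (φ : G →+ ℂ) (x : G) :
    cnj φ x = starRingEnd ℂ (φ x) := rfl

theorem exists_periods {M : ℕ} [NeZero M] {ψ : Additive (Gamma0 M) →+ ℂ}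
    (hψ : Period.IsParabolicHom (Gamma0 M) ψ) :
    ∃ F G : CuspForm (Gamma0 M) 2, ψ = periodLin M F + cnj (periodLin M G) := by
  have h := (Genus.eichlerShimura M).2
  have hmem : ψ ∈ LinearMap.range (periodHomPair M) := by
    rw [h, Period.mem_parabolicHoms_iff]; exact hψ
  obtain ⟨⟨f, g⟩, hfg⟩ := hmem
  rw [periodHomPair_apply] at hfg
  refine ⟨f + g, -conjForm (f - g), ?_⟩
  refine AddMonoidHom.ext fun x => ?_
  obtain ⟨γ, rfl⟩ := Additive.ofMul.surjective x
  have h1 : Period.charInvolution M ℂ ℂ (periodLin M (f - g)) (Additive.ofMul γ) =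
      -(starRingEnd ℂ) (periodLin M (conjForm (f - g)) (Additive.ofMul γ)) :=
    charInvolution_periodLin (f - g) γ
  rw [← hfg]
  rw [map_sub, map_sub] at h1
  have e1 : (periodLin M (f + g) + cnj (periodLin M (-conjForm (f - g)))) (Additive.ofMul γ) =
      periodLin M (f + g) (Additive.ofMul γ) +
        (starRingEnd ℂ) (periodLin M (-conjForm (f - g)) (Additive.ofMul γ)) := rfl
  rw [e1, map_neg (periodLin M), AddMonoidHom.neg_apply, map_neg (starRingEnd ℂ), ← h1,
    map_add (periodLin M)]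
  simp only [AddMonoidHom.add_apply, AddMonoidHom.sub_apply]
  ring

theorem eq_zero_of_periods {M : ℕ} [NeZero M] {F G : CuspForm (Gamma0 M) 2}
    (h : periodLin M F + cnj (periodLin M G) = 0) : F = 0 ∧ G = 0 := by
  have h1 : ∀ γ : Gamma0 M, periodLin M F (Additive.ofMul γ) +
      (starRingEnd ℂ) (periodLin M G (Additive.ofMul γ)) = 0 := fun γ =>
    DFunLike.congr_fun h (Additive.ofMul γ)
  constructor
  · apply eq_zero_of_period_eq_conj F (-G)
    intro γ
    rw [map_neg, AddMonoidHom.neg_apply, map_neg]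
    exact eq_neg_of_add_eq_zero_left (h1 γ)
  · apply eq_zero_of_period_eq_conj G (-F)
    intro γ
    rw [map_neg, AddMonoidHom.neg_apply, map_neg]
    have h2 := congrArg (starRingEnd ℂ) (h1 γ)
    rw [map_add, Complex.conj_conj, map_zero] at h2
    exact eq_neg_of_add_eq_zero_right h2

end Fermat.Agent.Ihara
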