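import Fermat.Agent.Ihara.Coker

set_option autoImplicit false

/-!
# The kernel of `(Tr, Tr ∘ W)` sees the eigensystem
-/

open CongruenceSubgroup
open scoped MatrixGroups

noncomputable section

namespace Fermat.Agent.Ihara

open Fermat.Agent.Top Matrix ALD ModularCurve

variable {N q : ℕ}

/-! ### characters with values in a field of characteristic `p` -/

theorem exists_inv_mod {R K : Type*} [CommRing R] [Field K] {p : ℕ} [Fact p.Prime]
    (hp : (p : K) = 0) (χ : R →+* K) (r : R) (hint : IsIntegral ℤ (χ r)) (hr : χ r ≠ 0) :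
    ∃ r', χ r' * χ r = 1 := by
  have : CharP K p := (CharP.charP_iff_prime_eq_zero Fact.out).mpr hp
  let _ : Algebra (ZMod p) K := ZMod.algebra K p
  have h1 : IsIntegral (ZMod p) (χ r) := hint.tower_top
  have h2 := h1.inv_mem_adjoin
  rw [Algebra.adjoin_singleton_eq_range_aeval] at h2
  obtain ⟨P, hP⟩ := h2
  obtain ⟨Q, hQ⟩ := Polynomial.map_surjective (Int.castRingHom (ZMod p)) ZMod.intCast_surjective P
  refine ⟨Polynomial.aeval r Q, ?_⟩
  have h3 : χ (Polynomial.aeval r Q) = Polynomial.aeval (χ r) P := by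
    have h5 : P = Polynomial.map (algebraMap ℤ (ZMod p)) Q := hQ.symm
    rw [h5, Polynomial.aeval_map_algebraMap]
    exact (Polynomial.aeval_algHom_apply χ.toIntAlgHom r Q).symm
  rw [h3]
  have h4 : Polynomial.aeval (χ r) P = (χ r)⁻¹ := hP
  rw [h4, inv_mul_cancel₀ hr]

theorem isMaximal_ker {R K : Type*} [CommRing R] [Field K] {p : ℕ} [Fact p.Prime]
    (hp : (p : K) = 0) (χ : R →+* K) (hint : ∀ r, IsIntegral ℤ (χ r)) :
    (RingHom.ker χ).IsMaximal := by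
  rw [Ideal.isMaximal_iff]
  constructor
  · rw [RingHom.mem_ker, map_one]; exact one_ne_zero
  · intro J x hJ hx hxJ
    obtain ⟨r', hr'⟩ := exists_inv_mod hp χ x (hint x) (by rwa [RingHom.mem_ker] at hx)
    have h1 : r' * x - 1 ∈ J := hJ (by rw [RingHom.mem_ker, map_sub, map_mul, map_one, hr', sub_self])
    have h2 := J.sub_mem (J.mul_mem_left r' hxJ) h1
    rwa [sub_sub_cancel] at h2

/-! ### the full Hecke algebra on symbols -/

/-- The action of the full polynomial Hecke algebra on symbols. -/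
def eF (N : ℕ) (A : Type*) [AddCommGroup A] : HeckeAlg →ₐ[ℤ] Module.End ℤ (Symb N A) :=
  evalEnd (fun ℓ : Nat.Primes => ((Ts N A ℓ).toIntLinearMap : Module.End ℤ (Symb N A)))
    (fun ℓ ℓ' => LinearMap.ext fun f => Ts_comm ℓ ℓ' f)

theorem eF_heckeGen (N : ℕ) (A : Type*) [AddCommGroup A] (ℓ : Nat.Primes) (f : Symb N A) :
    eF N A (heckeGen ℓ) f = Ts N A ℓ f := by
  rw [eF, heckeGen, evalEnd_X]; rfl

/-- inclusion of polynomial algebras -/
def incR (M : ℕ) : RH M →ₐ[ℤ] HeckeAlg := MvPolynomial.rename Subtype.val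

theorem incR_X (M : ℕ) (ℓ : GP M) : incR M (MvPolynomial.X ℓ) = heckeGen ℓ.1 :=
  MvPolynomial.rename_X _ _

theorem eS_eq (M L : ℕ) (A : Type*) [AddCommGroup A] (t : RH M) :
    eS M L A t = eF L A (incR M t) := by
  symm
  refine eq_evalEnd (TE_comm M L A) ((eF L A).comp (incR M)).toRingHom (fun ℓ => ?_) t
  change eF L A (incR M (MvPolynomial.X ℓ)) = _
  rw [incR_X]
  exact LinearMap.ext fun f => eF_heckeGen L A ℓ.1 f

theorem toHom_eF {A : Type*} [AddCommGroup A] (t : HeckeAlg) (f : Symb N A) :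
    toHom (eF N A t f) = evalHom N A t (toHom f) :=
  evalEnd_natural _ (hopEnd_comm N A) (toHomA N A) (fun ℓ f => toHom_Ts ℓ f) t f

theorem evalPar_eq_zero {t : HeckeAlg} (h : eF N ℤ t = 0) : evalPar N ℤ t = 0 := by
  refine LinearMap.ext fun φ => Subtype.ext ?_
  obtain ⟨f, hf⟩ := exists_lift φ.1 φ.2
  rw [coe_evalPar, ← hf, ← toHom_eF, h]
  rfl

/-- Eigensystems occur modulo `p` in modular symbols. -/
theorem exists_mod_vector [NeZero N] {K : Type*} [Field K] {p : ℕ} [Fact p.Prime]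
    (hpK : (p : K) = 0) (χ : HeckeAlg →+* K) (hint : ∀ t, IsIntegral ℤ (χ t))
    (hχ : ∀ t, eF N ℤ t = 0 → χ t = 0) :
    ∃ c : Symb N ℤ, (¬ ∃ y, c = p • y) ∧ ∀ t, χ t = 0 → ∃ y, eF N ℤ t c = p • y :=
  exists_mod_p_eigen (eF N ℤ).toRingHom (RingHom.ker χ) (isMaximal_ker hpK χ hint) p
    (Fact.out : p.Prime).ne_zero (by rw [RingHom.mem_ker, map_natCast, hpK]) hχ

/-! ### change of coefficients -/

/-- change of coefficients -/
def mapS (N : ℕ) {A B : Type*} [AddCommGroup A] [AddCommGroup B] (g : A →+ B) :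
    Symb N A →+ Symb N B where
  toFun f := ⟨fun u v => g (f u v), f.2.map g⟩
  map_zero' := Subtype.ext (funext fun _ => funext fun _ => map_zero g)
  map_add' _ _ := Subtype.ext (funext fun _ => funext fun _ => map_add g _ _)

section mapS

variable {A B : Type*} [AddCommGroup A] [AddCommGroup B] (g : A →+ B)

theorem mapS_apply (f : Symb N A) (u v : V2) : mapS N g f u v = g (f u v) := rfl

theorem mapS_Ts (ℓ : Nat.Primes) (f : Symb N A) :
    mapS N g (Ts N A ℓ f) = Ts N B ℓ (mapS N g f) := by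
  apply Subtype.ext
  funext u v
  change g (Ts N A ℓ f u v) = Ts N B ℓ (mapS N g f) u v
  rw [Ts_apply, Ts_apply, map_sum]
  rfl

theorem mapS_W (a : ALD N q) (hq : q ≠ 0) (f : Symb (q * N) A) :
    mapS (q * N) g (a.W A hq f) = a.W B hq (mapS (q * N) g f) := by
  apply Subtype.ext
  funext u v
  change g (a.W A hq f u v) = a.W B hq (mapS (q * N) g f) u v
  rw [W_apply, W_apply]
  rfl

theorem mapS_res {M : ℕ} (h : N ∣ M) (f : Symb N A) :
    mapS M g (resS h f) = resS h (mapS N g f) := rfl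

theorem mapS_eS (M : ℕ) (t : RH M) (f : Symb N A) :
    mapS N g (eS M N A t f) = eS M N B t (mapS N g f) :=
  evalEnd_natural _ (TE_comm M N B) (mapS N g) (fun ℓ f => mapS_Ts g ℓ.1 f) t f

end mapS

/-- A symbol whose restriction is an eigenvector of `W` gives a gluing pair. -/
theorem glue_of_W {A : Type*} [AddCommGroup A] (a : ALD N q) (hq : q ≠ 0) (ε : ℤ) (c : Symb N A)
    (h : resS (dvd_mul_left N q) c = ε • a.W A hq (resS (dvd_mul_left N q) c)) :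
    Glue (q : ℤ) (toHom c) (ε • toHom c) := by
  intro γ γ' hr
  have hq0 : (q : ℤ) ≠ 0 := by exact_mod_cast hq
  obtain ⟨δ, hδ⟩ : ∃ δ : Gamma0 (q * N), mt γ = mt δ := by
    obtain ⟨c, hc⟩ := dvd_en γ'
    have hdvd : ((q * N : ℕ) : ℤ) ∣ mt γ 1 0 := by
      rw [mt_apply, hr.h10, hc]
      exact ⟨c, by push_cast; ring⟩
    exact exists_mt (isDelta_of_det hdvd (by rw [det_mt]; exact isCoprime_one_left)) (det_mt γ)
  obtain ⟨δ', h1⟩ := a.conj_mt hq δ
  obtain ⟨ξ, hξ⟩ := a.w_eq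
  have h2 : HM q none * mt γ = mt γ' * HM q none := by
    ext i j
    fin_cases i <;> fin_cases j <;> simp [HM, Matrix.mul_apply, Fin.sum_univ_two, mt_apply]
    · rw [hr.h00]; ring
    · exact hr.h01.symm
    · rw [hr.h10]; ring
    · exact hr.h11.symm
  have hHM : (HM q none).det ≠ 0 := by rw [det_HM]; exact hq0
  -- `δ' = ξ γ' ξ⁻¹`
  have h3 : ξ * γ' = incl (dvd_mul_left N q) δ' * ξ := by
    apply mt_injective
    rw [mt_mul, mt_mul, mt_incl]
    apply mul_right_cancel_det hHM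
    rw [Matrix.mul_assoc, ← h2, ← Matrix.mul_assoc, ← hξ, Matrix.mul_assoc, ← hξ, hδ, h1]
  have h4 : ev (toHom (resS (dvd_mul_left N q) c)) δ =
      ε • ev (toHom (resS (dvd_mul_left N q) c)) δ' := by
    rw [← a.ev_toHom_W hq _ h1]
    conv_lhs => rw [h]
    rfl
  rw [ev_toHom_resS, ev_toHom_resS] at h4
  have h5 : incl (dvd_mul_left N q) δ = γ := mt_injective (by rw [mt_incl, hδ])
  have h6 : ev (toHom c) (incl (dvd_mul_left N q) δ') = ev (toHom c) γ' := by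
    have := congrArg (ev (toHom c)) h3
    rw [ev_mul, ev_mul, add_comm] at this
    exact (add_right_cancel this).symm
  rw [h5, h6] at h4
  exact h4

theorem toHom_zsmul {A : Type*} [AddCommGroup A] (ε : ℤ) (c : Symb N A) :
    toHom (ε • c) = ε • toHom c := map_zsmul (toHomA N A) ε c

/-- **Injectivity** of `c ↦ c - ε W c` modulo `p` up to Eisenstein. -/
theorem eS_cube_eq_zero [NeZero N] {p : ℕ} [Fact p.Prime] (a : ALD N q) (hq : q.Prime)
    (hqN : ¬ q ∣ N) {ℓ : GP (q * N)} (hℓ : AuxP N q p ℓ) (ε : ℤ) (c : Symb N (ZMod p))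
    (h : resS (dvd_mul_left N q) c = ε • a.W (ZMod p) hq.ne_zero (resS (dvd_mul_left N q) c)) :
    eS (q * N) N (ZMod p) (tz (q * N) ℓ ^ 3) c = 0 := by
  have hg := hℓ.goodP
  have g1 := glue_of_W a hq.ne_zero ε c h
  have g2 := glue_of_W a hq.ne_zero ε (Ts N (ZMod p) ℓ.1 c) (by
    rw [← Ts_resS _ ℓ.1 ℓ.2, a.W_Ts hq.ne_zero ℓ.1 ℓ.2, ← map_zsmul, ← h])
  rw [toHom_Ts, ← map_zsmul] at g2
  have e := g1.hop_sq hq hqN ℓ.1 ℓ.1 g2 hg hg hℓ.hI
  have h2 : toHom (eS (q * N) N (ZMod p) (tz (q * N) ℓ ^ 2) c) = 0 := by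
    rw [pow_two, map_mul, Module.End.mul_apply, eS_tz, eS_tz]
    change toHomA N (ZMod p) _ = 0
    rw [map_sub, toHomA_apply, toHom_Ts, map_nsmul, toHomA_apply]
    change hop N ℓ.1 (toHomA N (ZMod p) (Ts N (ZMod p) ℓ.1 c - ((ℓ.1 : ℕ) + 1) • c)) -
      ((ℓ.1 : ℕ) + 1) • toHomA N (ZMod p) (Ts N (ZMod p) ℓ.1 c - ((ℓ.1 : ℕ) + 1) • c) = 0
    rw [map_sub, map_nsmul, toHomA_apply, toHomA_apply, toHom_Ts, sub_eq_zero]
    exact e
  have h3 := Ts_eq_of_toHom_eq_zero _ h2 ℓ.1 hg.hN hℓ.hN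
  rw [pow_succ', map_mul, Module.End.mul_apply, eS_tz, h3, sub_self]

/-- A symbol modulo `p` is zero iff divisible by `p`. -/
theorem exists_nsmul_of_mapS {p : ℕ} (hp : p ≠ 0) (f : Symb N ℤ)
    (h : mapS N (Int.castAddHom (ZMod p)) f = 0) : ∃ g : Symb N ℤ, f = p • g :=
  exists_eq_nsmul hp f fun u v => congrFun (congrFun (congrArg Subtype.val h) u) v

/-- **The kernel of `(Tr, Tr ∘ W)` sees the eigensystem `χ`.** -/
theorem exists_kernel [NeZero N] {K : Type*} [Field K] {p : ℕ} [Fact p.Prime] (hp2 : p ≠ 2)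
    (hpK : (p : K) = 0) (χ : HeckeAlg →+* K) (hint : ∀ t, IsIntegral ℤ (χ t))
    (hχ : ∀ t, eF N ℤ t = 0 → χ t = 0) (a : ALD N q) (hq : q.Prime) (hqN : ¬ q ∣ N)
    (ε : ℤ) (hε : ε * ε = 1) (hχq : χ (heckeGen ⟨q, hq⟩) = ε * (q + 1))
    (ℓ : GP (q * N)) (hℓ : AuxP N q p ℓ) (hℓχ : χ (heckeGen ℓ.1) ≠ (ℓ.1 : ℕ) + 1) :
    ∃ κ : Symb (q * N) ℤ, a.Tr ℤ hq hqN κ = 0 ∧ a.Tr ℤ hq hqN (a.W ℤ hq.ne_zero κ) = 0 ∧
      ∀ r : RH (q * N), eS (q * N) (q * N) ℤ r κ = 0 → χ (incR (q * N) r) = 0 := by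
  obtain ⟨c, hc1, hc2⟩ := exists_mod_vector hpK χ hint hχ
  set χ0 : RH (q * N) →+* K := χ.comp (incR (q * N)).toRingHom with hχ0
  have hχ0' : ∀ r, χ0 r = χ (incR (q * N) r) := fun _ => rfl
  have hc0 : ∀ r : RH (q * N), χ0 r = 0 → ∃ y, eS (q * N) N ℤ r c = p • y := by
    intro r hr
    obtain ⟨y, hy⟩ := hc2 _ hr
    exact ⟨y, by rw [eS_eq]; exact hy⟩
  have htz : χ0 (tz (q * N) ℓ) ≠ 0 := by
    rw [tz, map_sub, map_natCast, hχ0', incR_X, sub_ne_zero]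
    push_cast
    exact hℓχ
  -- `T_q c ≡ ε (q + 1) c`
  obtain ⟨y0, hy0⟩ : ∃ y0, Ts N ℤ ⟨q, hq⟩ c - ε • ((q + 1) • c) = p • y0 := by
    obtain ⟨y, hy⟩ := hc2 (heckeGen ⟨q, hq⟩ - ((ε * (q + 1 : ℕ) : ℤ) : HeckeAlg)) (by
      rw [map_sub, map_intCast, hχq]; push_cast; ring)
    refine ⟨y, ?_⟩
    rw [map_sub, LinearMap.sub_apply, map_intCast, Module.End.intCast_apply] at hy
    have h5 : eF N ℤ (heckeGen ⟨q, hq⟩) c = Ts N ℤ ⟨q, hq⟩ c := eF_heckeGen N ℤ _ c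
    calc Ts N ℤ ⟨q, hq⟩ c - ε • ((q + 1) • c) =
        eF N ℤ (heckeGen ⟨q, hq⟩) c - (ε * (q + 1 : ℕ) : ℤ) • c := by
          rw [h5, mul_smul, natCast_zsmul]
      _ = p • y := hy
  set x : Symb (q * N) ℤ := resS (dvd_mul_left N q) c -
    ε • a.W ℤ hq.ne_zero (resS (dvd_mul_left N q) c) with hx
  have hx1 : a.Tr ℤ hq hqN x = p • y0 := by
    rw [hx, map_sub, map_zsmul, a.Tr_resS hq hqN, a.Tr_W_resS hq hqN, ← hy0]
  have hx2 : a.Tr ℤ hq hqN (a.W ℤ hq.ne_zero x) = p • (-ε • y0) := by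
    rw [hx, map_sub, map_sub, map_zsmul, map_zsmul, a.W_W, a.Tr_W_resS hq hqN, a.Tr_resS hq hqN,
      smul_comm p (-ε) y0, ← hy0, smul_sub, ← mul_smul, neg_mul, hε, neg_smul, neg_smul, one_smul,
      sub_neg_eq_add]
    abel
  obtain ⟨n, R, hR⟩ := coker_main hp2 a hq hqN hℓ
  set s : RH (q * N) := tz (q * N) ℓ ^ n + (p : RH (q * N)) * R with hs
  have hsχ : χ0 s ≠ 0 := by
    rw [hs, map_add, map_mul, map_natCast, hpK, zero_mul, add_zero, map_pow]
    exact pow_ne_zero _ htz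
  obtain ⟨f, hf⟩ := hR (y0, -ε • y0)
  rw [jmap_apply, Prod.mk.injEq] at hf
  obtain ⟨hf1, hf2⟩ := hf
  refine ⟨eS (q * N) (q * N) ℤ s x - p • f, ?_, ?_, ?_⟩
  · rw [map_sub, eS_Tr, hx1, map_nsmul, map_nsmul, hf1, sub_self]
  · rw [map_sub, map_sub, eS_W, eS_Tr, hx2, map_nsmul, map_nsmul, map_nsmul, hf2, sub_self]
  intro r hr
  by_contra hrχ
  have hrs : χ0 (r * s) ≠ 0 := by rw [map_mul]; exact mul_ne_zero hrχ hsχ
  obtain ⟨r', hr'⟩ := exists_inv_mod hpK χ0 (r * s) (hint _) hrs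
  have hinv : ∀ (t : RH (q * N)) (t' : RH (q * N)), χ0 t' * χ0 t = 1 → ∃ y : Symb N ℤ,
      eS (q * N) N ℤ (1 - t' * t) c = p • y := fun t t' h => hc0 _ (by
    rw [map_sub, map_one, map_mul, h, sub_self])
  obtain ⟨y1, hy1⟩ := hinv _ _ hr'
  -- `x` is divisible by `p`
  obtain ⟨x2, hx2'⟩ : ∃ x2, x = p • x2 := by
    have e1 : eS (q * N) (q * N) ℤ (1 - r' * (r * s)) x = p • (resS (dvd_mul_left N q) y1 -
        ε • a.W ℤ hq.ne_zero (resS (dvd_mul_left N q) y1)) := by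
      rw [hx, map_sub, map_zsmul, ← eS_W, ← eS_res, hy1, map_nsmul, map_nsmul, smul_sub,
        smul_comm ε p]
    have e2 : eS (q * N) (q * N) ℤ (r' * (r * s)) x =
        p • eS (q * N) (q * N) ℤ (r' * r) f := by
      have h1 : eS (q * N) (q * N) ℤ s x = (eS (q * N) (q * N) ℤ s x - p • f) + p • f := by
        rw [sub_add_cancel]
      rw [map_mul, map_mul, Module.End.mul_apply, Module.End.mul_apply, h1, map_add, hr, zero_add,
        map_nsmul, map_nsmul, map_mul, Module.End.mul_apply]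
    refine ⟨(resS (dvd_mul_left N q) y1 -
        ε • a.W ℤ hq.ne_zero (resS (dvd_mul_left N q) y1)) + eS (q * N) (q * N) ℤ (r' * r) f, ?_⟩
    have h3 : x = eS (q * N) (q * N) ℤ (1 - r' * (r * s)) x +
        eS (q * N) (q * N) ℤ (r' * (r * s)) x := by
      rw [← LinearMap.add_apply, ← map_add, sub_add_cancel, map_one]; rfl
    rw [h3, e1, e2, ← smul_add]
  -- reduce modulo `p`
  have hp0 : p ≠ 0 := (Fact.out : p.Prime).ne_zero
  have hmapp : ∀ {M : ℕ} (y : Symb M ℤ), mapS M (Int.castAddHom (ZMod p)) (p • y) = 0 := by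
    intro M y
    apply Subtype.ext
    funext u v
    change (((p • y : Symb M ℤ) u v : ℤ) : ZMod p) = 0
    have : (p • y : Symb M ℤ) u v = p • (y u v) := rfl
    rw [this, nsmul_eq_mul]
    simp
  have hmod : resS (dvd_mul_left N q) (mapS N (Int.castAddHom (ZMod p)) c) =
      ε • a.W (ZMod p) hq.ne_zero (resS (dvd_mul_left N q)
        (mapS N (Int.castAddHom (ZMod p)) c)) := by
    have h1 := hmapp x2
    rw [← hx2', hx, map_sub, map_zsmul, mapS_W, mapS_res, sub_eq_zero] at h1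
    exact h1
  have h3 := eS_cube_eq_zero a hq hqN hℓ ε _ hmod
  rw [← mapS_eS] at h3
  obtain ⟨y2, hy2⟩ := exists_nsmul_of_mapS hp0 _ h3
  have htz3 : χ0 (tz (q * N) ℓ ^ 3) ≠ 0 := by rw [map_pow]; exact pow_ne_zero _ htz
  obtain ⟨r'', hr''⟩ := exists_inv_mod hpK χ0 _ (hint _) htz3
  obtain ⟨y3, hy3⟩ := hinv _ _ hr''
  apply hc1
  refine ⟨y3 + eS (q * N) N ℤ r'' y2, ?_⟩
  have h4 : c = eS (q * N) N ℤ (1 - r'' * tz (q * N) ℓ ^ 3) c +
      eS (q * N) N ℤ (r'' * tz (q * N) ℓ ^ 3) c := by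
    rw [← LinearMap.add_apply, ← map_add, sub_add_cancel, map_one]; rfl
  rw [smul_add, ← hy3, ← map_nsmul, ← hy2]
  conv_lhs => rw [h4]
  rw [map_mul (eS (q * N) N ℤ) r'', Module.End.mul_apply]

end Fermat.Agent.Ihara
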