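import Fermat.Agent.Ihara.Forms

set_option autoImplicit false

/-!
# The `q`-new subspace and the transfer of eigensystems
-/

open CongruenceSubgroup UpperHalfPlane ModularForm
open scoped MatrixGroups ModularForm

noncomputable section

namespace Fermat.Agent.Ihara

open Fermat.Agent.Top Matrix ALD ModularCurve Fermat.Agent.Period Fermat.Agent.IntStr
  Fermat.Agent.Newform CuspForm Matrix.SpecialLinearGroup

variable {N q : ℕ}

/-- The prime `q` -/
def pr {q : ℕ} (hq : q.Prime) : Nat.Primes := ⟨q, hq⟩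

@[simp] theorem coe_pr {q : ℕ} (hq : q.Prime) : ((pr hq : Nat.Primes) : ℕ) = q := rfl

/-- The action of the Hecke algebra on cusp forms. -/
def eC (M : ℕ) [NeZero M] : RH M →ₐ[ℤ] Module.End ℂ (CuspForm (Gamma0 M) 2) :=
  evalEnd (fun ℓ : GP M => hOp M ℓ.1) (fun ℓ ℓ' => hOp_comm ℓ.1 ℓ'.1)

theorem eC_X (M : ℕ) [NeZero M] (ℓ : GP M) : eC M (MvPolynomial.X ℓ) = hOp M ℓ.1 :=
  evalEnd_X _ _ ℓ

theorem periodLin_hOp (M : ℕ) [NeZero M] (ℓ : Nat.Primes) (f : CuspForm (Gamma0 M) 2) :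
    periodLin M (hOp M ℓ f) = hop M ℓ (periodLin M f) := by
  by_cases h : (ℓ : ℕ) ∣ M
  · rw [hOp_of_dvd h]; exact periodLin_heckeULin ℓ.2 h f
  · rw [hOp_of_not_dvd h]; exact periodLin_heckeTLin ℓ.2 h f

theorem evalHom_incR (M : ℕ) (A : Type*) [AddCommGroup A] (t : RH M) :
    evalHom M A (incR M t) = evalEnd (fun ℓ : GP M => hopEnd M A ℓ.1)
      (fun ℓ ℓ' => hopEnd_comm M A ℓ.1 ℓ'.1) t := by
  refine eq_evalEnd _ ((evalHom M A).comp (incR M)).toRingHom (fun ℓ => ?_) t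
  change evalHom M A (incR M (MvPolynomial.X ℓ)) = _
  rw [incR_X]
  exact LinearMap.ext fun φ => evalHom_heckeGen M A ℓ.1 φ

theorem periodLin_eC (M : ℕ) [NeZero M] (t : RH M) (f : CuspForm (Gamma0 M) 2) :
    periodLin M (eC M t f) = evalHom M ℂ (incR M t) (periodLin M f) := by
  rw [evalHom_incR]
  exact evalEnd_natural _ _ (periodLin M).toAddMonoidHom (fun ℓ f => periodLin_hOp M ℓ.1 f) t f

theorem toHom_eS {M : ℕ} {A : Type*} [AddCommGroup A] (t : RH M) (f : Symb M A) :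
    toHom (eS M M A t f) = evalHom M A (incR M t) (toHom f) := by
  rw [eS_eq, toHom_eF]

/-- The `q`-new subspace. -/
def newSub (a : ALD N q) (hq : q.Prime) [NeZero (q * N)] :
    Submodule ℂ (CuspForm (Gamma0 (q * N)) 2) :=
  LinearMap.ker (hOp (q * N) (pr hq) + wLin a hq.ne_zero) ⊓
    LinearMap.ker (hOp (q * N) (pr hq) * wLin a hq.ne_zero + 1)

theorem mem_newSub {a : ALD N q} {hq : q.Prime} [NeZero (q * N)]
    {f : CuspForm (Gamma0 (q * N)) 2} : f ∈ newSub a hq ↔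
      hOp (q * N) (pr hq) f + wLin a hq.ne_zero f = 0 ∧
      hOp (q * N) (pr hq) (wLin a hq.ne_zero f) + f = 0 := Iff.rfl

/-- The new subspace is stable under all Hecke operators. -/
theorem hOp_mem_newSub {a : ALD N q} {hq : q.Prime} [NeZero (q * N)]
    {f : CuspForm (Gamma0 (q * N)) 2} (hf : f ∈ newSub a hq) (ℓ : Nat.Primes) :
    hOp (q * N) ℓ f ∈ newSub a hq := by
  rw [mem_newSub] at hf ⊢
  obtain ⟨h1, h2⟩ := hf
  by_cases hℓ : (ℓ : ℕ) = q
  · have hℓ' : ℓ = (pr hq) := Subtype.ext hℓ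
    subst hℓ'
    have e1 : hOp (q * N) (pr hq) f = -wLin a hq.ne_zero f := eq_neg_of_add_eq_zero_left h1
    have e2 : hOp (q * N) (pr hq) (wLin a hq.ne_zero f) = -f := eq_neg_of_add_eq_zero_left h2
    constructor
    · rw [e1, map_neg, map_neg, e2, wLin_wLin]; abel
    · rw [e1, map_neg, wLin_wLin, map_neg, e1]; abel
  · constructor
    · rw [wLin_hOp a hq ℓ hℓ]
      have hc : hOp (q * N) (pr hq) (hOp (q * N) ℓ f) = hOp (q * N) ℓ (hOp (q * N) (pr hq) f) :=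
        LinearMap.congr_fun (hOp_comm (N := q * N) (pr hq) ℓ) f
      rw [hc, ← map_add, h1, map_zero]
    · rw [wLin_hOp a hq ℓ hℓ]
      have hc : hOp (q * N) (pr hq) (hOp (q * N) ℓ (wLin a hq.ne_zero f)) =
          hOp (q * N) ℓ (hOp (q * N) (pr hq) (wLin a hq.ne_zero f)) :=
        LinearMap.congr_fun (hOp_comm (N := q * N) (pr hq) ℓ) _
      rw [hc, ← map_add, h2, map_zero]

theorem wop_comp (a : ALD N q) (hq : q ≠ 0) {A B : Type*} [AddCommGroup A] [AddCommGroup B]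
    (g : A →+ B) (φ : Additive (Gamma0 (q * N)) →+ A) :
    wop a hq (g.comp φ) = g.comp (wop a hq φ) := rfl

theorem wop_add (a : ALD N q) (hq : q ≠ 0) {A : Type*} [AddCommGroup A]
    (φ φ' : Additive (Gamma0 (q * N)) →+ A) : wop a hq (φ + φ') = wop a hq φ + wop a hq φ' := rfl

theorem hop_cnj {M : ℕ} (ℓ : Nat.Primes) (φ : Additive (Gamma0 M) →+ ℂ) :
    hop M ℓ (cnj φ) = cnj (hop M ℓ φ) := hop_comp_left ℓ _ φ

theorem cnj_add {G : Type*} [AddMonoid G] (φ ψ : G →+ ℂ) : cnj (φ + ψ) = cnj φ + cnj ψ := by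
  ext x; exact map_add (starRingEnd ℂ) _ _

/-- toHom of the kernel relation -/
theorem hop_add_wop_eq_zero (a : ALD N q) (hq : q.Prime) (hqN : ¬ q ∣ N) {κ : Symb (q * N) ℤ}
    (h : a.Tr ℤ hq hqN κ = 0) :
    hop (q * N) (pr hq) (toHom κ) + wop a hq.ne_zero (toHom κ) = 0 := by
  have h1 : (a.Tr ℤ hq hqN κ).1 = (Ts (q * N) ℤ (pr hq) κ + a.W ℤ hq.ne_zero κ).1 :=
    a.Tr_eq hq hqN κ
  rw [h] at h1
  have h2 : Ts (q * N) ℤ (pr hq) κ + a.W ℤ hq.ne_zero κ = 0 := Subtype.ext h1.symm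
  have h3 := congrArg toHom h2
  rw [toHom_add, toHom_Ts, toHom_W] at h3
  exact h3

/-- The kernel of `(Tr, Tr ∘ W)` comes from the new subspace. -/
theorem exists_forms (a : ALD N q) (hq : q.Prime) (hqN : ¬ q ∣ N) [NeZero (q * N)]
    {κ : Symb (q * N) ℤ} (h1 : a.Tr ℤ hq hqN κ = 0)
    (h2 : a.Tr ℤ hq hqN (a.W ℤ hq.ne_zero κ) = 0) :
    ∃ F G : CuspForm (Gamma0 (q * N)) 2, F ∈ newSub a hq ∧ G ∈ newSub a hq ∧
      (Int.castAddHom ℂ).comp (toHom κ) =
        periodLin (q * N) F + cnj (periodLin (q * N) G) := by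
  have hpar : Period.IsParabolicHom (Gamma0 (q * N)) ((Int.castAddHom ℂ).comp (toHom κ)) := by
    intro γ hγ
    have := toHom_parabolic κ γ hγ
    change ((toHom κ (Additive.ofMul γ) : ℤ) : ℂ) = 0
    rw [this, Int.cast_zero]
  obtain ⟨F, G, hFG⟩ := exists_periods hpar
  -- apply an operator relation
  have key : ∀ {ψ : Additive (Gamma0 (q * N)) →+ ℤ} {F G : CuspForm (Gamma0 (q * N)) 2},
      (Int.castAddHom ℂ).comp ψ = periodLin (q * N) F + cnj (periodLin (q * N) G) →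
      hop (q * N) (pr hq) ψ + wop a hq.ne_zero ψ = 0 →
      hOp (q * N) (pr hq) F + wLin a hq.ne_zero F = 0 ∧
      hOp (q * N) (pr hq) G + wLin a hq.ne_zero G = 0 := by
    intro ψ F G hψ h
    apply eq_zero_of_periods
    rw [map_add, map_add, cnj_add, periodLin_hOp, periodLin_hOp, periodLin_wLin, periodLin_wLin,
      ← hop_cnj]
    have e1 : cnj (wop a hq.ne_zero (periodLin (q * N) G)) =
        wop a hq.ne_zero (cnj (periodLin (q * N) G)) := rfl
    have e2 : hop (q * N) (pr hq) (periodLin (q * N) F) + wop a hq.ne_zero (periodLin (q * N) F) +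
        (hop (q * N) (pr hq) (cnj (periodLin (q * N) G)) +
          wop a hq.ne_zero (cnj (periodLin (q * N) G))) =
        hop (q * N) (pr hq) ((Int.castAddHom ℂ).comp ψ) +
          wop a hq.ne_zero ((Int.castAddHom ℂ).comp ψ) := by
      rw [hψ, map_add, wop_add]; abel
    rw [e1, e2, hop_comp_left, wop_comp, ← AddMonoidHom.comp_add, h, AddMonoidHom.comp_zero]
  have hw : (Int.castAddHom ℂ).comp (toHom (a.W ℤ hq.ne_zero κ)) =
      periodLin (q * N) (wLin a hq.ne_zero F) +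
        cnj (periodLin (q * N) (wLin a hq.ne_zero G)) := by
    rw [toHom_W, ← wop_comp, hFG, wop_add, periodLin_wLin, periodLin_wLin]
    rfl
  obtain ⟨k1, k2⟩ := key hFG (hop_add_wop_eq_zero a hq hqN h1)
  obtain ⟨k3, k4⟩ := key hw (hop_add_wop_eq_zero a hq hqN h2)
  rw [wLin_wLin] at k3 k4
  exact ⟨F, G, ⟨k1, k3⟩, ⟨k2, k4⟩, hFG⟩

/-- Elements killing the new subspace kill the kernel of `(Tr, Tr ∘ W)`, up to Eisenstein. -/
theorem eS_eq_zero_of_newSub (a : ALD N q) (hq : q.Prime) (hqN : ¬ q ∣ N) [NeZero (q * N)]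
    {κ : Symb (q * N) ℤ} (h1 : a.Tr ℤ hq hqN κ = 0)
    (h2 : a.Tr ℤ hq hqN (a.W ℤ hq.ne_zero κ) = 0) {r : RH (q * N)}
    (hr : ∀ f ∈ newSub a hq, eC (q * N) r f = 0) (ℓ : GP (q * N))
    (hℓ : (ℓ.1 : ℕ) ≡ 1 [MOD q * N]) :
    eS (q * N) (q * N) ℤ (tz (q * N) ℓ * r) κ = 0 := by
  obtain ⟨F, G, hF, hG, hFG⟩ := exists_forms a hq hqN h1 h2
  have h3 : toHom (eS (q * N) (q * N) ℤ r κ) = 0 := by
    rw [toHom_eS]
    have h4 : (Int.castAddHom ℂ).comp (evalHom (q * N) ℤ (incR (q * N) r) (toHom κ)) = 0 := by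
      rw [← evalHom_comp_left, hFG, map_add, ← periodLin_eC, hr F hF, map_zero, zero_add]
      change evalHom (q * N) ℂ (incR (q * N) r)
        ((starRingEnd ℂ).toAddMonoidHom.comp (periodLin (q * N) G)) = 0
      rw [evalHom_comp_left, ← periodLin_eC, hr G hG, map_zero, AddMonoidHom.comp_zero]
    refine AddMonoidHom.ext fun x => ?_
    have h5 := DFunLike.congr_fun h4 x
    change ((evalHom (q * N) ℤ (incR (q * N) r) (toHom κ) x : ℤ) : ℂ) = 0 at h5
    exact_mod_cast h5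
  rw [map_mul, Module.End.mul_apply, eS_tz, Ts_eq_of_toHom_eq_zero _ h3 ℓ.1 ℓ.2 hℓ, sub_self]

end Fermat.Agent.Ihara
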