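import Mathlib

set_option autoImplicit false

/-!
# An irreducible two-dimensional representation with cyclotomic quadratic relations is not
unipotent on an abelian-quotient subgroup
-/

namespace Fermat.Agent.Ihara

section

variable {G V : Type*} [Group G] [AddCommGroup V] [DistribMulAction G V] {p : ℕ}

theorem zsmul_zero_of_dvd (hpV : ∀ v : V, p • v = 0) {n : ℤ} (h : (p : ℤ) ∣ n) (v : V) :
    n • v = 0 := by
  obtain ⟨k, rfl⟩ := h
  rw [mul_comm, mul_smul, natCast_zsmul, hpV, smul_zero]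

theorem dvd_of_zsmul_zero [Fact p.Prime] (hpV : ∀ v : V, p • v = 0) {n : ℤ} {v : V} (hv : v ≠ 0)
    (h : n • v = 0) : (p : ℤ) ∣ n := by
  by_contra hn
  obtain ⟨a, b, hab⟩ := ((Nat.prime_iff_prime_int.mp (Fact.out : p.Prime)).coprime_iff_not_dvd.mpr hn)
  apply hv
  have : v = (a * p + b * n) • v := by rw [hab, one_smul]
  rw [this, add_smul, mul_smul, mul_smul, natCast_zsmul, hpV, h, smul_zero, smul_zero, add_zero]

theorem smul_zsmul_comm (σ : G) (n : ℤ) (v : V) : σ • (n • v) = n • (σ • v) :=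
  (DistribSMul.toAddMonoidHom V σ).map_zsmul n v

theorem smul_nsmul_comm (σ : G) (n : ℕ) (v : V) : σ • (n • v) = n • (σ • v) :=
  (DistribSMul.toAddMonoidHom V σ).map_nsmul n v

/-- fixed vectors of a subgroup of unipotent elements -/
theorem exists_fixed [Fact p.Prime] [Finite V] (hpV : ∀ v : V, p • v = 0)
    (hcard : p ∣ Nat.card V) (H : Subgroup G)
    (hH : ∀ σ ∈ H, ∀ v : V, σ • (σ • v) - 2 • (σ • v) + v = 0) :
    ∃ v : V, v ≠ 0 ∧ ∀ σ ∈ H, σ • v = v := by
  classical
  have hpow : ∀ σ ∈ H, ∀ (k : ℕ) (v : V), σ ^ k • v = v + k • (σ • v - v) := by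
    intro σ hσ k v
    induction k with
    | zero => simp
    | succ k ih =>
      have h1 : σ • (σ • v) = 2 • (σ • v) - v := by
        have := hH σ hσ v
        rw [← sub_eq_zero, ← this]; abel
      have h2 : σ • (σ • v) - σ • v = σ • v - v := by rw [h1, two_smul]; abel
      rw [pow_succ', mul_smul, ih, smul_add, smul_nsmul_comm, smul_sub, h2, add_smul, one_smul]
      abel
  let Q := (MulAction.toPermHom H V).range
  have hQ : IsPGroup p Q := by
    rintro ⟨_, ⟨⟨σ, hσ⟩, rfl⟩⟩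
    refine ⟨1, Subtype.ext (Equiv.ext fun v => ?_)⟩
    rw [pow_one]
    change ((MulAction.toPermHom H V ⟨σ, hσ⟩) ^ p) v = v
    rw [← map_pow]
    change σ ^ p • v = v
    rw [hpow σ hσ, hpV, add_zero]
  have h1 := hQ.card_modEq_card_fixedPoints V
  have h2 : p ∣ Nat.card (MulAction.fixedPoints Q V) :=
    (h1.dvd_iff dvd_rfl).mp hcard
  have h0 : (0 : V) ∈ MulAction.fixedPoints Q V := by
    rintro ⟨_, ⟨⟨σ, hσ⟩, rfl⟩⟩
    exact smul_zero σ
  have h3 : 1 < Nat.card (MulAction.fixedPoints Q V) := by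
    have hpos : 0 < Nat.card (MulAction.fixedPoints Q V) := by
      rw [Nat.card_pos_iff]
      exact ⟨⟨⟨0, h0⟩⟩, inferInstance⟩
    exact (Fact.out : p.Prime).one_lt.trans_le (Nat.le_of_dvd hpos h2)
  rw [Finite.one_lt_card_iff_nontrivial] at h3
  obtain ⟨⟨v, hv⟩, hne⟩ := exists_ne (⟨0, h0⟩ : MulAction.fixedPoints Q V)
  refine ⟨v, fun h => hne (Subtype.ext h), fun σ hσ => ?_⟩
  exact hv ⟨_, ⟨⟨σ, hσ⟩, rfl⟩⟩

/-- The contradiction. -/
theorem irr_contra [Fact p.Prime] (hp2 : p ≠ 2) (hpV : ∀ v : V, p • v = 0)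
    (hcard : Nat.card V = p ^ 2)
    (hirr : ∀ S : AddSubgroup V, (∀ (σ : G), ∀ v ∈ S, σ • v ∈ S) → S = ⊥ ∨ S = ⊤)
    (χ : G → ℤ) (hχp : ∀ σ, ¬ (p : ℤ) ∣ χ σ) (c : G) (hc : c * c = 1)
    (hχc : ∀ σ, (p : ℤ) ∣ χ (c * σ) + χ σ)
    (hCH : ∀ σ, ∃ a : ℤ, ∀ v : V, σ • (σ • v) - a • (σ • v) + χ σ • v = 0)
    (H : Subgroup G) [H.Normal]
    (hH : ∀ σ ∈ H, ∀ v : V, σ • (σ • v) - 2 • (σ • v) + v = 0)
    (hcomm : ∀ σ τ : G, σ * τ * σ⁻¹ * τ⁻¹ ∈ H) : False := by
  have hp := (Fact.out : p.Prime)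
  have hfin : Finite V := Nat.finite_of_card_ne_zero (by rw [hcard]; exact pow_ne_zero _ hp.ne_zero)
  -- `H` acts trivially
  obtain ⟨v0, hv0, hv0'⟩ := exists_fixed hpV (by rw [hcard]; exact dvd_pow_self p two_ne_zero) H hH
  have htriv : ∀ σ ∈ H, ∀ v : V, σ • v = v := by
    let S : AddSubgroup V :=
      { carrier := {v | ∀ σ ∈ H, σ • v = v}
        zero_mem' := fun σ _ => smul_zero σ
        add_mem' := fun hx hy σ hσ => by rw [smul_add, hx σ hσ, hy σ hσ]
        neg_mem' := fun hx σ hσ => by rw [smul_neg, hx σ hσ] }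
    have hS : S = ⊤ := by
      refine (hirr S ?_).resolve_left ?_
      · intro τ v hv σ hσ
        have h1 : τ⁻¹ * σ * τ ∈ H := by
          have := ‹H.Normal›.conj_mem σ hσ τ⁻¹
          rwa [inv_inv] at this
        have h2 := hv _ h1
        rw [mul_smul, mul_smul, inv_smul_eq_iff] at h2
        exact h2
      · intro h
        have h1 : v0 ∈ S := hv0'
        rw [h] at h1
        exact hv0 h1
    intro σ hσ v
    have : v ∈ S := by rw [hS]; trivial
    exact this σ hσ
  have hab : ∀ (σ τ : G) (v : V), σ • (τ • v) = τ • (σ • v) := by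
    intro σ τ v
    have h1 := htriv _ (hcomm σ τ) (τ • (σ • v))
    rw [mul_smul, inv_smul_smul, mul_smul, inv_smul_smul, mul_smul] at h1
    exact h1
  -- `c` is a scalar `±1`
  obtain ⟨ε, hε, hcε⟩ : ∃ ε : ℤ, ε * ε = 1 ∧ ∀ v : V, c • v = ε • v := by
    let S : AddSubgroup V :=
      { carrier := {v | c • v = v}
        zero_mem' := smul_zero c
        add_mem' := fun {x y} (hx : c • x = x) (hy : c • y = y) => by
          change c • (x + y) = x + y
          rw [smul_add, hx, hy]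
        neg_mem' := fun {x} (hx : c • x = x) => by
          change c • (-x) = -x
          rw [smul_neg, hx] }
    have hmem : ∀ v, v ∈ S ↔ c • v = v := fun _ => Iff.rfl
    rcases hirr S (fun σ v hv => by
      rw [hmem] at hv ⊢
      rw [hab, hv]) with h | h
    · refine ⟨-1, by norm_num, fun v => ?_⟩
      have h1 : v + c • v ∈ S := by
        rw [hmem, smul_add, ← mul_smul, hc, one_smul, add_comm]
      rw [h, AddSubgroup.mem_bot] at h1
      rw [neg_smul, one_smul]
      exact eq_neg_of_add_eq_zero_right h1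
    · refine ⟨1, by norm_num, fun v => ?_⟩
      have h1 : v ∈ S := by rw [h]; trivial
      rw [one_smul]
      exact h1
  -- a nonscalar element
  obtain ⟨τ, hτ⟩ : ∃ τ : G, ¬ ∃ m : ℤ, ∀ v : V, τ • v = m • v := by
    by_contra hcon
    push Not at hcon
    rcases hirr (AddSubgroup.zmultiples v0) (fun σ v hv => by
      obtain ⟨m, hm⟩ := hcon σ
      rw [hm]
      exact AddSubgroup.zsmul_mem _ hv m) with h | h
    · rw [AddSubgroup.zmultiples_eq_bot] at h
      exact hv0 h
    · have h1 : Nat.card (AddSubgroup.zmultiples v0) = Nat.card V := by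
        rw [h]; exact AddSubgroup.card_top
      rw [Nat.card_zmultiples, hcard] at h1
      have h2 : addOrderOf v0 ∣ p := addOrderOf_dvd_of_nsmul_eq_zero (hpV v0)
      rw [h1] at h2
      have h3 := Nat.le_of_dvd hp.pos h2
      have := hp.one_lt
      nlinarith
  obtain ⟨a, ha⟩ := hCH τ
  obtain ⟨a', ha'⟩ := hCH (c * τ)
  have key : ∀ v : V, (a - a' * ε) • (τ • v) = (2 * χ τ) • v := by
    intro v
    have h1 := ha v
    have h2 := ha' v
    have h3 : (c * τ) • ((c * τ) • v) = τ • (τ • v) := by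
      rw [mul_smul, mul_smul, hcε, hcε, smul_zsmul_comm, ← mul_smul, hε, one_smul]
    have h4 : (c * τ) • v = ε • (τ • v) := by rw [mul_smul, hcε]
    have h5 : χ (c * τ) • v = -(χ τ • v) := by
      have := zsmul_zero_of_dvd hpV (hχc τ) v
      rw [add_smul] at this
      exact eq_neg_of_add_eq_zero_left this
    rw [h3, h4, h5] at h2
    have h6 : (a - a' * ε) • (τ • v) - (2 * χ τ) • v =
        (τ • τ • v - a' • (ε • (τ • v)) + -(χ τ • v)) - (τ • τ • v - a • τ • v + χ τ • v) := by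
      rw [sub_smul, mul_smul a' ε, two_mul, add_smul]; abel
    rw [h1, h2, sub_zero] at h6
    exact sub_eq_zero.mp h6
  by_cases hb : (p : ℤ) ∣ a - a' * ε
  · have h1 := key v0
    rw [zsmul_zero_of_dvd hpV hb] at h1
    have h2 := dvd_of_zsmul_zero hpV hv0 h1.symm
    rcases (Nat.prime_iff_prime_int.mp hp).dvd_or_dvd h2 with h3 | h3
    · have h4 : p ∣ 2 := by exact_mod_cast h3
      exact hp2 ((Nat.prime_dvd_prime_iff_eq hp Nat.prime_two).mp h4)
    · exact hχp τ h3
  · obtain ⟨x, y, hxy⟩ := (Nat.prime_iff_prime_int.mp hp).coprime_iff_not_dvd.mpr hb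
    apply hτ
    refine ⟨y * (2 * χ τ), fun v => ?_⟩
    rw [mul_smul, ← key, ← mul_smul]
    have h1 : y * (a - a' * ε) = 1 - x * p := by linear_combination hxy
    rw [h1, sub_smul, one_smul, mul_smul, natCast_zsmul, hpV, smul_zero, sub_zero]

end

end Fermat.Agent.Ihara
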