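import Fermat.Agent.ECRep.FrobChar
import Fermat.Agent.ECRep.VarChange
import Fermat.Agent.ChebFull.Places
import Fermat.Agent.Ihara.GroupAct
import Fermat.Prelude.Def_GaloisRep_ComplexConjugation

set_option autoImplicit false

/-!
# Irreducible torsion is not Eisenstein
-/

namespace Fermat.Agent.Ihara

open WeierstrassCurve WeierstrassCurve.Affine WeierstrassCurve.Affine.Point
open scoped WeierstrassCurve.Affine
open Fermat.Agent.ECRep

local notation "Qbar" => AlgebraicClosure ℚ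
local notation "Γℚ" => (AlgebraicClosure ℚ ≃ₐ[ℚ] AlgebraicClosure ℚ)

/-- The torsion points. -/
abbrev TorV (W : WeierstrassCurve ℚ) (p : ℕ) : Type := Submodule.torsionBy ℤ (W⁄Qbar).Point (p : ℤ)

/-- Irreducibility in terms of additive subgroups of the torsion. -/
def IrrAdd (W : WeierstrassCurve ℚ) (p : ℕ) : Prop :=
  ∀ S : AddSubgroup (TorV W p), (∀ (σ : Γℚ), ∀ v ∈ S, σ • v ∈ S) → S = ⊥ ∨ S = ⊤

theorem conj_root {m : ℕ} (hm : m ≠ 0) {ζ : Qbar} (h : ζ ^ m = 1) :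
    complexConjugation ζ * ζ = 1 := by
  apply complexEmbedding.injective
  change complexEmbedding (complexConjugation ζ * ζ) = complexEmbedding 1
  rw [map_mul, map_one, complexEmbedding_complexConjugation]
  have h1 : ‖complexEmbedding ζ‖ = 1 := by
    apply Complex.norm_eq_one_of_pow_eq_one (n := m) _ hm
    rw [← map_pow, h, map_one]
  rw [mul_comm, Complex.mul_conj, Complex.normSq_eq_norm_sq, h1]
  norm_num

section

variable (W : WeierstrassCurve ℤ) {p : ℕ} [Fact p.Prime]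

/-- Chebotarev applied to `E[p]` and a root of unity. -/
theorem exists_frob_tor (hΔ : W.Δ ≠ 0) (hp2 : p ≠ 2) {m : ℕ} [NeZero m] (hpm : p ∣ m) {ζ : Qbar}
    (hζ : IsPrimitiveRoot ζ m) (S : Finset ℕ) (σ : Γℚ) :
    ∃ ℓ : ℕ, ℓ.Prime ∧ ℓ ∉ S ∧ W.IsGoodPrimeFor ℓ ∧ ℓ ≠ 2 ∧
      (ℓ : ZMod m) = (hζ.autToPow ℚ σ : (ZMod m)ˣ) ∧
      ∀ v : TorV (toRat W) p, σ • (σ • v) - W.apOfModel ℓ • (σ • v) + (ℓ : ℤ) • v = 0 := by
  have hp := (Fact.out : p.Prime)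
  obtain ⟨L, hL, hLρ⟩ := finiteLevel (toRat W) (toRat_Δ_ne_zero hΔ) p hp.ne_zero
  let F : IntermediateField ℚ Qbar := L ⊔ IntermediateField.adjoin ℚ {ζ}
  have hζint : IsIntegral ℚ ζ := Algebra.IsIntegral.isIntegral ζ
  have : FiniteDimensional ℚ (IntermediateField.adjoin ℚ {ζ}) :=
    IntermediateField.adjoin.finiteDimensional hζint
  have hF : FiniteDimensional ℚ F := IntermediateField.finiteDimensional_sup L _
  obtain ⟨ℓ, hℓ, hℓS, -, A, hA, φ, hφ, hφσ⟩ := ChebFull.exists_frobenius_eq F σ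
    (S ∪ (insert 2 m.primeFactors) ∪ W.Δ.natAbs.primeFactors)
  simp only [Finset.mem_union, Finset.mem_insert, not_or] at hℓS
  obtain ⟨⟨h1, h2, h3⟩, h4⟩ := hℓS
  have hg : W.IsGoodPrimeFor ℓ := by
    intro hdvd
    apply h4
    rw [Nat.mem_primeFactors]
    exact ⟨hℓ, Int.natCast_dvd.mp hdvd, Int.natAbs_ne_zero.mpr hΔ⟩
  have hℓm : ¬ ℓ ∣ m := fun h => h3 (Nat.mem_primeFactors.mpr ⟨hℓ, h, NeZero.ne m⟩)
  have hℓp : ¬ ℓ ∣ p := fun h => hℓm (h.trans hpm)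
  -- on roots of unity
  have hφζ : φ ζ = σ ζ := hφσ ζ ((le_sup_right : IntermediateField.adjoin ℚ {ζ} ≤ F)
    (IntermediateField.mem_adjoin_simple_self ℚ ζ))
  have hroot : (ℓ : ZMod m) = (hζ.autToPow ℚ σ : (ZMod m)ˣ) := by
    have e1 : φ ζ = ζ ^ ℓ := Cheb.frob_rootOfUnity hℓ hA hφ hℓm hζ.pow_eq_one
    have e2 := hζ.autToPow_spec ℚ σ
    rw [← hφζ, e1] at e2
    have e3 := (hζ.isOfFinOrder (NeZero.ne m)).pow_eq_pow_iff_modEq.mp e2
    rw [← hζ.eq_orderOf] at e3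
    have e4 := (ZMod.natCast_eq_natCast_iff _ _ _).mpr e3
    rw [ZMod.natCast_val, ZMod.cast_id] at e4
    exact e4.symm
  -- on torsion
  have hφv : ∀ v : TorV (toRat W) p, φ • v = σ • v := by
    intro v
    have e1 : ∀ x ∈ L, (σ⁻¹ * φ) x = x := by
      intro x hx
      have := hφσ x ((le_sup_left : L ≤ F) hx)
      change σ⁻¹ (φ x) = x
      rw [this]
      exact inv_smul_smul σ x
    have e2 := LinearMap.congr_fun (hLρ _ e1) v
    have e3 : (σ⁻¹ * φ) • v = v := e2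
    rw [mul_smul, inv_smul_eq_iff] at e3
    exact e3
  refine ⟨ℓ, hℓ, h1, hg, h2, hroot, fun v => ?_⟩
  have hpv : p • (v : ((toRat W)⁄Qbar).Point) = 0 := by
    have := v.2
    rw [Submodule.mem_torsionBy_iff, natCast_zsmul] at this
    exact this
  have key := frob_rel_torsion W hℓ h2 hA hg hφ hℓp hpv
  have hφ1 : φ • (v : ((toRat W)⁄Qbar).Point) = σ • (v : ((toRat W)⁄Qbar).Point) :=
    congrArg Subtype.val (hφv v)
  have hφ2 : φ • (σ • (v : ((toRat W)⁄Qbar).Point)) = σ • (σ • (v : ((toRat W)⁄Qbar).Point)) :=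
    congrArg Subtype.val (hφv (σ • v))
  rw [hφ1, hφ2] at key
  have hpV : ∀ v : TorV (toRat W) p, p • v = 0 := fun v => by
    rw [← natCast_zsmul]; exact Submodule.smul_torsionBy _ v
  by_contra hne
  have h2' : (2 : ℤ) • (σ • (σ • v) - W.apOfModel ℓ • (σ • v) + (ℓ : ℤ) • v) = 0 :=
    Subtype.ext key
  have h5 := dvd_of_zsmul_zero hpV hne h2'
  have h6 : p ∣ 2 := by exact_mod_cast h5
  exact hp2 ((Nat.prime_dvd_prime_iff_eq hp Nat.prime_two).mp h6)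

/-- **Irreducible torsion is not Eisenstein.** -/
theorem exists_prime_ap (hΔ : W.Δ ≠ 0) (hp2 : p ≠ 2) (hirr : IrrAdd (toRat W) p) {n : ℕ}
    (hn : n ≠ 0) (S : Finset ℕ) :
    ∃ ℓ : ℕ, ℓ.Prime ∧ ℓ ∉ S ∧ ℓ ≡ 1 [MOD n] ∧ W.IsGoodPrimeFor ℓ ∧
      ¬ (p : ℤ) ∣ W.apOfModel ℓ - (ℓ + 1) := by
  by_contra hcon
  push Not at hcon
  have hp := (Fact.out : p.Prime)
  have hm : NeZero (n * p) := ⟨mul_ne_zero hn hp.ne_zero⟩
  have hpm : p ∣ n * p := dvd_mul_left p n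
  obtain ⟨ζ, hζ⟩ := HasEnoughRootsOfUnity.exists_primitiveRoot Qbar (n * p)
  let χ : Γℚ →* (ZMod (n * p))ˣ := hζ.autToPow ℚ
  have hpV : ∀ v : TorV (toRat W) p, p • v = 0 := fun v => by
    rw [← natCast_zsmul]; exact Submodule.smul_torsionBy _ v
  have hcongr : ∀ {a b : ℤ}, (p : ℤ) ∣ a - b → ∀ v : TorV (toRat W) p, a • v = b • v := by
    intro a b h v
    rw [← sub_eq_zero, ← sub_smul]
    exact zsmul_zero_of_dvd hpV h v
  have hval : ∀ (σ : Γℚ) (ℓ : ℕ), (ℓ : ZMod (n * p)) = (χ σ : (ZMod (n * p))ˣ) →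
      (p : ℤ) ∣ (ℓ : ℤ) - ((χ σ : ZMod (n * p)).val : ℤ) := by
    intro σ ℓ h
    have h1 : (((ℓ : ℤ) - ((χ σ : ZMod (n * p)).val : ℤ) : ℤ) : ZMod (n * p)) = 0 := by
      push_cast
      rw [h, ZMod.natCast_val, ZMod.cast_id, sub_self]
    have h2 := (ZMod.intCast_zmod_eq_zero_iff_dvd _ _).mp h1
    exact (by exact_mod_cast hpm : (p : ℤ) ∣ ((n * p : ℕ) : ℤ)).trans h2
  refine irr_contra (G := Γℚ) (V := TorV (toRat W) p) hp2 hpV
    (card_torsionBy (toRat W) (toRat_Δ_ne_zero hΔ) p hp.ne_zero) hirr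
    (fun σ => ((χ σ : ZMod (n * p)).val : ℤ)) ?_ complexConjugation complexConjugation_mul_self ?_
    ?_ χ.ker ?_ ?_
  · intro σ h
    have h1 : p ∣ (χ σ : ZMod (n * p)).val := by exact_mod_cast h
    have h2 := ZMod.val_coe_unit_coprime (χ σ)
    exact hp.one_lt.ne' (Nat.dvd_one.mp (h2 ▸ Nat.dvd_gcd h1 hpm))
  · intro σ
    have h1 : ζ ^ ((χ (complexConjugation * σ) : ZMod (n * p)).val +
        (χ σ : ZMod (n * p)).val) = 1 := by
      rw [pow_add, hζ.autToPow_spec ℚ, hζ.autToPow_spec ℚ]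
      change complexConjugation (σ ζ) * σ ζ = 1
      exact conj_root (m := n * p) (NeZero.ne _) (by rw [← map_pow, hζ.pow_eq_one, map_one])
    have h2 := hζ.dvd_of_pow_eq_one _ h1
    exact_mod_cast hpm.trans h2
  · intro σ
    obtain ⟨ℓ, -, -, -, -, h1, h2⟩ := exists_frob_tor W hΔ hp2 hpm hζ ∅ σ
    refine ⟨W.apOfModel ℓ, fun v => ?_⟩
    rw [← h2 v, hcongr (hval σ ℓ h1) v]
  · intro σ hσ v
    obtain ⟨ℓ, hℓ, hℓS, hg, hℓ2, h1, h2⟩ := exists_frob_tor W hΔ hp2 hpm hζ S σ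
    have hσ1 : χ σ = 1 := hσ
    have h3 : (ℓ : ZMod (n * p)) = 1 := by
      rw [h1]
      change ((χ σ : (ZMod (n * p))ˣ) : ZMod (n * p)) = 1
      rw [hσ1, Units.val_one]
    have h4 : ℓ ≡ 1 [MOD n * p] := (ZMod.natCast_eq_natCast_iff _ _ _).mp (by rw [h3]; simp)
    have h5 := hcon ℓ hℓ hℓS (h4.of_dvd (dvd_mul_right n p)) hg
    have h6 : (p : ℤ) ∣ (ℓ : ℤ) - 1 := by
      have := (Nat.modEq_iff_dvd.mp (h4.of_dvd hpm).symm)
      exact_mod_cast this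
    have h7 : (p : ℤ) ∣ W.apOfModel ℓ - 2 := by
      have : W.apOfModel ℓ - 2 = (W.apOfModel ℓ - (ℓ + 1)) + ((ℓ : ℤ) - 1) := by ring
      rw [this]; exact dvd_add h5 h6
    have h8 := h2 v
    rw [hcongr h7 (σ • v), hcongr h6 v, one_smul] at h8
    rw [← h8]
    congr 2
  · intro σ τ
    rw [MonoidHom.mem_ker, map_mul, map_mul, map_mul, map_inv, map_inv]
    have : χ σ * χ τ * (χ σ)⁻¹ * (χ τ)⁻¹ = 1 := by
      rw [mul_comm (χ σ) (χ τ)]; group
    exact this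

end

/-- Change of variables on torsion. -/
theorem exists_torEquiv (E : WeierstrassCurve ℚ) (C : VariableChange ℚ) (p : ℕ) :
    ∃ e : TorV (C • E) p ≃+ TorV E p, ∀ (σ : Γℚ) (v : TorV (C • E) p), e (σ • v) = σ • e v := by
  have hK := (isVC_smul C E).map (algebraMap ℚ Qbar)
  have hu : algebraMap ℚ Qbar (C.u : ℚ) ≠ 0 :=
    (map_ne_zero (algebraMap ℚ Qbar)).mpr C.u.ne_zero
  let Φ : ((C • E)⁄Qbar).Point ≃+ (E⁄Qbar).Point := vcEquiv hK hu
  have hΦ : ∀ (σ : Γℚ) (P : ((C • E)⁄Qbar).Point), Φ (σ • P) = σ • Φ P := fun σ P =>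
    (vcEquiv_map hK hK hu hu σ.toAlgHom P).symm
  have hmem : ∀ v : ((C • E)⁄Qbar).Point, v ∈ Submodule.torsionBy ℤ ((C • E)⁄Qbar).Point (p : ℤ) ↔
      Φ v ∈ Submodule.torsionBy ℤ (E⁄Qbar).Point (p : ℤ) := by
    intro v
    rw [Submodule.mem_torsionBy_iff, Submodule.mem_torsionBy_iff, ← map_zsmul]
    exact (map_eq_zero_iff Φ Φ.injective).symm
  let e : TorV (C • E) p ≃+ TorV E p :=
    { toFun := fun v => ⟨Φ v, (hmem _).mp v.2⟩
      invFun := fun v => ⟨Φ.symm v, (hmem _).mpr (by rw [Φ.apply_symm_apply]; exact v.2)⟩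
      left_inv := fun v => Subtype.ext (Φ.symm_apply_apply _)
      right_inv := fun v => Subtype.ext (Φ.apply_symm_apply _)
      map_add' := fun v w => Subtype.ext (map_add Φ _ _) }
  exact ⟨e, fun σ v => Subtype.ext (hΦ σ v)⟩

theorem irrAdd_of_irreducible (E : WeierstrassCurve ℚ) {n : ℕ}
    (hirr : GaloisRepIsIrreducible (K := Qbar) ℚ E n) : IrrAdd E n := by
  intro S hS
  rcases hirr.2 (AddSubgroup.toZModSubmodule n S) (fun σ x hx => hS σ x hx) with h | h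
  · left
    ext x
    rw [AddSubgroup.mem_bot]
    have : x ∈ AddSubgroup.toZModSubmodule n S ↔ x ∈ (⊥ : Submodule (ZMod n) _) := by rw [h]
    rw [Submodule.mem_bot] at this
    exact this
  · right
    ext x
    have : x ∈ AddSubgroup.toZModSubmodule n S ↔ x ∈ (⊤ : Submodule (ZMod n) _) := by rw [h]
    exact ⟨fun _ => trivial, fun _ => this.mpr trivial⟩

theorem IrrAdd.smul {E : WeierstrassCurve ℚ} {p : ℕ} (h : IrrAdd E p) (C : VariableChange ℚ) :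
    IrrAdd (C • E) p := by
  intro S hS
  obtain ⟨e, he⟩ := exists_torEquiv E C p
  rcases h (S.map e.toAddMonoidHom) (by
    rintro σ _ ⟨v, hv, rfl⟩
    exact ⟨σ • v, hS σ v hv, he σ v⟩) with h1 | h1
  · left
    rw [eq_bot_iff]
    intro v hv
    have h2 : e v ∈ S.map e.toAddMonoidHom := ⟨v, hv, rfl⟩
    rw [h1, AddSubgroup.mem_bot] at h2
    rw [AddSubgroup.mem_bot]
    exact (map_eq_zero_iff e e.injective).mp h2
  · right
    rw [eq_top_iff]
    intro v _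
    have h2 : e v ∈ S.map e.toAddMonoidHom := by rw [h1]; trivial
    obtain ⟨w, hw, hwv⟩ := h2
    exact (e.injective hwv) ▸ hw

/-- The non-Eisenstein property for integral models. -/
theorem exists_prime_ap_of_model {E : WeierstrassCurve ℚ} [E.IsElliptic] {W : WeierstrassCurve ℤ}
    (hW : W.IsIntegralModelOf E) {p : ℕ} [Fact p.Prime] (hp2 : p ≠ 2)
    (hirr : GaloisRepIsIrreducible (K := Qbar) ℚ E p) {n : ℕ} (hn : n ≠ 0) (S : Finset ℕ) :
    ∃ ℓ : ℕ, ℓ.Prime ∧ ℓ ∉ S ∧ ℓ ≡ 1 [MOD n] ∧ W.IsGoodPrimeFor ℓ ∧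
      ¬ (p : ℤ) ∣ W.apOfModel ℓ - (ℓ + 1) := by
  obtain ⟨C, hC⟩ := hW
  have hΔ : W.Δ ≠ 0 := by
    intro h0
    have h1 : (C • E).Δ = 0 := by
      rw [hC, map_Δ, h0, _root_.map_zero]
    rw [variableChange_Δ] at h1
    have h2 : E.Δ ≠ 0 := E.isUnit_Δ.ne_zero
    have h3 : (C.u⁻¹ : ℚˣ) ≠ (0 : ℚ) := C.u⁻¹.ne_zero
    exact (mul_ne_zero (pow_ne_zero _ h3) h2) h1
  have h1 : IrrAdd (toRat W) p := by
    have := (irrAdd_of_irreducible E hirr).smul C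
    rw [hC] at this
    exact this
  exact exists_prime_ap W hΔ hp2 h1 hn S

end Fermat.Agent.Ihara
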