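import Fermat.Agent.Ihara.NewSub

set_option autoImplicit false

/-!
# Level raising
-/

open CongruenceSubgroup UpperHalfPlane ModularForm
open scoped MatrixGroups ModularForm

noncomputable section

namespace Fermat.Agent.Ihara

open Fermat.Agent.Top Matrix ALD ModularCurve Fermat.Agent.Period Fermat.Agent.IntStr
  Fermat.Agent.Newform CuspForm Matrix.SpecialLinearGroup Fermat.Agent.Eigenform ModularFormClass

variable {N q : ℕ}

/-- A nonzero Hecke-stable subspace contains a normalised eigenform. -/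
theorem exists_eigenform_in [NeZero N] (W : Submodule ℂ (CuspForm (Gamma0 N) 2)) (hW : W ≠ ⊥)
    (hstab : ∀ ℓ, ∀ w ∈ W, hOp N ℓ w ∈ W) : ∃ g ∈ W, g.IsNormalizedEigenform := by
  obtain ⟨v, hvW, hv0, hv⟩ := exists_common_eigenvector (hOp N) hOp_comm W hW hstab
  choose μ hμ using hv
  let t : ℕ → ℂ := fun n => if h : n.Prime then μ ⟨n, h⟩ else 0
  have ht : ∀ ℓ : Nat.Primes, t ℓ = μ ℓ := fun ℓ => by simp only [t, dif_pos ℓ.2]; rfl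
  have hT : ∀ (w : CuspForm (Gamma0 N) 2), (∀ ℓ, hOp N ℓ w = μ ℓ • w) →
      ∀ (ℓ : ℕ) (hℓ : ℓ.Prime) (hℓN : ¬ ℓ ∣ N), CuspForm.heckeTLin 2 hℓ hℓN w = t ℓ • w := by
    intro w hw ℓ hℓ hℓN
    have := hw ⟨ℓ, hℓ⟩
    rw [hOp_of_not_dvd (q := ⟨ℓ, hℓ⟩) hℓN] at this
    rw [show t ℓ = μ ⟨ℓ, hℓ⟩ from ht ⟨ℓ, hℓ⟩]
    exact this
  have hU : ∀ (w : CuspForm (Gamma0 N) 2), (∀ ℓ, hOp N ℓ w = μ ℓ • w) →
      ∀ (ℓ : ℕ) (_ : ℓ.Prime) (hℓN : ℓ ∣ N), CuspForm.heckeULin 2 hℓN w = t ℓ • w := by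
    intro w hw ℓ hℓ hℓN
    have := hw ⟨ℓ, hℓ⟩
    rw [hOp_of_dvd (q := ⟨ℓ, hℓ⟩) hℓN] at this
    rw [show t ℓ = μ ⟨ℓ, hℓ⟩ from ht ⟨ℓ, hℓ⟩]
    exact this
  have h1 := qCoeff_one_ne_zero hv0 t (hT v hμ) (hU v hμ)
  refine ⟨(qCoeff v 1)⁻¹ • v, W.smul_mem _ hvW, ?_⟩
  have hgμ : ∀ ℓ, hOp N ℓ ((qCoeff v 1)⁻¹ • v) = μ ℓ • ((qCoeff v 1)⁻¹ • v) := by
    intro ℓ
    rw [map_smul, hμ, smul_comm]
  have hg1 : qCoeff ((qCoeff v 1)⁻¹ • v : CuspForm (Gamma0 N) 2) 1 = 1 := by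
    rw [qCoeff_smul, inv_mul_cancel₀ h1]
  exact (isNormalizedEigenform_of_eigen hg1 t (hT _ hgμ) (hU _ hgμ)).1

theorem isIntegral_eC (M : ℕ) [NeZero M] (r : RH M) : IsIntegral ℤ (eC M r) := by
  have hfin : Module.Finite ℤ (heckeAlgebra M 2 (∅ : Set ℕ)) := Eichler.moduleFinite_heckeAlgebra 2 ∅
  have h1 : IsIntegral ℤ (CuspForm.heckeEvalForms M 2 (incR M r)) :=
    Algebra.IsIntegral.isIntegral _
  have h2 : eC M r = (CuspForm.heckeEvalForms M 2 (incR M r) :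
      Module.End ℂ (CuspForm (Gamma0 M) 2)) := by
    symm
    refine eq_evalEnd (fun ℓ ℓ' : GP M => hOp_comm ℓ.1 ℓ'.1)
      ((heckeAlgebra M 2 ∅).val.toRingHom.comp
      ((CuspForm.heckeEvalForms M 2).comp (incR M).toRingHom)) (fun ℓ => ?_) r
    change ((CuspForm.heckeEvalForms M 2 (incR M (MvPolynomial.X ℓ)) : heckeAlgebra M 2 ∅) :
      Module.End ℂ (CuspForm (Gamma0 M) 2)) = _
    rw [incR_X, CuspForm.heckeEvalForms_heckeGen]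
    rfl
  rw [h2]
  exact h1.map (heckeAlgebra M 2 ∅).val

/-- Restriction of the Hecke operators to the new subspace. -/
def nOp (a : ALD N q) (hq : q.Prime) [NeZero (q * N)] (ℓ : GP (q * N)) :
    Module.End ℂ (newSub a hq) :=
  (hOp (q * N) ℓ.1).restrict (fun _ hf => hOp_mem_newSub hf ℓ.1)

theorem nOp_comm (a : ALD N q) (hq : q.Prime) [NeZero (q * N)] (ℓ ℓ' : GP (q * N)) :
    nOp a hq ℓ * nOp a hq ℓ' = nOp a hq ℓ' * nOp a hq ℓ :=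
  LinearMap.ext fun f => Subtype.ext
    (LinearMap.congr_fun (hOp_comm (N := q * N) ℓ.1 ℓ'.1) (f : CuspForm (Gamma0 (q * N)) 2))

/-- The action on the new subspace. -/
def eN (a : ALD N q) (hq : q.Prime) [NeZero (q * N)] :
    RH (q * N) →ₐ[ℤ] Module.End ℂ (newSub a hq) := evalEnd (nOp a hq) (nOp_comm a hq)

theorem coe_eN (a : ALD N q) (hq : q.Prime) [NeZero (q * N)] (r : RH (q * N))
    (f : newSub a hq) : ((eN a hq r f : newSub a hq) : CuspForm (Gamma0 (q * N)) 2) =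
      eC (q * N) r f :=
  evalEnd_natural _ _ (newSub a hq).subtype.toAddMonoidHom (fun _ _ => rfl) r f

theorem exists_monic_eN (a : ALD N q) (hq : q.Prime) [NeZero (q * N)] (r : RH (q * N)) :
    ∃ P : Polynomial ℤ, P.Monic ∧ eN a hq (Polynomial.aeval r P) = 0 := by
  obtain ⟨P, hP, h⟩ := isIntegral_eC (q * N) r
  refine ⟨P, hP, LinearMap.ext fun f => Subtype.ext ?_⟩
  rw [coe_eN]
  have h1 : eC (q * N) (Polynomial.aeval r P) = Polynomial.aeval (eC (q * N) r) P :=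
    (Polynomial.aeval_algHom_apply (eC (q * N)) r P).symm
  rw [h1, Polynomial.aeval_def, h]
  rfl

/-- **Deligne–Serre lifting in the new subspace.** -/
theorem exists_new_eigenform (a : ALD N q) (hq : q.Prime) [NeZero (q * N)] {K : Type*} [Field K]
    {p : ℕ} [Fact p.Prime] (hpK : (p : K) = 0) (χ0 : RH (q * N) →+* K)
    (hint : ∀ r, IsIntegral ℤ (χ0 r))
    (hker : ∀ r, (∀ f ∈ newSub a hq, eC (q * N) r f = 0) → χ0 r = 0) :
    ∃ (g : CuspForm (Gamma0 (q * N)) 2) (θ : RH (q * N) →+* integralClosure ℤ ℂ)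
      (M : Ideal (integralClosure ℤ ℂ)), g.IsNormalizedEigenform ∧
      (∀ ℓ : GP (q * N), (θ (MvPolynomial.X ℓ) : ℂ) = qCoeff g ℓ.1) ∧ M.IsMaximal ∧
      M.comap θ = RingHom.ker χ0 ∧ g.IsNewAt q := by
  have hker' : ∀ r ∈ RingHom.ker (eN a hq).toRingHom, χ0 r = 0 := by
    intro r hr
    refine hker r fun f hf => ?_
    have h1 : eN a hq r = 0 := hr
    have h2 := coe_eN a hq r ⟨f, hf⟩
    rw [h1] at h2
    exact h2.symm
  let I := RingHom.ker (eN a hq).toRingHom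
  let φ : RH (q * N) ⧸ I →+* Module.End ℂ (newSub a hq) := RingHom.kerLift (eN a hq).toRingHom
  have hφ : Function.Injective φ := RingHom.kerLift_injective _
  have hintT : Algebra.IsIntegral ℤ (RH (q * N) ⧸ I) := by
    refine ⟨fun t => ?_⟩
    obtain ⟨r, rfl⟩ := Ideal.Quotient.mk_surjective t
    obtain ⟨P, hP, h⟩ := exists_monic_eN a hq r
    refine ⟨P, hP, ?_⟩
    rw [← Polynomial.aeval_def]
    have h1 : Polynomial.aeval (Ideal.Quotient.mk I r) P =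
        Ideal.Quotient.mk I (Polynomial.aeval r P) :=
      Polynomial.aeval_algHom_apply (Ideal.Quotient.mkₐ ℤ I) r P
    rw [h1, Ideal.Quotient.eq_zero_iff_mem]
    exact h
  have hintT' : @Algebra.IsIntegral ℤ (RH (q * N) ⧸ I) _ _ (Ring.toIntAlgebra _) := by
    convert hintT
    exact Subsingleton.elim _ _
  let χ1 : RH (q * N) ⧸ I →+* K := Ideal.Quotient.lift I χ0 hker'
  have hχ1 : ∀ r, χ1 (Ideal.Quotient.mk I r) = χ0 r := fun r => Ideal.Quotient.lift_mk _ _ _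
  have hmax : (RingHom.ker χ1).IsMaximal := isMaximal_ker hpK χ1 (fun t => by
    obtain ⟨r, rfl⟩ := Ideal.Quotient.mk_surjective t
    rw [hχ1]; exact hint r)
  obtain ⟨v, θ1, M, hv0, hv, hM, hMm⟩ :=
    @exists_eigenvector_of_isMaximal _ _ _ _ _ _ hintT' φ hφ (RingHom.ker χ1) hmax
  let θ : RH (q * N) →+* integralClosure ℤ ℂ := θ1.comp (Ideal.Quotient.mk I)
  have hθv : ∀ r, eC (q * N) r (v : CuspForm (Gamma0 (q * N)) 2) =
      (θ r : ℂ) • (v : CuspForm (Gamma0 (q * N)) 2) := by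
    intro r
    have h1 : φ (Ideal.Quotient.mk I r) v = (θ r : ℂ) • v := hv _
    have h2 : φ (Ideal.Quotient.mk I r) v = eN a hq r v := rfl
    rw [← coe_eN, ← h2, h1]
    rfl
  -- the eigenspace
  let W : Submodule ℂ (CuspForm (Gamma0 (q * N)) 2) := newSub a hq ⊓
    ⨅ ℓ : GP (q * N), LinearMap.ker (hOp (q * N) ℓ.1 -
      (θ (MvPolynomial.X ℓ) : ℂ) • (1 : Module.End ℂ (CuspForm (Gamma0 (q * N)) 2)))
  have hmem : ∀ w, w ∈ W ↔ w ∈ newSub a hq ∧ ∀ ℓ : GP (q * N), hOp (q * N) ℓ.1 w =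
      (θ (MvPolynomial.X ℓ) : ℂ) • w := by
    intro w
    simp only [W, Submodule.mem_inf, Submodule.mem_iInf, LinearMap.mem_ker, LinearMap.sub_apply,
      sub_eq_zero, LinearMap.smul_apply, Module.End.one_apply]
  obtain ⟨g, hgW, hg⟩ := exists_eigenform_in W
    ((Submodule.ne_bot_iff _).mpr ⟨v, (hmem _).mpr ⟨v.2, fun ℓ => by
      rw [← hθv, eC_X]⟩, fun h => hv0 (Subtype.ext h)⟩)
    (by
      intro r w hw
      rw [hmem] at hw ⊢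
      refine ⟨hOp_mem_newSub hw.1 r, fun ℓ => ?_⟩
      have h3 : hOp (q * N) ℓ.1 (hOp (q * N) r w) = hOp (q * N) r (hOp (q * N) ℓ.1 w) :=
        LinearMap.congr_fun (hOp_comm (N := q * N) ℓ.1 r) w
      rw [h3, hw.2 ℓ, map_smul])
  rw [hmem] at hgW
  obtain ⟨hgn, hge⟩ := hgW
  have hg0 := ne_zero_of_isNormalizedEigenform hg
  have huniq : ∀ {x y : ℂ}, x • g = y • g → x = y := fun h => smul_left_injective ℂ hg0 h
  refine ⟨g, θ, M, hg, fun ℓ => ?_, hM, ?_, ?_⟩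
  · apply huniq
    rw [← hge ℓ, hOp_eigen hg]
  · ext r
    rw [Ideal.mem_comap, RingHom.mem_ker, ← hχ1, ← RingHom.mem_ker, ← hMm, Ideal.mem_comap]
    rfl
  · change qCoeff g q ^ 2 = 1
    rw [mem_newSub] at hgn
    obtain ⟨h1, h2⟩ := hgn
    have h3 : hOp (q * N) (pr hq) g = qCoeff g q • g := hOp_eigen hg (pr hq)
    have h4 : wLin a hq.ne_zero g = -(qCoeff g q • g) := by
      rw [← h3]; exact eq_neg_of_add_eq_zero_right h1
    rw [h4, map_neg, map_smul, h3, smul_smul, ← pow_two] at h2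
    apply huniq
    rw [one_smul]
    exact (eq_of_neg_add_eq_zero h2)

theorem exists_aux_prime [NeZero N] {p : ℕ} [Fact p.Prime] (hq : q.Prime) {P : ℕ → Prop}
    (hne : ∀ n : ℕ, n ≠ 0 → ∃ ℓ : ℕ, ℓ.Prime ∧ ℓ ≡ 1 [MOD n] ∧ P ℓ) :
    ∃ ℓ : GP (q * N), AuxP N q p ℓ ∧ (ℓ.1 : ℕ) ≡ 1 [MOD q * N] ∧ P ℓ.1 := by
  obtain ⟨ℓ, hℓ, h1, hP⟩ := hne (2 * p * (q * N) * nI N) (by
    have := (Fact.out : p.Prime).ne_zero
    have := hq.ne_zero
    have := NeZero.ne N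
    have := nI_ne_zero N
    positivity)
  have key : ∀ d : ℕ, d ≠ 1 → ℓ ≡ 1 [MOD d] → ¬ ℓ = d := by
    intro d hd h h'
    subst h'
    have h2 := (Nat.modEq_iff_dvd' hℓ.one_lt.le).mp h.symm
    have h3 : ℓ ∣ 1 := by
      have := (Nat.dvd_sub_iff_right hℓ.one_lt.le dvd_rfl).mp h2
      exact this
    exact hd (Nat.dvd_one.mp h3)
  have hqN : ℓ ≡ 1 [MOD q * N] := h1.of_dvd ⟨2 * p * nI N, by ring⟩
  have hdvd : ¬ ℓ ∣ q * N := by
    intro h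
    exact key ℓ hℓ.one_lt.ne' (hqN.of_dvd h) rfl
  refine ⟨⟨⟨ℓ, hℓ⟩, hdvd⟩, ⟨?_, ?_, ?_, ?_⟩, hqN, hP⟩
  · exact key 2 (by norm_num) (h1.of_dvd ⟨p * (q * N) * nI N, by ring⟩)
  · exact key p (Fact.out : p.Prime).one_lt.ne' (h1.of_dvd ⟨2 * (q * N) * nI N, by ring⟩)
  · exact h1.of_dvd ⟨2 * p * (q * N), by ring⟩
  · exact h1.of_dvd ⟨2 * p * q * nI N, by ring⟩

/-- **Level raising**, general form (the case `q = p` is allowed). The level is `q * N`. -/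
theorem level_raising_aux [NeZero N] {p : ℕ} [Fact p.Prime] (hp2 : p ≠ 2) (hq : q.Prime)
    (hqN : ¬ q ∣ N) {f : CuspForm (Gamma0 N) 2} (hf : f.IsNormalizedEigenform)
    (𝔪 : Ideal (integralClosure ℤ ℂ)) (hmax : 𝔪.IsMaximal) (hpm : (p : integralClosure ℤ ℂ) ∈ 𝔪)
    (hLR : ∃ a : integralClosure ℤ ℂ, (a : ℂ) = qCoeff f q ∧
      a ^ 2 - ((q : integralClosure ℤ ℂ) + 1) ^ 2 ∈ 𝔪)
    (hne : ∀ n : ℕ, n ≠ 0 → ∃ ℓ : ℕ, ℓ.Prime ∧ ℓ ≡ 1 [MOD n] ∧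
      ∃ a : integralClosure ℤ ℂ, (a : ℂ) = qCoeff f ℓ ∧
        a - ((ℓ : integralClosure ℤ ℂ) + 1) ∉ 𝔪) :
    ∃ (g : CuspForm (Gamma0 (q * N)) 2) (θf θ : RH (q * N) →+* integralClosure ℤ ℂ)
      (M : Ideal (integralClosure ℤ ℂ)), g.IsNormalizedEigenform ∧
      (∀ ℓ : GP (q * N), (θf (MvPolynomial.X ℓ) : ℂ) = qCoeff f ℓ.1) ∧
      (∀ ℓ : GP (q * N), (θ (MvPolynomial.X ℓ) : ℂ) = qCoeff g ℓ.1) ∧ M.IsMaximal ∧
      M.comap θ = 𝔪.comap θf ∧ g.IsNewAt q := by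
  have : NeZero (q * N) := ⟨mul_ne_zero hq.ne_zero (NeZero.ne N)⟩
  let _ : Field (integralClosure ℤ ℂ ⧸ 𝔪) := Ideal.Quotient.field 𝔪
  have hpK : (p : integralClosure ℤ ℂ ⧸ 𝔪) = 0 := by
    rw [← map_natCast (Ideal.Quotient.mk 𝔪), Ideal.Quotient.eq_zero_iff_mem]
    exact hpm
  obtain ⟨χ, hχ1, hχ2⟩ := exists_eigenChar_mod_p hf hpK (Ideal.Quotient.mk 𝔪)
  have hint : ∀ t, IsIntegral ℤ (χ t) := by
    intro t
    obtain ⟨x, hx⟩ := Ideal.Quotient.mk_surjective (χ t)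
    rw [← hx]
    exact (Algebra.IsIntegral.isIntegral (R := ℤ) x).map (Ideal.Quotient.mk 𝔪).toIntAlgHom
  have hχ : ∀ t, eF N ℤ t = 0 → χ t = 0 := fun t ht => hχ2 t fun φ => ⟨0, by
    rw [evalPar_eq_zero ht, smul_zero]; rfl⟩
  obtain ⟨ℓ, hℓ, hℓN, a, ha, haℓ⟩ := exists_aux_prime (N := N) (p := p) hq hne
  obtain ⟨al⟩ := exists_ALD (N := N) ((Nat.Prime.coprime_iff_not_dvd hq).mpr hqN)
  -- the sign
  obtain ⟨b, hb, hb2⟩ := hLR
  have hχq : χ (heckeGen (pr hq)) = Ideal.Quotient.mk 𝔪 b := hχ1 (pr hq) b hb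
  obtain ⟨ε, hε, hεq⟩ : ∃ ε : ℤ, ε * ε = 1 ∧ χ (heckeGen ⟨q, hq⟩) = ε * (q + 1) := by
    have h1 : (b - (q + 1)) * (b + (q + 1)) ∈ 𝔪 := by
      have : (b - (q + 1)) * (b + (q + 1)) = b ^ 2 - ((q : integralClosure ℤ ℂ) + 1) ^ 2 := by ring
      rw [this]; exact hb2
    rcases hmax.isPrime.mem_or_mem h1 with h2 | h2
    · refine ⟨1, by norm_num, ?_⟩
      change χ (heckeGen (pr hq)) = _
      rw [hχq, Int.cast_one, one_mul, ← sub_eq_zero, ← Ideal.Quotient.eq_zero_iff_mem.mpr h2,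
        map_sub, map_add, map_natCast, map_one]
    · refine ⟨-1, by norm_num, ?_⟩
      change χ (heckeGen (pr hq)) = _
      rw [hχq, Int.cast_neg, Int.cast_one, neg_one_mul, ← sub_eq_zero, sub_neg_eq_add,
        ← Ideal.Quotient.eq_zero_iff_mem.mpr h2, map_add, map_add, map_natCast, map_one]
  have hχℓ : χ (heckeGen ℓ.1) = Ideal.Quotient.mk 𝔪 a := hχ1 ℓ.1 a ha
  have hℓχ : χ (heckeGen ℓ.1) ≠ (ℓ.1 : ℕ) + 1 := by
    rw [hχℓ]
    intro h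
    apply haℓ
    rw [← Ideal.Quotient.eq_zero_iff_mem, map_sub, map_add, map_natCast, map_one, h, sub_self]
  obtain ⟨κ, hκ1, hκ2, hκ3⟩ := exists_kernel hp2 hpK χ hint hχ al hq hqN ε hε hεq ℓ hℓ hℓχ
  let χ0 : RH (q * N) →+* (integralClosure ℤ ℂ ⧸ 𝔪) := χ.comp (incR (q * N)).toRingHom
  have hker : ∀ r, (∀ f ∈ newSub al hq, eC (q * N) r f = 0) → χ0 r = 0 := by
    intro r hr
    have h1 := hκ3 _ (eS_eq_zero_of_newSub al hq hqN hκ1 hκ2 hr ℓ hℓN)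
    have h2 : χ0 (tz (q * N) ℓ * r) = 0 := h1
    rw [map_mul] at h2
    refine (mul_eq_zero.mp h2).resolve_left ?_
    have h3 : χ0 (tz (q * N) ℓ) = χ (heckeGen ℓ.1) - (((ℓ.1 : ℕ) + 1 : ℕ) : _) := by
      change χ (incR (q * N) (tz (q * N) ℓ)) = _
      rw [tz, map_sub, incR_X, map_sub, map_natCast, map_natCast]
    intro h4
    have h5 := sub_eq_zero.mp (h3.symm.trans h4)
    apply hℓχ
    rw [h5, Nat.cast_add, Nat.cast_one]
  obtain ⟨g, θ, M, hg, hθ, hM, hMc, hnew⟩ :=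
    exists_new_eigenform al hq hpK χ0 (fun r => hint _) hker
  -- integrality of the coefficients of `f`
  let θf : RH (q * N) →+* integralClosure ℤ ℂ :=
    (MvPolynomial.aeval (fun ℓ : GP (q * N) => (⟨qCoeff f ℓ.1, isIntegral_qCoeff_prime hf ℓ.1.2⟩ :
      integralClosure ℤ ℂ))).toRingHom
  have hθf : ∀ ℓ : GP (q * N), θf (MvPolynomial.X ℓ) =
      ⟨qCoeff f ℓ.1, isIntegral_qCoeff_prime hf ℓ.1.2⟩ := fun ℓ => MvPolynomial.aeval_X _ ℓ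
  have hcomp : χ0 = (Ideal.Quotient.mk 𝔪).comp θf := by
    apply MvPolynomial.ringHom_ext
    · intro n
      have e1 : χ0 (MvPolynomial.C n) = (n : integralClosure ℤ ℂ ⧸ 𝔪) := by
        rw [eq_intCast (MvPolynomial.C : ℤ →+* RH (q * N)) n, map_intCast]
      rw [e1, eq_intCast (MvPolynomial.C : ℤ →+* RH (q * N)) n, map_intCast]
    · intro ℓ
      have e1 : χ0 (MvPolynomial.X ℓ) = χ (heckeGen ℓ.1) := by
        change χ (incR (q * N) (MvPolynomial.X ℓ)) = _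
        rw [incR_X]
      rw [e1, RingHom.comp_apply, hθf]
      exact hχ1 ℓ.1 _ rfl
  refine ⟨g, θf, θ, M, hg, fun ℓ => by rw [hθf], hθ, hM, ?_, hnew⟩
  rw [hMc, hcomp]
  ext r
  rw [RingHom.mem_ker, RingHom.comp_apply, Ideal.Quotient.eq_zero_iff_mem, Ideal.mem_comap]

/-- **Level raising** (the case `q = p` is allowed). -/
theorem level_raising {N q p : ℕ} (hN : N ≠ 0) (hp : p.Prime) (hp2 : p ≠ 2) (hq : q.Prime)
    (hqN : ¬ q ∣ N) {f : CuspForm (Gamma0 N) 2} (hf : f.IsNormalizedEigenform)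
    (𝔪 : Ideal (integralClosure ℤ ℂ)) (hmax : 𝔪.IsMaximal) (hpm : (p : integralClosure ℤ ℂ) ∈ 𝔪)
    (hLR : ∃ a : integralClosure ℤ ℂ, (a : ℂ) = qCoeff f q ∧
      a ^ 2 - ((q : integralClosure ℤ ℂ) + 1) ^ 2 ∈ 𝔪)
    (hne : ∀ n : ℕ, n ≠ 0 → ∃ ℓ : ℕ, ℓ.Prime ∧ ℓ ≡ 1 [MOD n] ∧
      ∃ a : integralClosure ℤ ℂ, (a : ℂ) = qCoeff f ℓ ∧
        a - ((ℓ : integralClosure ℤ ℂ) + 1) ∉ 𝔪) :
    ∃ (g : CuspForm (Gamma0 (N * q)) 2) (𝔪' : Ideal (integralClosure ℤ ℂ)),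
      g.IsNormalizedEigenform ∧ 𝔪'.IsMaximal ∧ (p : integralClosure ℤ ℂ) ∈ 𝔪' ∧
      (∀ ℓ : ℕ, ℓ.Prime → ¬ ℓ ∣ N * q → ∀ (a : integralClosure ℤ ℂ) (b : ℤ),
        (a : ℂ) = qCoeff f ℓ → a - (b : integralClosure ℤ ℂ) ∈ 𝔪 →
        ∃ a' : integralClosure ℤ ℂ, (a' : ℂ) = qCoeff g ℓ ∧
          a' - (b : integralClosure ℤ ℂ) ∈ 𝔪') ∧
      g.IsNewAt q := by
  have : NeZero N := ⟨hN⟩
  have : Fact p.Prime := ⟨hp⟩
  obtain ⟨g, θf, θ, M, hg, hθf, hθ, hM, hMc, hnew⟩ :=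
    level_raising_aux hp2 hq hqN hf 𝔪 hmax hpm hLR hne
  rw [mul_comm N q]
  refine ⟨g, M, hg, hM, ?_, ?_, hnew⟩
  · have h1 : (p : RH (q * N)) ∈ M.comap θ := by
      rw [hMc, Ideal.mem_comap, map_natCast]; exact hpm
    rw [Ideal.mem_comap, map_natCast] at h1
    exact h1
  · intro ℓ hℓ hℓN a b ha hab
    let ℓ' : GP (q * N) := ⟨⟨ℓ, hℓ⟩, hℓN⟩
    refine ⟨θ (MvPolynomial.X ℓ'), hθ ℓ', ?_⟩
    have h1 : (MvPolynomial.X ℓ' - (b : RH (q * N))) ∈ M.comap θ := by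
      rw [hMc, Ideal.mem_comap, map_sub, map_intCast]
      have h2 : θf (MvPolynomial.X ℓ') = a := Subtype.ext (by rw [hθf, ha])
      rw [h2]; exact hab
    rw [Ideal.mem_comap, map_sub, map_intCast] at h1
    exact h1

end Fermat.Agent.Ihara
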