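import Fermat.Agent.Ihara.Ops

set_option autoImplicit false

/-!
# The Atkin–Lehner operator and the trace on modular symbols
-/

open CongruenceSubgroup
open scoped MatrixGroups

namespace Fermat.Agent.Ihara

open Fermat.Agent.Top Matrix

variable {N q : ℕ} {A : Type*} [AddCommGroup A]

/-- Data for an Atkin–Lehner matrix at `q` for the level `q * N`. -/
structure ALD (N q : ℕ) where
  x : ℤ
  y : ℤ
  z : ℤ
  t : ℤ
  h : (q : ℤ) * x * t - N * y * z = 1

theorem exists_ALD (h : Nat.Coprime q N) : Nonempty (ALD N q) := by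
  obtain ⟨u, v, huv⟩ := Nat.isCoprime_iff_coprime.mpr h
  exact ⟨⟨u, -v, 1, 1, by linear_combination huv⟩⟩

namespace ALD

variable (a : ALD N q)

/-- The matrix. -/
def w : M2 := !![q * a.x, a.y; q * N * a.z, q * a.t]

theorem det_w : a.w.det = q := by
  rw [w, Matrix.det_fin_two_of]
  linear_combination (q : ℤ) * a.h

/-- The adjugate data. -/
def adj : ALD N q := ⟨a.t, -a.y, -a.z, a.x, by linear_combination a.h⟩

theorem w_mul_adj : a.w * a.adj.w = (q : ℤ) • (1 : M2) := by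
  ext i j
  fin_cases i <;> fin_cases j <;> simp [w, adj]
  · linear_combination (q : ℤ) * a.h
  · ring
  · ring
  · linear_combination (q : ℤ) * a.h

theorem adj_mul_w : a.adj.w * a.w = (q : ℤ) • (1 : M2) := by
  ext i j
  fin_cases i <;> fin_cases j <;> simp [w, adj]
  · linear_combination (q : ℤ) * a.h
  · ring
  · ring
  · linear_combination (q : ℤ) * a.h

/-- Conjugation by the Atkin–Lehner matrix. -/
theorem conj (hq : q ≠ 0) {X : M2} (hX : ((q * N : ℕ) : ℤ) ∣ X 1 0)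
    (hdet : IsCoprime X.det ((q * N : ℕ) : ℤ)) :
    ∃ X' : M2, IsDelta (q * N) X' ∧ X'.det = X.det ∧ a.w * X = X' * a.w := by
  have hq0 : (q : ℤ) ≠ 0 := by exact_mod_cast hq
  obtain ⟨c₀, hc₀⟩ := hX
  have hc : X 1 0 = q * N * c₀ := by rw [hc₀]; push_cast; ring
  have hdw : a.w.det ≠ 0 := by rw [a.det_w]; exact hq0
  obtain ⟨X', hX'⟩ : ∃ X' : M2, X' =
      !![q * a.x * X 0 0 * a.t + a.y * (q * N * c₀) * a.t -
          N * a.z * (q * a.x * X 0 1 + a.y * X 1 1),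
        -(a.y * a.x * X 0 0) - a.y ^ 2 * (N * c₀) + q * a.x ^ 2 * X 0 1 + a.x * a.y * X 1 1;
        q * N * (a.z * X 0 0 * a.t + q * c₀ * a.t ^ 2 - N * a.z ^ 2 * X 0 1 - a.z * a.t * X 1 1),
        -(a.y * (N * a.z * X 0 0 + q * N * c₀ * a.t)) +
          a.x * (q * N * a.z * X 0 1 + q * a.t * X 1 1)] := ⟨_, rfl⟩
  have hmul : a.w * X = X' * a.w := by
    rw [hX']
    ext i j
    fin_cases i <;> fin_cases j <;> simp [w, Matrix.mul_apply, Fin.sum_univ_two, hc]
    · linear_combination (-(q * a.x * X 0 0 + a.y * (q * N * c₀))) * a.h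
    · linear_combination (-(q * a.x * X 0 1 + a.y * X 1 1)) * a.h
    · linear_combination (-(q * N * a.z * X 0 0 + q * a.t * (q * N * c₀))) * a.h
    · linear_combination (-(q * N * a.z * X 0 1 + q * a.t * X 1 1)) * a.h
  have hdet' : X'.det = X.det := by
    have := congrArg Matrix.det hmul
    rw [Matrix.det_mul, Matrix.det_mul, mul_comm] at this
    exact (mul_right_cancel₀ hdw this).symm
  refine ⟨X', isDelta_of_det ?_ (by rw [hdet']; exact hdet), hdet', hmul⟩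
  rw [hX']
  simp only [Matrix.of_apply, Matrix.cons_val', Matrix.cons_val_zero, Matrix.cons_val_one,
    Matrix.cons_val_fin_one]
  exact ⟨a.z * X 0 0 * a.t + q * c₀ * a.t ^ 2 - N * a.z ^ 2 * X 0 1 - a.z * a.t * X 1 1, by
    push_cast; ring⟩

/-- Inverse conjugation. -/
theorem conj' (hq : q ≠ 0) {X : M2} (hX : ((q * N : ℕ) : ℤ) ∣ X 1 0)
    (hdet : IsCoprime X.det ((q * N : ℕ) : ℤ)) :
    ∃ X' : M2, IsDelta (q * N) X' ∧ X'.det = X.det ∧ X * a.w = a.w * X' := by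
  have hq0 : (q : ℤ) ≠ 0 := by exact_mod_cast hq
  obtain ⟨X', h1, h2, h3⟩ := a.adj.conj hq hX hdet
  refine ⟨X', h1, h2, ?_⟩
  have h4 : a.w * (a.adj.w * X) * a.w = a.w * (X' * a.adj.w) * a.w := by rw [h3]
  have h5 : a.w * (a.adj.w * X) * a.w = (q : ℤ) • (X * a.w) := by
    rw [← Matrix.mul_assoc a.w, w_mul_adj, Matrix.smul_mul, Matrix.one_mul, Matrix.smul_mul]
  have h6 : a.w * (X' * a.adj.w) * a.w = (q : ℤ) • (a.w * X') := by
    rw [Matrix.mul_assoc, Matrix.mul_assoc, adj_mul_w, Matrix.mul_smul, Matrix.mul_one,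
      Matrix.mul_smul]
  rw [h5, h6] at h4
  exact smul_right_injective _ hq0 h4

theorem conj_mt (hq : q ≠ 0) (γ : Gamma0 (q * N)) :
    ∃ γ' : Gamma0 (q * N), a.w * mt γ = mt γ' * a.w := by
  obtain ⟨X', h1, h2, h3⟩ := a.conj hq (X := mt γ) (isDelta_mt γ).1
    (by rw [det_mt]; exact isCoprime_one_left)
  rw [det_mt] at h2
  obtain ⟨γ', rfl⟩ := exists_mt h1 h2
  exact ⟨γ', h3⟩

theorem repSys_w (hq : q ≠ 0) : RepSys (q * N) (q * N) (fun _ : Unit => a.w) where
  det _ := by rw [a.det_w]; exact_mod_cast hq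
  ex γ _ := by
    obtain ⟨γ', h⟩ := a.conj_mt hq γ
    exact ⟨γ', (), h⟩
  uniq _ _ _ _ := rfl

variable (A)

/-- The Atkin–Lehner operator on modular symbols. -/
def W (hq : q ≠ 0) : Symb (q * N) A →+ Symb (q * N) A :=
  ((opM (fun _ : Unit => a.w)).comp (Symb (q * N) A).subtype).codRestrict (Symb (q * N) A)
    (fun f => (a.repSys_w hq).isSymb f.2)

variable {A}

theorem W_coe (hq : q ≠ 0) (f : Symb (q * N) A) :
    (a.W A hq f).1 = opM (fun _ : Unit => a.w) f.1 := rfl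

theorem W_apply (hq : q ≠ 0) (f : Symb (q * N) A) (u v : V2) :
    a.W A hq f u v = f (a.w *ᵥ u) (a.w *ᵥ v) := by
  change opM (fun _ : Unit => a.w) f.1 u v = _
  rw [opM_apply]; simp

/-- `w² = q γ` -/
theorem w_sq : ∃ γ : Gamma0 (q * N), a.w * a.w = (q : ℤ) • mt γ := by
  obtain ⟨X, hX⟩ : ∃ X : M2, X = !![q * a.x ^ 2 + a.y * N * a.z, a.y * (a.x + a.t);
    q * N * a.z * (a.x + a.t), N * a.z * a.y + q * a.t ^ 2] := ⟨_, rfl⟩
  have hdet : X.det = 1 := by
    rw [hX, Matrix.det_fin_two_of]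
    linear_combination (q * a.x * a.t - N * a.y * a.z + 1) * a.h
  obtain ⟨γ, hγ⟩ := exists_mt (N := q * N) (X := X) (isDelta_of_det (by
    rw [hX]
    simp only [Matrix.of_apply, Matrix.cons_val', Matrix.cons_val_zero, Matrix.cons_val_one,
      Matrix.cons_val_fin_one]
    exact ⟨a.z * (a.x + a.t), by push_cast; ring⟩) (by rw [hdet]; exact isCoprime_one_left)) hdet
  refine ⟨γ, ?_⟩
  rw [← hγ, hX]
  ext i j
  fin_cases i <;> fin_cases j <;> simp [w] <;> ring

theorem W_W (hq : q ≠ 0) (f : Symb (q * N) A) : a.W A hq (a.W A hq f) = f := by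
  apply Subtype.ext
  funext u v
  obtain ⟨γ, hγ⟩ := a.w_sq
  have hq0 : (q : ℤ) ≠ 0 := by exact_mod_cast hq
  change a.W A hq (a.W A hq f) u v = f u v
  rw [W_apply, W_apply, mulVec_mulVec, mulVec_mulVec, hγ, smul_mulVec, smul_mulVec,
    f.2.smul_smul hq0, f.2.inv]

theorem W_Ts (hq : q ≠ 0) (ℓ : Nat.Primes) (hℓ : ¬ (ℓ : ℕ) ∣ q * N) (f : Symb (q * N) A) :
    a.W A hq (Ts (q * N) A ℓ f) = Ts (q * N) A ℓ (a.W A hq f) := by
  have hcop : IsCoprime ((ℓ : ℕ) : ℤ) ((q * N : ℕ) : ℤ) :=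
    Nat.isCoprime_iff_coprime.mpr ((Nat.Prime.coprime_iff_not_dvd ℓ.2).mpr hℓ)
  have hdw : a.w.det ≠ 0 := by rw [a.det_w]; exact_mod_cast hq
  apply Subtype.ext
  rw [W_coe, Ts_coe, Ts_coe, W_coe, opM_opM, opM_opM]
  refine opM_congr (N := q * N) (D := fun x : HI (q * N) ℓ × Unit => tM (q * N) ℓ x.1 * a.w)
    (E := fun x : Unit × HI (q * N) ℓ => a.w * tM (q * N) ℓ x.2) ?_ ?_ ?_ f.2
  · rintro γ' ⟨i, _⟩ ⟨j, _⟩ h
    have h1 : mt γ' * tM (q * N) ℓ i = tM (q * N) ℓ j :=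
      mul_right_cancel_det hdw (by rw [Matrix.mul_assoc]; exact h)
    rw [(repSys_tM (q * N) ℓ.2).uniq γ' i j h1]
  · rw [Fintype.card_prod, Fintype.card_prod, mul_comm]
  · rintro ⟨i, _⟩
    obtain ⟨X', h1, h2, h3⟩ := a.conj' hq (X := tM (q * N) ℓ i) (isDelta_HM ℓ.2 i).1
      (by rw [det_tM]; exact hcop)
    rw [det_tM] at h2
    obtain ⟨γ, j, hγ⟩ := exists_tM ℓ.2 h1 h2
    obtain ⟨γ', hγ'⟩ := a.conj_mt hq γ
    refine ⟨γ', ((), j), ?_⟩
    change tM (q * N) ℓ i * a.w = mt γ' * (a.w * tM (q * N) ℓ j)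
    rw [h3, hγ, ← Matrix.mul_assoc, hγ', Matrix.mul_assoc]

theorem ev_toHom_W (hq : q ≠ 0) (f : Symb (q * N) A) {γ γ' : Gamma0 (q * N)}
    (h : a.w * mt γ = mt γ' * a.w) : ev (toHom (a.W A hq f)) γ = ev (toHom f) γ' := by
  have hdw : a.w.det ≠ 0 := by rw [a.det_w]; exact_mod_cast hq
  rw [ev_toHom', W_apply, mulVec_mulVec, h, ← mulVec_mulVec,
    ev_toHom f γ' (mulVec_ne_zero_of_det hdw e1_ne)]

/-! ### the trace -/

/-- Representatives for the trace. -/
def trM : Option (Fin q) → M2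
  | none => a.w
  | some j => HM q (some j)

@[simp] theorem trM_none : a.trM none = a.w := rfl
@[simp] theorem trM_some (j : Fin q) : a.trM (some j) = HM q (some j) := rfl

/-- `diag(1, q)` -/
def dg (q : ℕ) : M2 := !![1, 0; 0, (q : ℤ)]

theorem det_dg (q : ℕ) : (dg q).det = q := by simp [dg, Matrix.det_fin_two_of]

/-- factors of the representatives -/
def bM : Option (Fin q) → M2
  | none => !![q * a.x, a.y; N * a.z, a.t]
  | some j => !![1, ((j : ℕ) : ℤ); 0, 1]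

theorem trM_eq (i : Option (Fin q)) : a.trM i = dg q * a.bM i := by
  cases i with
  | none =>
    ext i j
    fin_cases i <;> fin_cases j <;> simp [dg, bM, w]
    ring
  | some j =>
    ext i j
    fin_cases i <;> fin_cases j <;> simp [dg, bM]

theorem det_bM (i : Option (Fin q)) : (a.bM i).det = 1 := by
  cases i with
  | none =>
    simp only [bM, Matrix.det_fin_two_of]
    linear_combination a.h
  | some j => simp [bM, Matrix.det_fin_two_of]

theorem isDelta_bM (i : Option (Fin q)) : IsDelta N (a.bM i) := by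
  refine isDelta_of_det ?_ (by rw [a.det_bM]; exact isCoprime_one_left)
  cases i <;> simp [bM]

/-- Factorisation for the trace. -/
theorem exists_trM (hq : q.Prime) (hqN : ¬ q ∣ N) {B : M2} (hB : IsDelta N B)
    (hdet : ¬ (q : ℤ) ∣ B.det) : ∃ (X : M2) (i : Option (Fin q)), IsDelta (q * N) X ∧
      dg q * B = X * a.trM i := by
  have hqp : Prime (q : ℤ) := Nat.prime_iff_prime_int.mp hq
  have hq0 : (q : ℤ) ≠ 0 := hqp.ne_zero
  have : Fact q.Prime := ⟨hq⟩
  obtain ⟨⟨c, hc⟩, h2⟩ := hB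
  rw [Matrix.det_fin_two] at hdet
  by_cases h0 : (q : ℤ) ∣ B 0 0
  · obtain ⟨a', ha'⟩ := h0
    -- coprimality
    have hqy : IsCoprime (q : ℤ) (N * a.y * a.z) := ⟨a.x * a.t, -1, by linear_combination a.h⟩
    have hNt : IsCoprime a.t (N : ℤ) := ⟨q * a.x, -(a.y * a.z), by linear_combination a.h⟩
    have hqb : IsCoprime (q : ℤ) (B 0 1) := by
      refine (hqp.coprime_iff_not_dvd).mpr fun h => hdet ?_
      exact dvd_sub (by rw [ha']; exact ⟨a' * B 1 1, by ring⟩) (h.mul_right _)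
    refine ⟨!![B 0 0 * a.t - B 0 1 * (N * a.z), -(a' * a.y) + B 0 1 * a.x;
      q * (B 1 0 * a.t - B 1 1 * (N * a.z)), -(B 1 0 * a.y) + q * (B 1 1 * a.x)], none,
      ⟨?_, ?_⟩, ?_⟩
    · simp only [Matrix.of_apply, Matrix.cons_val', Matrix.cons_val_zero, Matrix.cons_val_one,
        Matrix.cons_val_fin_one]
      rw [hc]
      exact ⟨c * a.t - B 1 1 * a.z, by push_cast; ring⟩
    · simp only [Matrix.of_apply, Matrix.cons_val', Matrix.cons_val_zero,
        Matrix.cons_val_fin_one]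
      have e1 : IsCoprime (B 0 0 * a.t - B 0 1 * (N * a.z)) (q : ℤ) := by
        have : B 0 0 * a.t - B 0 1 * (N * a.z) = -(B 0 1 * (N * a.z)) + (q : ℤ) * (a' * a.t) := by
          rw [ha']; ring
        rw [this]
        refine IsCoprime.add_mul_left_left ?_ _
        refine IsCoprime.neg_left ?_
        refine IsCoprime.mul_left hqb.symm ?_
        have h3 : IsCoprime (q : ℤ) (N * a.z * a.y) := by
          convert hqy using 1; ring
        exact (h3.of_mul_right_left).symm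
      have e2 : IsCoprime (B 0 0 * a.t - B 0 1 * (N * a.z)) (N : ℤ) := by
        have : B 0 0 * a.t - B 0 1 * (N * a.z) = B 0 0 * a.t + (N : ℤ) * (-(B 0 1 * a.z)) := by ring
        rw [this]
        exact (IsCoprime.mul_left h2 hNt).add_mul_left_left _
      push_cast
      exact e1.mul_right e2
    · rw [trM_none, w]
      ext i j
      fin_cases i <;> fin_cases j <;> simp [dg, Matrix.mul_apply, Fin.sum_univ_two, ha']
      · linear_combination (-(q * a')) * a.h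
      · linear_combination (-(B 0 1)) * a.h
      · linear_combination (-(q * B 1 0)) * a.h
      · linear_combination (-(q * B 1 1)) * a.h
  · -- `j = b / a`
    have ha : ((B 0 0 : ℤ) : ZMod q) ≠ 0 := by
      rwa [Ne, ZMod.intCast_zmod_eq_zero_iff_dvd]
    obtain ⟨j, hj⟩ : ∃ j : Fin q, (q : ℤ) ∣ B 0 1 - ((j : ℕ) : ℤ) * B 0 0 := by
      let y : ZMod q := ((B 0 1 : ℤ) : ZMod q) / ((B 0 0 : ℤ) : ZMod q)
      refine ⟨⟨y.val, y.val_lt⟩, ?_⟩
      rw [← ZMod.intCast_zmod_eq_zero_iff_dvd]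
      push_cast
      rw [ZMod.natCast_zmod_val]
      simp only [y]
      field_simp
      ring
    obtain ⟨b, hb⟩ := hj
    refine ⟨!![B 0 0, b; q * B 1 0, B 1 1 - ((j : ℕ) : ℤ) * B 1 0], some j, ⟨?_, ?_⟩, ?_⟩
    · simp only [Matrix.of_apply, Matrix.cons_val', Matrix.cons_val_zero, Matrix.cons_val_one,
        Matrix.cons_val_fin_one]
      rw [hc]
      exact ⟨c, by push_cast; ring⟩
    · simp only [Matrix.of_apply, Matrix.cons_val', Matrix.cons_val_zero,
        Matrix.cons_val_fin_one]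
      push_cast
      refine IsCoprime.mul_right ?_ h2
      exact ((hqp.coprime_iff_not_dvd).mpr h0).symm
    · rw [trM_some, HM_some]
      ext i j
      fin_cases i <;> fin_cases j <;> simp [dg, Matrix.mul_apply, Fin.sum_univ_two]
      · linear_combination hb
      · ring

theorem trM_uniq (hq : q.Prime) (γ : Gamma0 (q * N)) (i j : Option (Fin q))
    (h : mt γ * a.trM i = a.trM j) : i = j := by
  have hqp : Prime (q : ℤ) := Nat.prime_iff_prime_int.mp hq
  have key : ∀ (γ : Gamma0 (q * N)) (j : Fin q), mt γ * HM q (some j) ≠ a.w := by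
    intro γ j h
    have h00 := congrFun (congrFun h 0) 0
    have h01 := congrFun (congrFun h 0) 1
    simp [w, Matrix.mul_apply, Fin.sum_univ_two] at h00 h01
    have hqy : (q : ℤ) ∣ a.y := ⟨a.x * ((j : ℕ) : ℤ) + mt γ 0 1, by rw [← h01, h00]; ring⟩
    obtain ⟨y', hy'⟩ := hqy
    have h1 := a.h
    rw [hy'] at h1
    exact hqp.not_isUnit (IsUnit.of_mul_eq_one (a.x * a.t - N * y' * a.z)
      (by linear_combination h1))
  cases i with
  | none =>
    cases j with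
    | none => rfl
    | some j =>
      rw [trM_none, trM_some, mt_mul_eq_iff] at h
      exact absurd h.symm (key γ⁻¹ j)
  | some i =>
    cases j with
    | none =>
      rw [trM_none, trM_some] at h
      exact absurd h (key γ i)
    | some j =>
      rw [trM_some, trM_some] at h
      exact HM_unique hq (γ : SL(2, ℤ)) _ _ h

theorem det_trM (i : Option (Fin q)) : (a.trM i).det = q := by
  rw [trM_eq, Matrix.det_mul, det_dg, det_bM, mul_one]

theorem repSys_trM (hq : q.Prime) (hqN : ¬ q ∣ N) : RepSys (q * N) N a.trM where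
  det i := by rw [a.det_trM]; exact_mod_cast hq.ne_zero
  ex γ i := by
    have hqp : Prime (q : ℤ) := Nat.prime_iff_prime_int.mp hq
    obtain ⟨X, j, hX, h⟩ := a.exists_trM hq hqN (B := a.bM i * mt γ)
      ((a.isDelta_bM i).mul (isDelta_mt γ))
      (by rw [Matrix.det_mul, det_bM, det_mt, mul_one]; exact fun h => hqp.not_isUnit
            (isUnit_of_dvd_one h))
    rw [← Matrix.mul_assoc, ← trM_eq] at h
    have hdet : X.det = 1 := by
      have h1 := congrArg Matrix.det h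
      rw [Matrix.det_mul, Matrix.det_mul, det_trM, det_trM, det_mt, mul_one] at h1
      exact (mul_right_cancel₀ hqp.ne_zero (by rw [one_mul]; exact h1)).symm
    obtain ⟨γ', rfl⟩ := exists_mt hX hdet
    exact ⟨γ', j, h⟩
  uniq := a.trM_uniq hq

variable (A)

/-- The trace from level `q N` to level `N`. -/
def Tr (hq : q.Prime) (hqN : ¬ q ∣ N) : Symb (q * N) A →+ Symb N A :=
  ((opM a.trM).comp (Symb (q * N) A).subtype).codRestrict (Symb N A)
    (fun f => (a.repSys_trM hq hqN).isSymb f.2)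

variable {A}

theorem Tr_coe (hq : q.Prime) (hqN : ¬ q ∣ N) (f : Symb (q * N) A) :
    (a.Tr A hq hqN f).1 = opM a.trM f.1 := rfl

/-- inclusion of conjugates -/
theorem conj_dg (γ : Gamma0 (q * N)) : ∃ γ' : Gamma0 N, mt γ * dg q = dg q * mt γ' := by
  obtain ⟨⟨c, hc⟩, h⟩ := isDelta_mt γ
  have hc' : mt γ 1 0 = q * (N * c) := by rw [hc]; push_cast; ring
  obtain ⟨X, hX⟩ : ∃ X : M2, X = !![mt γ 0 0, q * mt γ 0 1; N * c, mt γ 1 1] := ⟨_, rfl⟩
  have hdet : X.det = 1 := by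
    have h1 := det_mt γ
    rw [Matrix.det_fin_two, hc'] at h1
    rw [hX, Matrix.det_fin_two_of]
    linear_combination h1
  obtain ⟨γ', rfl⟩ := exists_mt (N := N) (X := X) (isDelta_of_det (by rw [hX]; simp)
    (by rw [hdet]; exact isCoprime_one_left)) hdet
  refine ⟨γ', ?_⟩
  rw [hX]
  ext i j
  fin_cases i <;> fin_cases j <;> simp [dg, Matrix.mul_apply, Fin.sum_univ_two, hc', mul_comm]

theorem Tr_Ts (hq : q.Prime) (hqN : ¬ q ∣ N) (ℓ : Nat.Primes) (hℓ : ¬ (ℓ : ℕ) ∣ q * N)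
    (f : Symb (q * N) A) : a.Tr A hq hqN (Ts (q * N) A ℓ f) = Ts N A ℓ (a.Tr A hq hqN f) := by
  classical
  have hℓN : ¬ (ℓ : ℕ) ∣ N := fun h => hℓ (h.mul_left q)
  have hℓq : ¬ (ℓ : ℕ) ∣ q := fun h => hℓ (h.mul_right N)
  have hqp : Prime (q : ℤ) := Nat.prime_iff_prime_int.mp hq
  have hdq : (dg q).det ≠ 0 := by rw [det_dg]; exact hqp.ne_zero
  apply Subtype.ext
  rw [Tr_coe, Ts_coe, Ts_coe, Tr_coe, opM_opM, opM_opM]
  symm
  refine opM_congr (N := q * N) (D := fun x : Option (Fin q) × HI N ℓ => a.trM x.1 * tM N ℓ x.2)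
    (E := fun x : HI (q * N) ℓ × Option (Fin q) => tM (q * N) ℓ x.1 * a.trM x.2) ?_ ?_ ?_ f.2
  · rintro γ' ⟨i, j⟩ ⟨i', j'⟩ h
    change mt γ' * (a.trM i * tM N ℓ j) = a.trM i' * tM N ℓ j' at h
    obtain ⟨γ'', hγ''⟩ := conj_dg γ'
    obtain ⟨β, hβ⟩ := exists_mt (a.isDelta_bM i) (a.det_bM i)
    obtain ⟨β', hβ'⟩ := exists_mt (a.isDelta_bM i') (a.det_bM i')
    rw [trM_eq, trM_eq, ← Matrix.mul_assoc, ← Matrix.mul_assoc, hγ'', Matrix.mul_assoc,
      Matrix.mul_assoc, Matrix.mul_assoc] at h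
    have h1 := mul_left_cancel_det hdq h
    rw [hβ, hβ'] at h1
    have h2 : mt (β'⁻¹ * (γ'' * β)) * tM N ℓ j = tM N ℓ j' := by
      rw [mt_mul, mt_mul, Matrix.mul_assoc, Matrix.mul_assoc, h1, ← Matrix.mul_assoc, mt_inv_mul,
        Matrix.one_mul]
    have hj := (repSys_tM N ℓ.2).uniq _ _ _ h2
    subst hj
    have h3 : mt γ'' * mt β = mt β' := by
      refine mul_right_cancel_det (Z := tM N ℓ j) ((repSys_tM N ℓ.2).det j) ?_
      rw [Matrix.mul_assoc]; exact h1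
    have h4 : mt γ' * a.trM i = a.trM i' := by
      rw [trM_eq, trM_eq, ← Matrix.mul_assoc, hγ'', Matrix.mul_assoc, hβ, hβ', h3]
    rw [a.trM_uniq hq γ' i i' h4]
  · rw [Fintype.card_prod, Fintype.card_prod, card_HI, card_HI, if_neg hℓ, if_neg hℓN, mul_comm]
  · rintro ⟨i, j⟩
    obtain ⟨X, i', hX, h⟩ := a.exists_trM hq hqN (B := a.bM i * tM N ℓ j)
      ((a.isDelta_bM i).mul (isDelta_HM ℓ.2 j))
      (by
        rw [Matrix.det_mul, det_bM, det_tM, one_mul]
        intro h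
        have h1 : q ∣ (ℓ : ℕ) := by exact_mod_cast h
        rw [(Nat.prime_dvd_prime_iff_eq hq ℓ.2).mp h1] at hℓq
        exact hℓq dvd_rfl)
    rw [← Matrix.mul_assoc, ← trM_eq] at h
    have hdet : X.det = (ℓ : ℕ) := by
      have h1 := congrArg Matrix.det h
      rw [Matrix.det_mul, Matrix.det_mul, det_trM, det_trM, det_tM, mul_comm] at h1
      exact (mul_right_cancel₀ hqp.ne_zero h1).symm
    obtain ⟨γ, j', hγ⟩ := exists_tM ℓ.2 hX hdet
    refine ⟨γ, (j', i'), ?_⟩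
    change a.trM i * tM N ℓ j = mt γ * (tM (q * N) ℓ j' * a.trM i')
    rw [h, hγ, Matrix.mul_assoc]

/-- The trace in terms of `U_q` and `w_q`. -/
theorem Tr_eq (hq : q.Prime) (hqN : ¬ q ∣ N) (f : Symb (q * N) A) :
    (a.Tr A hq hqN f).1 = (Ts (q * N) A ⟨q, hq⟩ f + a.W A hq.ne_zero f).1 := by
  classical
  funext u v
  change ∑ i : Option (Fin q), f (a.trM i *ᵥ u) (a.trM i *ᵥ v) =
    (∑ i : HI (q * N) q, f (HM q i.1 *ᵥ u) (HM q i.1 *ᵥ v)) + a.W A hq.ne_zero f u v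
  rw [sum_HI (q * N) q (fun i => f (HM q i *ᵥ u) (HM q i *ᵥ v)), if_pos (dvd_mul_right q N),
    add_zero, Fintype.sum_option, W_apply, add_comm]
  rfl

theorem w_eq : ∃ γ : Gamma0 N, a.w = mt γ * HM q none := by
  obtain ⟨X, hX⟩ : ∃ X : M2, X = !![a.x, a.y; N * a.z, q * a.t] := ⟨_, rfl⟩
  have hdet : X.det = 1 := by
    rw [hX, Matrix.det_fin_two_of]; linear_combination a.h
  obtain ⟨γ, hγ⟩ := exists_mt (N := N) (X := X) (isDelta_of_det (by rw [hX]; simp)
    (by rw [hdet]; exact isCoprime_one_left)) hdet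
  refine ⟨γ, ?_⟩
  rw [← hγ, hX]
  ext i j
  fin_cases i <;> fin_cases j <;> simp [w] <;> ring

/-- `Tr f = T_q f` for `f` of level `N`. -/
theorem Tr_resS (hq : q.Prime) (hqN : ¬ q ∣ N) (f : Symb N A) :
    a.Tr A hq hqN (resS (dvd_mul_left N q) f) = Ts N A ⟨q, hq⟩ f := by
  classical
  apply Subtype.ext
  funext u v
  change ∑ i : Option (Fin q), f (a.trM i *ᵥ u) (a.trM i *ᵥ v) =
    ∑ i : HI N q, f (HM q i.1 *ᵥ u) (HM q i.1 *ᵥ v)
  rw [sum_HI N q (fun i => f (HM q i *ᵥ u) (HM q i *ᵥ v)), if_neg hqN, Fintype.sum_option, add_comm]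
  congr 1
  obtain ⟨γ, hγ⟩ := a.w_eq
  rw [trM_none, hγ, f.2.left_inv]

theorem w_mul_HM (j : Fin q) : ∃ γ : Gamma0 N, a.w * HM q (some j) = (q : ℤ) • mt γ := by
  obtain ⟨X, hX⟩ : ∃ X : M2, X = !![a.x, a.x * ((j : ℕ) : ℤ) + a.y;
    N * a.z, N * a.z * ((j : ℕ) : ℤ) + q * a.t] := ⟨_, rfl⟩
  have hdet : X.det = 1 := by
    rw [hX, Matrix.det_fin_two_of]; linear_combination a.h
  obtain ⟨γ, hγ⟩ := exists_mt (N := N) (X := X) (isDelta_of_det (by rw [hX]; simp)
    (by rw [hdet]; exact isCoprime_one_left)) hdet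
  refine ⟨γ, ?_⟩
  rw [← hγ, hX]
  ext i j
  fin_cases i <;> fin_cases j <;> simp [w] <;> ring

/-- `Tr w f = (q + 1) f` for `f` of level `N`. -/
theorem Tr_W_resS (hq : q.Prime) (hqN : ¬ q ∣ N) (f : Symb N A) :
    a.Tr A hq hqN (a.W A hq.ne_zero (resS (dvd_mul_left N q) f)) = (q + 1) • f := by
  apply Subtype.ext
  funext u v
  have hq0 : (q : ℤ) ≠ 0 := by exact_mod_cast hq.ne_zero
  change ∑ i : Option (Fin q), a.W A hq.ne_zero (resS (dvd_mul_left N q) f) (a.trM i *ᵥ u)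
    (a.trM i *ᵥ v) = (q + 1) • f u v
  rw [Fintype.sum_option]
  have h1 : a.W A hq.ne_zero (resS (dvd_mul_left N q) f) (a.trM none *ᵥ u) (a.trM none *ᵥ v) =
      f u v := by
    obtain ⟨γ, hγ⟩ := a.w_sq
    rw [W_apply, trM_none, mulVec_mulVec, mulVec_mulVec, hγ, smul_mulVec, smul_mulVec]
    change f ((q : ℤ) • mt γ *ᵥ u) ((q : ℤ) • mt γ *ᵥ v) = f u v
    rw [f.2.smul_smul hq0]
    exact f.2.inv (incl (dvd_mul_left N q) γ) u v
  have h2 : ∀ j : Fin q, a.W A hq.ne_zero (resS (dvd_mul_left N q) f) (a.trM (some j) *ᵥ u)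
      (a.trM (some j) *ᵥ v) = f u v := by
    intro j
    obtain ⟨γ, hγ⟩ := a.w_mul_HM j
    rw [W_apply, trM_some, mulVec_mulVec, mulVec_mulVec, hγ, smul_mulVec, smul_mulVec]
    change f ((q : ℤ) • mt γ *ᵥ u) ((q : ℤ) • mt γ *ᵥ v) = f u v
    rw [f.2.smul_smul hq0, f.2.inv]
  rw [h1, Finset.sum_congr rfl fun j _ => h2 j]
  simp only [Finset.sum_const, Finset.card_univ, Fintype.card_fin]
  rw [add_smul, one_smul, add_comm]

end ALD

end Fermat.Agent.Ihara
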