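import Fermat.Agent.Ihara.Perfect
import Fermat.Agent.Top.Faithful

set_option autoImplicit false

/-!
# The polynomial Hecke algebra acting on modular symbols; the cokernel
-/

open CongruenceSubgroup
open scoped MatrixGroups

noncomputable section

namespace Fermat.Agent.Ihara

open Fermat.Agent.Top Matrix

variable {N q : ℕ}

/-- primes not dividing `M` -/
abbrev GP (M : ℕ) := {ℓ : Nat.Primes // ¬ (ℓ : ℕ) ∣ M}

/-- The polynomial Hecke algebra away from `M`. -/
abbrev RH (M : ℕ) := MvPolynomial (GP M) ℤ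

section action

variable (M L : ℕ) (A : Type*) [AddCommGroup A]

/-- Hecke operators as endomorphisms -/
def TE (ℓ : GP M) : Module.End ℤ (Symb L A) := (Ts L A ℓ.1).toIntLinearMap

@[simp] theorem TE_apply (ℓ : GP M) (f : Symb L A) : TE M L A ℓ f = Ts L A ℓ.1 f := rfl

theorem TE_comm (ℓ ℓ' : GP M) : TE M L A ℓ * TE M L A ℓ' = TE M L A ℓ' * TE M L A ℓ :=
  LinearMap.ext fun f => Ts_comm ℓ.1 ℓ'.1 f

/-- The action of the Hecke algebra. -/
def eS : RH M →ₐ[ℤ] Module.End ℤ (Symb L A) := evalEnd (TE M L A) (TE_comm M L A)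

theorem eS_X (ℓ : GP M) (f : Symb L A) : eS M L A (MvPolynomial.X ℓ) f = Ts L A ℓ.1 f := by
  rw [eS, evalEnd_X]; rfl

end action

variable {A : Type*} [AddCommGroup A]

theorem eS_Tr (a : ALD N q) (hq : q.Prime) (hqN : ¬ q ∣ N) (t : RH (q * N)) (f : Symb (q * N) A) :
    a.Tr A hq hqN (eS (q * N) (q * N) A t f) = eS (q * N) N A t (a.Tr A hq hqN f) :=
  evalEnd_natural _ _ (a.Tr A hq hqN) (fun ℓ f => a.Tr_Ts hq hqN ℓ.1 ℓ.2 f) t f

theorem eS_W (a : ALD N q) (hq : q ≠ 0) (t : RH (q * N)) (f : Symb (q * N) A) :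
    a.W A hq (eS (q * N) (q * N) A t f) = eS (q * N) (q * N) A t (a.W A hq f) :=
  evalEnd_natural _ _ (a.W A hq) (fun ℓ f => a.W_Ts hq ℓ.1 ℓ.2 f) t f

theorem eS_res (t : RH (q * N)) (f : Symb N A) :
    resS (dvd_mul_left N q) (eS (q * N) N A t f) =
      eS (q * N) (q * N) A t (resS (dvd_mul_left N q) f) :=
  evalEnd_natural _ _ (resS (dvd_mul_left N q)) (fun ℓ f => (Ts_resS _ ℓ.1 ℓ.2 f).symm) t f

/-! ### linear algebra -/

theorem exists_functional_of_module {V : Type*} [AddCommGroup V] (p : ℕ) [Fact p.Prime]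
    [Module (ZMod p) V] (x : V) (hx : x ≠ 0) : ∃ φ : V →+ ZMod p, φ x ≠ 0 := by
  obtain ⟨ψ, hψ⟩ : ∃ ψ : V →ₗ[ZMod p] ZMod p, ψ x ≠ 0 := by
    by_contra hcon
    push Not at hcon
    exact hx ((Module.forall_dual_apply_eq_zero_iff (ZMod p) _).mp hcon)
  exact ⟨ψ.toAddMonoidHom, hψ⟩

theorem exists_functional_of_torsion {V : Type*} [AddCommGroup V] (p : ℕ) [Fact p.Prime]
    (h : ∀ y : V, p • y = 0) (x : V) (hx : x ≠ 0) : ∃ φ : V →+ ZMod p, φ x ≠ 0 := by
  let i : Module (ZMod p) V := AddCommGroup.zmodModule h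
  exact exists_functional_of_module p x hx

theorem exists_functional {V : Type*} [AddCommGroup V] (p : ℕ) [Fact p.Prime] (S : AddSubgroup V)
    (hS : ∀ v, p • v ∈ S) (x : V) (hx : x ∉ S) :
    ∃ φ : V →+ ZMod p, (∀ s ∈ S, φ s = 0) ∧ φ x ≠ 0 := by
  have hQ : ∀ y : V ⧸ S, p • y = 0 := by
    intro y
    obtain ⟨v, rfl⟩ := QuotientAddGroup.mk_surjective y
    have h1 : p • (QuotientAddGroup.mk v : V ⧸ S) = QuotientAddGroup.mk (p • v) := rfl
    rw [h1, QuotientAddGroup.eq_zero_iff]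
    exact hS v
  have hne : (QuotientAddGroup.mk x : V ⧸ S) ≠ 0 := by
    rwa [Ne, QuotientAddGroup.eq_zero_iff]
  obtain ⟨ψ, hψ⟩ := exists_functional_of_torsion p hQ _ hne
  refine ⟨ψ.comp (QuotientAddGroup.mk' S), fun s hs => ?_, hψ⟩
  have : (QuotientAddGroup.mk s : V ⧸ S) = 0 := (QuotientAddGroup.eq_zero_iff s).mpr hs
  change ψ (QuotientAddGroup.mk s : V ⧸ S) = 0
  rw [this, map_zero]

theorem aeval_mapQ {M : Type*} [AddCommGroup M] (e : Module.End ℤ M) (J : Submodule ℤ M)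
    (hJ : J ≤ J.comap e) (P : Polynomial ℤ) (x : M) :
    (Polynomial.aeval (J.mapQ J e hJ) P) (J.mkQ x) = J.mkQ (Polynomial.aeval e P x) := by
  induction P using Polynomial.induction_on with
  | C a => simp
  | add P Q hP hQ => rw [map_add, map_add, LinearMap.add_apply, LinearMap.add_apply, map_add, hP, hQ]
  | monomial n a _ =>
    have key : ∀ m : ℕ, ((J.mapQ J e hJ) ^ m) (J.mkQ x) = J.mkQ ((e ^ m) x) := by
      intro m
      induction m with
      | zero => rfl
      | succ m ih => rw [pow_succ', pow_succ', Module.End.mul_apply, Module.End.mul_apply, ih]; rfl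
    rw [map_mul, map_mul, map_pow, map_pow, Polynomial.aeval_X, Polynomial.aeval_X,
      Polynomial.aeval_C, Polynomial.aeval_C, Module.End.mul_apply, Module.End.mul_apply, key,
      Module.algebraMap_end_apply, Module.algebraMap_end_apply, map_smul]

theorem exists_monic_kill {M : Type*} [AddCommGroup M] [Module.Finite ℤ M] (e : Module.End ℤ M)
    (J : Submodule ℤ M) (hJ : J ≤ J.comap e) (p : ℕ)
    (h : ∀ x, ∃ y ∈ J, ∃ z, e x = y + p • z) :
    ∃ (n : ℕ) (R : Polynomial ℤ), ∀ x,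
      (Polynomial.aeval e (Polynomial.X ^ n + Polynomial.C (p : ℤ) * R)) x ∈ J := by
  have hrange : LinearMap.range (J.mapQ J e hJ) ≤
      (Ideal.span {(p : ℤ)}) • (⊤ : Submodule ℤ (M ⧸ J)) := by
    rintro _ ⟨y, rfl⟩
    obtain ⟨x, rfl⟩ := Submodule.mkQ_surjective J y
    obtain ⟨y, hy, z, hz⟩ := h x
    have h1 : J.mapQ J e hJ (J.mkQ x) = (p : ℤ) • J.mkQ z := by
      rw [Submodule.mkQ_apply, Submodule.mapQ_apply, hz, ← map_smul, Submodule.mkQ_apply,
        Submodule.Quotient.eq, natCast_zsmul, add_sub_cancel_right]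
      exact hy
    rw [h1]
    exact Submodule.smul_mem_smul (Ideal.mem_span_singleton_self _) trivial
  obtain ⟨P, hP1, -, hP2, hP3⟩ :=
    LinearMap.exists_monic_and_natDegree_eq_and_coeff_mem_pow_and_aeval_eq_zero ℤ
      (J.mapQ J e hJ) _ hrange
  have hdvd : Polynomial.C (p : ℤ) ∣ P - Polynomial.X ^ P.natDegree := by
    rw [Polynomial.C_dvd_iff_dvd_coeff]
    intro i
    rw [Polynomial.coeff_sub, Polynomial.coeff_X_pow]
    rcases lt_trichotomy i P.natDegree with hi | hi | hi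
    · rw [if_neg hi.ne, sub_zero]
      have hi' : P.natDegree - i ≠ 0 := by omega
      have h4 : P.coeff i ∈ Ideal.span {(p : ℤ)} := Ideal.pow_le_self hi' (hP2 i)
      exact Ideal.mem_span_singleton.mp h4
    · rw [if_pos hi, hi, hP1.coeff_natDegree, sub_self]
      exact dvd_zero _
    · rw [if_neg hi.ne', Polynomial.coeff_eq_zero_of_natDegree_lt hi, sub_zero]
      exact dvd_zero _
  obtain ⟨R, hR⟩ := hdvd
  refine ⟨P.natDegree, R, fun x => ?_⟩
  rw [← hR, add_sub_cancel, ← Submodule.Quotient.mk_eq_zero, ← Submodule.mkQ_apply,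
    ← aeval_mapQ e J hJ, hP3, LinearMap.zero_apply]

end Fermat.Agent.Ihara
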