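import Mathlib

set_option autoImplicit false

/-!
# An arithmetic lemma based on Dirichlet's theorem
-/

namespace Fermat.Agent.Ihara

theorem exists_prime_aux {n ℓ : ℕ} (hn : n ≠ 0) (hℓ : ℓ.Prime) (hcop : Nat.Coprime ℓ n)
    (u : (ZMod n)ˣ) (B : ℕ) :
    ∃ r : ℕ, B < r ∧ r.Prime ∧ ((r : ℕ) : ZMod n) = u ∧ ((r : ℕ) : ZMod ℓ) = -1 := by
  have : NeZero n := ⟨hn⟩
  have : NeZero ℓ := ⟨hℓ.ne_zero⟩
  obtain ⟨m, hm1, hm2⟩ := Nat.chineseRemainder hcop (-1 : ZMod ℓ).val (u : ZMod n).val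
  have h1 : ((m : ℕ) : ZMod ℓ) = -1 := by
    rw [← ZMod.natCast_eq_natCast_iff, ZMod.natCast_zmod_val] at hm1
    exact hm1
  have h2 : ((m : ℕ) : ZMod n) = u := by
    rw [← ZMod.natCast_eq_natCast_iff, ZMod.natCast_zmod_val] at hm2
    exact hm2
  have hu : IsUnit ((m : ℕ) : ZMod (ℓ * n)) := by
    rw [ZMod.isUnit_iff_coprime]
    refine Nat.Coprime.mul_right ?_ ?_
    · rw [← ZMod.isUnit_iff_coprime, h1]
      exact isUnit_one.neg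
    · rw [← ZMod.isUnit_iff_coprime, h2]
      exact u.isUnit
  have : NeZero (ℓ * n) := ⟨mul_ne_zero hℓ.ne_zero hn⟩
  obtain ⟨r, hr1, hr2, hr3⟩ := Nat.forall_exists_prime_gt_and_eq_mod hu B
  rw [ZMod.natCast_eq_natCast_iff] at hr3
  refine ⟨r, hr1, hr2, ?_, ?_⟩
  · rw [← h2, ZMod.natCast_eq_natCast_iff]
    exact hr3.of_mul_left ℓ
  · rw [← h1, ZMod.natCast_eq_natCast_iff]
    exact hr3.of_mul_right n

theorem exists_aux {N q ℓ n : ℕ} (hN : N ≠ 0) (hq : q.Prime) (hqN : ¬ q ∣ N) (hℓ : ℓ.Prime)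
    (hℓ2 : ℓ ≠ 2) (hℓN : ¬ ℓ ∣ N) (hℓq : ℓ ≠ q) (hn : n ≠ 0) (hℓn : Nat.Coprime ℓ n)
    (hNn : Nat.Coprime N n) (x : (ZMod n)ˣ) :
    ∃ c K g : ℕ, N ∣ c ∧ ((ℓ * c : ℕ) : ZMod n) = x ∧ q ^ (2 * K) = 1 + ℓ * c * g ∧ ¬ ℓ ∣ g ∧
      Nat.Coprime (ℓ * c) n ∧ Nat.Coprime (ℓ * c) q := by
  have : Fact ℓ.Prime := ⟨hℓ⟩
  have hNpos : 0 < N := Nat.pos_of_ne_zero hN
  have hℓ3 : 3 ≤ ℓ := by
    have := hℓ.two_le
    omega
  have hφ : 0 < Nat.totient N := Nat.totient_pos.mpr hNpos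
  obtain ⟨K₁, hK₁⟩ : ∃ K₁, K₁ = Nat.totient N * (ℓ - 1) := ⟨_, rfl⟩
  have hK₁pos : 0 < K₁ := by rw [hK₁]; exact Nat.mul_pos hφ (by omega)
  obtain ⟨X, hX⟩ : ∃ X, X = q ^ (2 * K₁) := ⟨_, rfl⟩
  have hqN' : Nat.Coprime q N := (Nat.Prime.coprime_iff_not_dvd hq).mpr hqN
  have hqℓ : Nat.Coprime q ℓ := (Nat.coprime_primes hq hℓ).mpr (Ne.symm hℓq)
  have hXN : X ≡ 1 [MOD N] := by
    have h1 := Nat.ModEq.pow_totient hqN'
    have h2 : X = (q ^ Nat.totient N) ^ (2 * (ℓ - 1)) := by rw [hX, hK₁, ← pow_mul]; ring_nf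
    rw [h2]
    have := h1.pow (2 * (ℓ - 1))
    rwa [one_pow] at this
  have hXℓ : X ≡ 1 [MOD ℓ] := by
    have h1 := Nat.ModEq.pow_totient hqℓ
    rw [Nat.totient_prime hℓ] at h1
    have h2 : X = (q ^ (ℓ - 1)) ^ (2 * Nat.totient N) := by rw [hX, hK₁, ← pow_mul]; ring_nf
    rw [h2]
    have := h1.pow (2 * Nat.totient N)
    rwa [one_pow] at this
  have hX1 : 1 < X := by rw [hX]; exact Nat.one_lt_pow (by omega) hq.one_lt
  obtain ⟨s, Y, hYℓ, hXY⟩ := Nat.exists_eq_pow_mul_and_not_dvd (n := X - 1) (by omega) ℓ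
    hℓ.one_lt.ne'
  have hXY' : X = 1 + ℓ ^ s * Y := by omega
  have hs : s ≠ 0 := by
    rintro rfl
    rw [pow_zero, one_mul] at hXY
    apply hYℓ
    rw [← hXY]
    exact (Nat.modEq_iff_dvd' hX1.le).mp hXℓ.symm
  obtain ⟨t, rfl⟩ := Nat.exists_eq_succ_of_ne_zero hs
  -- the prime `r`
  have hℓpow : Nat.Coprime (ℓ ^ (t + 1) * N) n := (hℓn.pow_left _).mul_left hNn
  obtain ⟨r, hr1, hr2, hr3, hr4⟩ := exists_prime_aux hn hℓ hℓn
    ((ZMod.unitOfCoprime _ hℓpow)⁻¹ * x) (N + q + ℓ)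
  have hrN : Nat.Coprime r N := Nat.coprime_of_lt_prime hN (by omega) hr2
  have hrℓ : Nat.Coprime r ℓ := Nat.coprime_of_lt_prime hℓ.ne_zero (by omega) hr2
  have hrq : Nat.Coprime r q := Nat.coprime_of_lt_prime hq.ne_zero (by omega) hr2
  -- the geometric sum
  obtain ⟨G, hG⟩ : ∃ G, G = ∑ i ∈ Finset.range (r - 1), X ^ i := ⟨_, rfl⟩
  have hGX : X ^ (r - 1) = 1 + ℓ ^ (t + 1) * Y * G := by
    have h1 := Nat.geomSum_eq hX1 (r - 1)
    have h2 : (∑ i ∈ Finset.range (r - 1), X ^ i) * (X - 1) = X ^ (r - 1) - 1 := by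
      have h3 := mul_geom_sum (X : ℤ) (r - 1)
      have h4 : 1 ≤ X ^ (r - 1) := Nat.one_le_pow _ _ (by omega)
      zify [h4, hX1.le]
      linear_combination h3
    rw [← hG, hXY] at h2
    have h4 : 1 ≤ X ^ (r - 1) := Nat.one_le_pow _ _ (by omega)
    have h5 : G * (ℓ ^ (t + 1) * Y) = ℓ ^ (t + 1) * Y * G := by ring
    rw [h5] at h2
    omega
  have hGℓ : ¬ ℓ ∣ G := by
    intro h
    have h1 : ((G : ℕ) : ZMod ℓ) = 0 := (ZMod.natCast_eq_zero_iff _ _).mpr h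
    have hX' : ((X : ℕ) : ZMod ℓ) = 1 := by
      have := (ZMod.natCast_eq_natCast_iff _ _ _).mpr hXℓ
      simpa using this
    rw [hG] at h1
    push_cast at h1
    simp only [hX', one_pow, Finset.sum_const, Finset.card_range, nsmul_eq_mul, mul_one] at h1
    rw [Nat.cast_sub hr2.one_lt.le, hr4] at h1
    have h2 : ((2 : ℕ) : ZMod ℓ) = 0 := by
      push_cast at h1 ⊢
      linear_combination -h1
    rw [ZMod.natCast_eq_zero_iff] at h2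
    have := Nat.le_of_dvd (by norm_num) h2
    omega
  have hYGℓ : ¬ ℓ ∣ Y * G := fun h => by
    rcases (Nat.Prime.dvd_mul hℓ).mp h with h | h
    · exact hYℓ h
    · exact hGℓ h
  have hNY : N ∣ Y * G := by
    have h1 : N ∣ X - 1 := (Nat.modEq_iff_dvd' hX1.le).mp hXN.symm
    rw [hXY] at h1
    have h2 : Nat.Coprime N (ℓ ^ (t + 1)) :=
      (((Nat.Prime.coprime_iff_not_dvd hℓ).mpr hℓN).pow_left _).symm
    exact (h2.dvd_of_dvd_mul_left h1).mul_right _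
  have hrY : r ∣ Y * G := by
    have h1 : X ^ (r - 1) ≡ 1 [MOD r] := by
      have h2 := Nat.ModEq.pow_totient (n := r) (x := q) hrq.symm
      rw [Nat.totient_prime hr2] at h2
      have h3 := h2.pow (2 * K₁)
      rw [one_pow, ← pow_mul] at h3
      rw [hX, ← pow_mul]
      convert h3 using 2
      ring
    have h4 : 1 ≤ X ^ (r - 1) := Nat.one_le_pow _ _ (by omega)
    have h2 : r ∣ X ^ (r - 1) - 1 := (Nat.modEq_iff_dvd' h4).mp h1.symm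
    rw [hGX, Nat.add_sub_cancel_left, mul_assoc] at h2
    exact (hrℓ.pow_right _).dvd_of_dvd_mul_left h2
  obtain ⟨g, hg⟩ := hrN.mul_dvd_of_dvd_of_dvd hrY hNY
  refine ⟨ℓ ^ t * (N * r), K₁ * (r - 1), g, ?_, ?_, ?_, ?_, ?_, ?_⟩
  · exact Dvd.dvd.mul_left (dvd_mul_right _ _) _
  · have h1 : ((ℓ ^ (t + 1) * N : ℕ) : ZMod n) = ZMod.unitOfCoprime _ hℓpow := by simp
    have h2 : ((ℓ * (ℓ ^ t * (N * r)) : ℕ) : ZMod n) = ((ℓ ^ (t + 1) * N : ℕ) : ZMod n) *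
        ((r : ℕ) : ZMod n) := by
      rw [← Nat.cast_mul]
      congr 1
      ring
    rw [h2, h1, hr3, ← Units.val_mul, mul_inv_cancel_left]
  · have h1 : 2 * (K₁ * (r - 1)) = (2 * K₁) * (r - 1) := by ring
    rw [h1, pow_mul, ← hX, hGX, mul_assoc (ℓ ^ (t + 1)), hg]
    ring
  · intro h
    apply hYGℓ
    rw [hg]
    exact h.mul_left _
  · have h1 : IsUnit ((ℓ * (ℓ ^ t * (N * r)) : ℕ) : ZMod n) := by
      have h2 : ((ℓ ^ (t + 1) * N : ℕ) : ZMod n) = ZMod.unitOfCoprime _ hℓpow := by simp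
      have h3 : ((ℓ * (ℓ ^ t * (N * r)) : ℕ) : ZMod n) = ((ℓ ^ (t + 1) * N : ℕ) : ZMod n) *
          ((r : ℕ) : ZMod n) := by
        rw [← Nat.cast_mul]
        congr 1
        ring
      rw [h3, h2, hr3, ← Units.val_mul]
      exact Units.isUnit _
    exact (ZMod.isUnit_iff_coprime _ _).mp h1
  · have h1 : ℓ * (ℓ ^ t * (N * r)) = ℓ ^ (t + 1) * (N * r) := by ring
    rw [h1]
    exact (hqℓ.symm.pow_left _).mul_left (hqN'.symm.mul_left hrq)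

end Fermat.Agent.Ihara
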