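import Fermat.Agent.Top.HomLattice

set_option autoImplicit false

/-!
# Homomorphisms from `Γ₀(N)` killing the elementary matrices, as functions of the bottom row
-/

open CongruenceSubgroup
open scoped MatrixGroups

namespace Fermat.Agent.Ihara

/-- An element of `Γ₀(N)` with given entries. -/
def mkG {N : ℕ} (x z c d : ℤ) (hdet : x * d - z * c = 1) (hc : (N : ℤ) ∣ c) : Gamma0 N :=
  ⟨(⟨!![x, z; c, d], by rw [Matrix.det_fin_two_of]; exact hdet⟩ : SL(2, ℤ)),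
    Gamma0_mem.mpr ((ZMod.intCast_zmod_eq_zero_iff_dvd _ _).mpr hc)⟩

/-- The entries of an element of `Γ₀(N)`. -/
def en {N : ℕ} (γ : Gamma0 N) (i j : Fin 2) : ℤ := ((γ : SL(2, ℤ)) : Matrix (Fin 2) (Fin 2) ℤ) i j

section entries

variable {N : ℕ} (x z c d : ℤ) (hdet : x * d - z * c = 1) (hc : (N : ℤ) ∣ c)

@[simp] theorem en_mkG_00 : en (mkG x z c d hdet hc) 0 0 = x := rfl
@[simp] theorem en_mkG_01 : en (mkG x z c d hdet hc) 0 1 = z := rfl
@[simp] theorem en_mkG_10 : en (mkG x z c d hdet hc) 1 0 = c := rfl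
@[simp] theorem en_mkG_11 : en (mkG x z c d hdet hc) 1 1 = d := rfl

end entries

variable {N : ℕ}

theorem ext_en {γ γ' : Gamma0 N} (h00 : en γ 0 0 = en γ' 0 0) (h01 : en γ 0 1 = en γ' 0 1)
    (h10 : en γ 1 0 = en γ' 1 0) (h11 : en γ 1 1 = en γ' 1 1) : γ = γ' := by
  apply Subtype.ext
  apply Subtype.ext
  ext i j
  fin_cases i <;> fin_cases j
  · exact h00
  · exact h01
  · exact h10
  · exact h11

theorem en_mul (γ γ' : Gamma0 N) (i j : Fin 2) :
    en (γ * γ') i j = en γ i 0 * en γ' 0 j + en γ i 1 * en γ' 1 j := by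
  simp [en, Matrix.mul_apply, Fin.sum_univ_two]

theorem en_one_00 : en (1 : Gamma0 N) 0 0 = 1 := rfl
theorem en_one_01 : en (1 : Gamma0 N) 0 1 = 0 := rfl
theorem en_one_10 : en (1 : Gamma0 N) 1 0 = 0 := rfl
theorem en_one_11 : en (1 : Gamma0 N) 1 1 = 1 := rfl

theorem en_inv (γ : Gamma0 N) : en γ⁻¹ 0 0 = en γ 1 1 ∧ en γ⁻¹ 0 1 = -en γ 0 1 ∧
    en γ⁻¹ 1 0 = -en γ 1 0 ∧ en γ⁻¹ 1 1 = en γ 0 0 := by
  have : ((γ⁻¹ : Gamma0 N) : SL(2, ℤ)) = (γ : SL(2, ℤ))⁻¹ := rfl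
  simp only [en, this, Matrix.SpecialLinearGroup.SL2_inv_expl]
  simp

theorem en_det (γ : Gamma0 N) : en γ 0 0 * en γ 1 1 - en γ 0 1 * en γ 1 0 = 1 := by
  have := (γ : SL(2, ℤ)).det_coe
  rwa [Matrix.det_fin_two] at this

theorem dvd_en (γ : Gamma0 N) : (N : ℤ) ∣ en γ 1 0 :=
  (ZMod.intCast_zmod_eq_zero_iff_dvd _ _).mp (Gamma0_mem.mp γ.2)

/-- The translation `(1 t; 0 1)`. -/
def tr (N : ℕ) (t : ℤ) : Gamma0 N := mkG 1 t 0 1 (by ring) (dvd_zero _)

/-- The lower triangular matrix `(1 0; N t 1)`. -/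
def lo (N : ℕ) (t : ℤ) : Gamma0 N := mkG 1 0 (N * t) 1 (by ring) (dvd_mul_right _ _)

theorem tr_zero : tr N 0 = 1 := ext_en rfl rfl rfl rfl

theorem lo_zero : lo N 0 = 1 := ext_en rfl rfl (by simp [lo, en_one_10]) rfl

theorem tr_add (s t : ℤ) : tr N (s + t) = tr N s * tr N t := by
  apply ext_en <;> simp [tr, en_mul, add_comm]

theorem lo_add (s t : ℤ) : lo N (s + t) = lo N s * lo N t := by
  apply ext_en <;> simp [lo, en_mul] ; ring

section Hom

variable {A : Type*} [AddCommGroup A] (a : Additive (Gamma0 N) →+ A)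

/-- Evaluation. -/
def ev (γ : Gamma0 N) : A := a (Additive.ofMul γ)

theorem ev_mul (γ γ' : Gamma0 N) : ev a (γ * γ') = ev a γ + ev a γ' := a.map_add _ _

theorem ev_one : ev a 1 = 0 := a.map_zero

theorem ev_inv (γ : Gamma0 N) : ev a γ⁻¹ = -ev a γ := a.map_neg _

theorem ev_conj (γ δ : Gamma0 N) : ev a (δ * γ * δ⁻¹) = ev a γ := by
  rw [ev_mul, ev_mul, ev_inv]; abel

theorem ev_tr (t : ℤ) : ev a (tr N t) = t • ev a (tr N 1) := by
  have h : ∀ s t : ℤ, ev a (tr N (s + t)) = ev a (tr N s) + ev a (tr N t) := fun s t => by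
    rw [tr_add, ev_mul]
  let f : ℤ →+ A := { toFun := fun t => ev a (tr N t), map_zero' := by rw [tr_zero, ev_one], map_add' := h }
  have := map_zsmul f t 1
  rw [smul_eq_mul, mul_one] at this
  exact this

theorem ev_lo (t : ℤ) : ev a (lo N t) = t • ev a (lo N 1) := by
  have h : ∀ s t : ℤ, ev a (lo N (s + t)) = ev a (lo N s) + ev a (lo N t) := fun s t => by
    rw [lo_add, ev_mul]
  let f : ℤ →+ A := { toFun := fun t => ev a (lo N t), map_zero' := by rw [lo_zero, ev_one], map_add' := h }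
  have := map_zsmul f t 1
  rw [smul_eq_mul, mul_one] at this
  exact this

/-- A homomorphism killing the elementary matrices. -/
structure Unip : Prop where
  tr1 : ev a (tr N 1) = 0
  lo1 : ev a (lo N 1) = 0

variable {a}

theorem Unip.ev_tr (h : Unip a) (t : ℤ) : ev a (tr N t) = 0 := by
  rw [Ihara.ev_tr, h.tr1, smul_zero]

theorem Unip.ev_lo (h : Unip a) (t : ℤ) : ev a (lo N t) = 0 := by
  rw [Ihara.ev_lo, h.lo1, smul_zero]

/-- The value only depends on the bottom row. -/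
theorem Unip.ev_eq (h : Unip a) {γ γ' : Gamma0 N} (h10 : en γ 1 0 = en γ' 1 0)
    (h11 : en γ 1 1 = en γ' 1 1) : ev a γ = ev a γ' := by
  have hd := en_det γ
  have hd' := en_det γ'
  obtain ⟨t, ht⟩ : ∃ t : ℤ, t = en γ 0 1 * en γ' 0 0 - en γ 0 0 * en γ' 0 1 := ⟨_, rfl⟩
  have : γ = tr N t * γ' := by
    apply ext_en
    · simp only [en_mul, tr, en_mkG_00, en_mkG_01, ht]
      rw [h10, h11] at hd
      linear_combination (en γ 0 0) * (-hd') + (en γ' 0 0) * hd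
    · simp only [en_mul, tr, en_mkG_00, en_mkG_01, ht]
      rw [h10, h11] at hd
      linear_combination (en γ 0 1) * (-hd') + (en γ' 0 1) * hd
    · simp only [en_mul, tr, en_mkG_10, en_mkG_11]; rw [h10]; ring
    · simp only [en_mul, tr, en_mkG_10, en_mkG_11]; rw [h11]; ring
  rw [this, ev_mul, h.ev_tr, zero_add]

variable (a) in
open Classical in
/-- The value of `a` on any matrix with bottom row `(c, d)`. -/
noncomputable def phi (c d : ℤ) : A :=
  if h : ∃ γ : Gamma0 N, en γ 1 0 = c ∧ en γ 1 1 = d then ev a h.choose else 0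

theorem Unip.phi_eq (h : Unip a) {c d : ℤ} (γ : Gamma0 N) (h10 : en γ 1 0 = c)
    (h11 : en γ 1 1 = d) : phi a c d = ev a γ := by
  have hex : ∃ γ : Gamma0 N, en γ 1 0 = c ∧ en γ 1 1 = d := ⟨γ, h10, h11⟩
  rw [phi, dif_pos hex]
  exact h.ev_eq (hex.choose_spec.1.trans h10.symm) (hex.choose_spec.2.trans h11.symm)

theorem exists_row {c d : ℤ} (hc : (N : ℤ) ∣ c) (hcd : IsCoprime c d) :
    ∃ γ : Gamma0 N, en γ 1 0 = c ∧ en γ 1 1 = d := by
  obtain ⟨u, v, huv⟩ := hcd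
  exact ⟨mkG v (-u) c d (by linear_combination huv) hc, rfl, rfl⟩

/-- Invariance `d ↦ d + t c`. -/
theorem Unip.phi_add_mul (h : Unip a) {c d : ℤ} (hc : (N : ℤ) ∣ c) (hcd : IsCoprime c d) (t : ℤ) :
    phi a c (d + t * c) = phi a c d := by
  obtain ⟨γ, h1, h2⟩ := exists_row hc hcd
  rw [h.phi_eq γ h1 h2, h.phi_eq (γ * tr N t), ev_mul, h.ev_tr, add_zero]
  · simp [en_mul, tr, h1]
  · simp [en_mul, tr, h1, h2]; ring

/-- Invariance `c ↦ c + N s d`. -/
theorem Unip.phi_mul_add (h : Unip a) {c d : ℤ} (hc : (N : ℤ) ∣ c) (hcd : IsCoprime c d) (s : ℤ) :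
    phi a (c + N * s * d) d = phi a c d := by
  obtain ⟨γ, h1, h2⟩ := exists_row hc hcd
  rw [h.phi_eq γ h1 h2, h.phi_eq (γ * lo N s), ev_mul, h.ev_lo, add_zero]
  · simp [en_mul, lo, h1, h2]; ring
  · simp [en_mul, lo, h2]

/-- Invariance of `c` modulo `d`. -/
theorem Unip.phi_congr_left (h : Unip a) {c c' d : ℤ} (hc : (N : ℤ) ∣ c) (hc' : (N : ℤ) ∣ c')
    (hcd : IsCoprime c d) (hcc' : d ∣ c' - c) : phi a c' d = phi a c d := by
  have hNd : IsCoprime (N : ℤ) d := hcd.of_isCoprime_of_dvd_left hc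
  obtain ⟨s, hs⟩ := hNd.mul_dvd (dvd_sub hc' hc) hcc'
  have : c' = c + N * s * d := by linear_combination hs
  rw [this, h.phi_mul_add hc hcd]

/-- Invariance of `d` modulo `c`. -/
theorem Unip.phi_congr_right (h : Unip a) {c d d' : ℤ} (hc : (N : ℤ) ∣ c)
    (hcd : IsCoprime c d) (hdd' : c ∣ d' - d) : phi a c d' = phi a c d := by
  obtain ⟨t, ht⟩ := hdd'
  have : d' = d + t * c := by linear_combination ht
  rw [this, h.phi_add_mul hc hcd]

end Hom

end Fermat.Agent.Ihara
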