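import Fermat.Agent.Ihara.AL

set_option autoImplicit false

/-!
# Cusps: the kernel and the image of `toHom`
-/

open CongruenceSubgroup
open scoped MatrixGroups

namespace Fermat.Agent.Ihara

open Fermat.Agent.Top Matrix

variable {N : ℕ} {A : Type*} [AddCommGroup A]

theorem V2_ext {u v : V2} (h0 : u 0 = v 0) (h1 : u 1 = v 1) : u = v := by
  funext i
  fin_cases i
  · exact h0
  · exact h1

theorem mulVec_0 (X : M2) (u : V2) : (X *ᵥ u) 0 = X 0 0 * u 0 + X 0 1 * u 1 := by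
  simp [Matrix.mulVec, dotProduct, Fin.sum_univ_two]

theorem mulVec_1 (X : M2) (u : V2) : (X *ᵥ u) 1 = X 1 0 * u 0 + X 1 1 * u 1 := by
  simp [Matrix.mulVec, dotProduct, Fin.sum_univ_two]

/-- Primitive vectors. -/
def Prim (u : V2) : Prop := IsCoprime (u 0) (u 1)

theorem Prim.ne {u : V2} (h : Prim u) : u ≠ 0 := by
  rintro rfl
  have h1 : IsCoprime (0 : ℤ) 0 := h
  exact not_isCoprime_zero_zero h1

theorem Prim.mulVec {u : V2} (h : Prim u) {X : M2} (hX : X.det = 1) : Prim (X *ᵥ u) := by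
  obtain ⟨a, b, hab⟩ := h
  rw [Matrix.det_fin_two] at hX
  refine ⟨a * X 1 1 - b * X 1 0, -a * X 0 1 + b * X 0 0, ?_⟩
  rw [mulVec_0, mulVec_1]
  linear_combination hab + (a * u 0 + b * u 1) * hX

theorem exists_prim (u : V2) (hu : u ≠ 0) : ∃ (g : ℕ) (v : V2), g ≠ 0 ∧ Prim v ∧
    u = (g : ℤ) • v ∧ g = Int.gcd (u 0) (u 1) := by
  have hg : Int.gcd (u 0) (u 1) ≠ 0 := by
    intro h
    obtain ⟨h0, h1⟩ := Int.gcd_eq_zero_iff.mp h
    exact hu (V2_ext h0 h1)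
  obtain ⟨a, ha⟩ := Int.gcd_dvd_left (u 0) (u 1)
  obtain ⟨b, hb⟩ := Int.gcd_dvd_right (u 0) (u 1)
  refine ⟨Int.gcd (u 0) (u 1), ![a, b], hg, ?_, ?_, rfl⟩
  · change IsCoprime a b
    rw [Int.isCoprime_iff_gcd_eq_one]
    have h := Int.gcd_mul_left (Int.gcd (u 0) (u 1) : ℤ) a b
    rw [← ha, ← hb, Int.natAbs_natCast] at h
    exact Nat.eq_of_mul_eq_mul_left (Nat.pos_of_ne_zero hg) (by rw [← h, mul_one])
  · apply V2_ext
    · simpa using ha
    · simpa using hb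

/-- Primitive vectors are in the orbit of `e₁`. -/
theorem Prim.exists_SL {u : V2} (h : Prim u) : ∃ σ : M2, σ.det = 1 ∧ σ *ᵥ e1 = u := by
  obtain ⟨a, b, hab⟩ := h
  refine ⟨!![u 0, -b; u 1, a], ?_, ?_⟩
  · rw [Matrix.det_fin_two_of]
    linear_combination hab
  · apply V2_ext
    · rw [mulVec_0]; simp [e1]
    · rw [mulVec_1]; simp [e1]

/-- Primitive vectors congruent modulo `N` are equivalent under `Γ₀(N)`. -/
theorem exists_gamma {u v : V2} (hu : Prim u) (hv : Prim v) (h0 : (N : ℤ) ∣ v 0 - u 0)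
    (h1 : (N : ℤ) ∣ v 1 - u 1) : ∃ γ : Gamma0 N, mt γ *ᵥ u = v := by
  obtain ⟨σ, hσ, rfl⟩ := hu.exists_SL
  have hσ' : σ * σ.adjugate = 1 := by rw [Matrix.mul_adjugate, hσ, one_smul]
  have hσ'' : σ.adjugate * σ = 1 := by rw [Matrix.adjugate_mul, hσ, one_smul]
  have hadj : σ.adjugate.det = 1 := by
    have := congrArg Matrix.det hσ'
    rw [Matrix.det_mul, hσ, one_mul, Matrix.det_one] at this
    exact this
  obtain ⟨y, hy⟩ : ∃ y : V2, y = σ.adjugate *ᵥ v := ⟨_, rfl⟩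
  have hvy : v = σ *ᵥ y := by rw [hy, mulVec_mulVec, hσ', one_mulVec]
  have hyp : Prim y := by rw [hy]; exact hv.mulVec hadj
  have hsub : y - e1 = σ.adjugate *ᵥ (v - σ *ᵥ e1) := by
    rw [mulVec_sub, mulVec_mulVec, hσ'', one_mulVec, hy]
  have hd0 : (N : ℤ) ∣ y 0 - 1 := by
    have h2 := congrFun hsub 0
    rw [mulVec_0] at h2
    have h3 : (y - e1) 0 = y 0 - 1 := by simp [e1]
    rw [h3] at h2
    rw [h2]
    exact dvd_add (h0.mul_left _) (h1.mul_left _)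
  have hd1 : (N : ℤ) ∣ y 1 := by
    have h2 := congrFun hsub 1
    rw [mulVec_1] at h2
    have h3 : (y - e1) 1 = y 1 := by simp [e1]
    rw [h3] at h2
    rw [h2]
    exact dvd_add (h0.mul_left _) (h1.mul_left _)
  obtain ⟨a1, ha1⟩ := hd0
  obtain ⟨c1, hc1⟩ := hd1
  obtain ⟨d0, b0', hdb⟩ := hyp
  obtain ⟨b0, rfl⟩ : ∃ b0, b0' = -b0 := ⟨-b0', by ring⟩
  have ha : y 0 = 1 + N * a1 := by linear_combination ha1
  obtain ⟨X, hX⟩ : ∃ X : M2, X = !![a1, -(a1 * b0); c1, -(a1 * d0)] := ⟨_, rfl⟩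
  obtain ⟨Y, hY⟩ : ∃ Y : M2, Y = 1 + (N : ℤ) • X := ⟨_, rfl⟩
  have hYdet : Y.det = 1 := by
    rw [hY, hX, Matrix.det_fin_two]
    simp
    rw [ha, hc1] at hdb
    linear_combination (-(N : ℤ) * a1) * hdb
  have hYe : Y *ᵥ e1 = y := by
    rw [hY, hX]
    apply V2_ext
    · rw [mulVec_0, ha]; simp [e1]
    · rw [mulVec_1, hc1]; simp [e1]
  obtain ⟨Z, hZ⟩ : ∃ Z : M2, Z = σ * Y * σ.adjugate := ⟨_, rfl⟩
  have hZdet : Z.det = 1 := by rw [hZ, Matrix.det_mul, Matrix.det_mul, hσ, hYdet, hadj]; norm_num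
  have hZ1 : Z = 1 + (N : ℤ) • (σ * X * σ.adjugate) := by
    rw [hZ, hY, Matrix.mul_add, Matrix.add_mul, Matrix.mul_one, hσ', Matrix.mul_smul,
      Matrix.smul_mul]
  have hZ10 : (N : ℤ) ∣ Z 1 0 := by
    rw [hZ1, Matrix.add_apply, Matrix.smul_apply, Matrix.one_apply_ne (by decide), zero_add,
      smul_eq_mul]
    exact dvd_mul_right _ _
  obtain ⟨γ, hγ⟩ := exists_mt (isDelta_of_det hZ10 (by rw [hZdet]; exact isCoprime_one_left)) hZdet
  refine ⟨γ, ?_⟩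
  rw [← hγ, hZ, mulVec_mulVec, Matrix.mul_assoc, hσ'', Matrix.mul_one, ← mulVec_mulVec, hYe, hvy]

theorem exists_HM_cong {ℓ : ℕ} (h1 : (N : ℤ) ∣ (ℓ : ℤ) - 1) (i : HI N ℓ) :
    ∃ γ : Gamma0 N, ∀ a b : Fin 2, (N : ℤ) ∣ HM ℓ i.1 a b - mt γ a b := by
  obtain ⟨i, hi⟩ := i
  cases i with
  | none =>
    refine ⟨1, fun a b => ?_⟩
    rw [mt_one]
    fin_cases a <;> fin_cases b <;> simp [h1]
  | some j =>
    refine ⟨tr N ((j : ℕ) : ℤ), fun a b => ?_⟩
    rw [mt_apply]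
    fin_cases a <;> fin_cases b <;> simp [tr, h1]

/-- The kernel of `toHom` is Eisenstein. -/
theorem Ts_eq_of_toHom_eq_zero (f : Symb N A) (hf : toHom f = 0) (ℓ : Nat.Primes)
    (hℓN : ¬ (ℓ : ℕ) ∣ N) (h1 : (ℓ : ℕ) ≡ 1 [MOD N]) : Ts N A ℓ f = ((ℓ : ℕ) + 1) • f := by
  classical
  have hℓ1 : (N : ℤ) ∣ ((ℓ : ℕ) : ℤ) - 1 := by
    have := (Nat.modEq_iff_dvd.mp h1.symm)
    exact_mod_cast this
  have hev : ∀ γ : Gamma0 N, f e1 (mt γ *ᵥ e1) = 0 := fun γ => by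
    rw [← ev_toHom', hf]; rfl
  have hinv : ∀ (γ : Gamma0 N) (x : V2), x ≠ 0 → f e1 (mt γ *ᵥ x) = f e1 x := by
    intro γ x hx
    rw [← f.2.add e1 (mt γ *ᵥ e1) (mt γ *ᵥ x) e1_ne (mt_mulVec_ne_zero γ e1_ne)
      (mt_mulVec_ne_zero γ hx), hev, f.2.inv, zero_add]
  -- invariance under the matrices `HM`, primitive case
  have key : ∀ (x : V2), Prim x → ∀ i : HI N ℓ, f e1 (HM ℓ i.1 *ᵥ x) = f e1 x := by
    intro x hx i
    have hne : HM ℓ i.1 *ᵥ x ≠ 0 :=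
      mulVec_ne_zero_of_det (by rw [det_HM]; exact_mod_cast ℓ.2.ne_zero) hx.ne
    obtain ⟨g, y, hg0, hy, hgy, hg⟩ := exists_prim _ hne
    obtain ⟨γ, hγ⟩ := exists_HM_cong hℓ1 i
    -- `g ∣ ℓ`
    have hgℓ : g ∣ (ℓ : ℕ) := by
      obtain ⟨a, b, hab⟩ := id hx
      have h2 : (HM ℓ i.1).adjugate *ᵥ (HM ℓ i.1 *ᵥ x) = ((ℓ : ℕ) : ℤ) • x := by
        rw [mulVec_mulVec, Matrix.adjugate_mul, det_HM, smul_mulVec, one_mulVec]
      rw [hgy, mulVec_smul] at h2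
      have h3 := congrFun h2 0
      have h4 := congrFun h2 1
      simp only [Pi.smul_apply, smul_eq_mul] at h3 h4
      have h5 : (g : ℤ) ∣ ((ℓ : ℕ) : ℤ) := by
        refine ⟨a * ((HM ℓ i.1).adjugate *ᵥ y) 0 + b * ((HM ℓ i.1).adjugate *ᵥ y) 1, ?_⟩
        linear_combination (-((ℓ : ℕ) : ℤ)) * hab - a * h3 - b * h4
      exact_mod_cast h5
    have hg1 : (N : ℤ) ∣ (g : ℤ) - 1 := by
      rcases (Nat.dvd_prime ℓ.2).mp hgℓ with h | h
      · rw [h]; simp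
      · rw [h]; exact hℓ1
    have hx' : Prim (mt γ *ᵥ x) := hx.mulVec (det_mt γ)
    have hcong : ∀ a : Fin 2, (N : ℤ) ∣ y a - (mt γ *ᵥ x) a := by
      intro a
      have e0 : (HM ℓ i.1 *ᵥ x) a = g * y a := by
        rw [hgy]; simp
      have e1' : (N : ℤ) ∣ (HM ℓ i.1 *ᵥ x) a - (mt γ *ᵥ x) a := by
        have : (HM ℓ i.1 *ᵥ x) a - (mt γ *ᵥ x) a = (HM ℓ i.1 a 0 - mt γ a 0) * x 0 +
            (HM ℓ i.1 a 1 - mt γ a 1) * x 1 := by
          simp only [Matrix.mulVec, dotProduct, Fin.sum_univ_two]; ring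
        rw [this]
        exact dvd_add ((hγ a 0).mul_right _) ((hγ a 1).mul_right _)
      rw [e0] at e1'
      have : y a - (mt γ *ᵥ x) a = (g * y a - (mt γ *ᵥ x) a) - ((g : ℤ) - 1) * y a := by ring
      rw [this]
      exact dvd_sub e1' (hg1.mul_right _)
    obtain ⟨γ', hγ'⟩ := exists_gamma hx' hy (hcong 0) (hcong 1)
    rw [hgy, f.2.smul_right _ _ _ (by exact_mod_cast hg0), ← hγ', hinv γ' _ hx'.ne, hinv γ _ hx.ne]
  have key' : ∀ (x : V2), x ≠ 0 → ∀ i : HI N ℓ, f e1 (HM ℓ i.1 *ᵥ x) = f e1 x := by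
    intro x hx i
    obtain ⟨g, y, hg0, hy, hgy, -⟩ := exists_prim x hx
    have hg0' : (g : ℤ) ≠ 0 := by exact_mod_cast hg0
    rw [hgy, mulVec_smul, f.2.smul_right _ _ _ hg0', f.2.smul_right _ _ _ hg0', key y hy i]
  apply Subtype.ext
  funext u v
  change Ts N A ℓ f u v = ((ℓ : ℕ) + 1) • f u v
  by_cases hu : u = 0
  · subst hu
    rw [(Ts N A ℓ f).2.zero_left, f.2.zero_left, smul_zero]
  by_cases hv : v = 0
  · subst hv
    rw [(Ts N A ℓ f).2.zero_right, f.2.zero_right, smul_zero]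
  rw [Ts_apply]
  have hterm : ∀ i : HI N ℓ, f (HM ℓ i.1 *ᵥ u) (HM ℓ i.1 *ᵥ v) = f u v := by
    intro i
    have hne : ∀ x : V2, x ≠ 0 → HM ℓ i.1 *ᵥ x ≠ 0 := fun x hx =>
      mulVec_ne_zero_of_det (by rw [det_HM]; exact_mod_cast ℓ.2.ne_zero) hx
    rw [← f.2.sub_eq e1_ne (hne u hu) (hne v hv), key' u hu, key' v hv, f.2.sub_eq e1_ne hu hv]
  rw [Finset.sum_congr rfl fun i _ => hterm i, Finset.sum_const, Finset.card_univ, card_HI,
    if_neg hℓN]

/-! ### lifting parabolic homomorphisms -/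

theorem sq_trace_eq_four {X : M2} (hX : X.det = 1) {u : V2} (hu : u ≠ 0) {m n : ℤ} (hm : m ≠ 0)
    (h : m • (X *ᵥ u) = n • u) : X.trace ^ 2 = 4 := by
  have h0 := congrFun h 0
  have h1 := congrFun h 1
  simp only [Pi.smul_apply, smul_eq_mul, mulVec_0, mulVec_1] at h0 h1
  rw [Matrix.det_fin_two] at hX
  -- determinant of `m X - n`
  have hdet : m ^ 2 - m * n * X.trace + n ^ 2 = 0 := by
    rw [Matrix.trace_fin_two]
    have key : ∀ i : Fin 2, (m ^ 2 - m * n * (X 0 0 + X 1 1) + n ^ 2) * u i = 0 := by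
      intro i
      fin_cases i
      · simp only [Fin.zero_eta]
        linear_combination (-(m ^ 2) * u 0) * hX + (m * X 1 1 - n) * h0 - (m * X 0 1) * h1
      · simp only [Fin.mk_one]
        linear_combination (-(m ^ 2) * u 1) * hX + (m * X 0 0 - n) * h1 - (m * X 1 0) * h0
    by_contra hne
    apply hu
    exact V2_ext ((mul_eq_zero.mp (key 0)).resolve_left hne)
      ((mul_eq_zero.mp (key 1)).resolve_left hne)
  set t := X.trace with ht
  have hsq : (2 * n - m * t) ^ 2 = m ^ 2 * (t ^ 2 - 4) := by linear_combination (4 : ℤ) * hdet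
  have hdvd : m ∣ 2 * n - m * t := by
    rw [← Int.pow_dvd_pow_iff two_ne_zero]
    exact ⟨_, hsq⟩
  obtain ⟨s, hs⟩ := hdvd
  have hs2 : s ^ 2 = t ^ 2 - 4 := by
    have h2 : m ^ 2 * (s ^ 2 - (t ^ 2 - 4)) = 0 := by
      rw [hs] at hsq
      linear_combination hsq
    have h3 := (mul_eq_zero.mp h2).resolve_left (pow_ne_zero 2 hm)
    linear_combination h3
  -- `s² + 4 = t²`
  have hlt : |s| < |t| := by
    rw [← sq_lt_sq]; linarith
  have ha : 0 ≤ |s| := abs_nonneg s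
  have hb : |s| + 1 ≤ |t| := hlt
  have h4 : |s| ^ 2 + 4 = |t| ^ 2 := by rw [sq_abs, sq_abs]; linarith
  have h5 : |s| ≤ 1 := by nlinarith
  have h6 : |s| = 0 ∨ |s| = 1 := by omega
  rcases h6 with h6 | h6
  · rw [h6] at h4
    rw [← sq_abs]
    linarith
  · rw [h6] at h4 hb
    have h7 : |t| ≤ 2 := by nlinarith
    have h8 : |t| = 2 := by omega
    rw [h8] at h4
    norm_num at h4

/-- Relation between a vector and a base vector. -/
def Conn (γ : Gamma0 N) (r x : V2) : Prop := ∃ m n : ℤ, m ≠ 0 ∧ n ≠ 0 ∧ m • (mt γ *ᵥ r) = n • x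

theorem Conn.trans_inv {γ γ' : Gamma0 N} {r x : V2} (h : Conn γ r x) (h' : Conn γ' r x) :
    Conn (γ⁻¹ * γ') r r := by
  obtain ⟨m, n, hm, hn, h⟩ := h
  obtain ⟨m', n', hm', hn', h'⟩ := h'
  refine ⟨n * m', n' * m, mul_ne_zero hn hm', mul_ne_zero hn' hm, ?_⟩
  have h1 := congrArg (mt γ⁻¹ *ᵥ ·) h
  have h2 := congrArg (mt γ⁻¹ *ᵥ ·) h'
  simp only [mulVec_smul, mulVec_mulVec, mt_inv_mul, one_mulVec] at h1 h2
  rw [mt_mul, mul_smul, h2, smul_comm, ← h1, smul_smul]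

/-- The equivalence relation on nonzero vectors. -/
def connSetoid (N : ℕ) : Setoid {u : V2 // u ≠ 0} where
  r u v := ∃ γ : Gamma0 N, Conn γ u.1 v.1
  iseqv := {
    refl := fun u => ⟨1, 1, 1, one_ne_zero, one_ne_zero, by rw [mt_one, one_mulVec]⟩
    symm := by
      rintro u v ⟨γ, m, n, hm, hn, h⟩
      refine ⟨γ⁻¹, n, m, hn, hm, ?_⟩
      have h1 := congrArg (mt γ⁻¹ *ᵥ ·) h
      simp only [mulVec_smul, mulVec_mulVec, mt_inv_mul, one_mulVec] at h1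
      exact h1.symm
    trans := by
      rintro u v w ⟨γ, m, n, hm, hn, h⟩ ⟨γ', m', n', hm', hn', h'⟩
      refine ⟨γ' * γ, m' * m, n * n', mul_ne_zero hm' hm, mul_ne_zero hn hn', ?_⟩
      have h1 := congrArg (mt γ' *ᵥ ·) h
      simp only [mulVec_smul, mulVec_mulVec] at h1
      rw [mt_mul, mul_smul, h1, smul_comm, h', smul_smul] }

/-- A representative. -/
noncomputable def rep (N : ℕ) (u : {u : V2 // u ≠ 0}) : {u : V2 // u ≠ 0} :=
  (Quotient.mk (connSetoid N) u).out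

theorem rep_eq {u v : {u : V2 // u ≠ 0}} (γ : Gamma0 N) (h : Conn γ u.1 v.1) :
    rep N u = rep N v := by
  unfold rep
  rw [Quotient.sound (s := connSetoid N) (show (connSetoid N) u v from ⟨γ, h⟩)]

theorem exists_conn (N : ℕ) (u : {u : V2 // u ≠ 0}) :
    ∃ γ : Gamma0 N, Conn γ (rep N u).1 u.1 :=
  Quotient.mk_out (s := connSetoid N) u

/-- Lifting of parabolic homomorphisms to modular symbols. -/
theorem exists_lift (φ : Additive (Gamma0 N) →+ A)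
    (hφ : ModularCurve.Period.IsParabolicHom (Gamma0 N) φ) : ∃ f : Symb N A, toHom f = φ := by
  classical
  choose g hg using exists_conn N
  have hstab : ∀ (γ : Gamma0 N) (r : V2), r ≠ 0 → Conn γ r r → ev φ γ = 0 := by
    rintro γ r hr ⟨m, n, hm, hn, h⟩
    exact hφ γ (sq_trace_eq_four (det_mt γ) hr hm h)
  have hwd : ∀ (γ γ' : Gamma0 N) (r x : V2), r ≠ 0 → Conn γ r x → Conn γ' r x →
      ev φ γ = ev φ γ' := by
    intro γ γ' r x hr h h'
    have := hstab _ r hr (h.trans_inv h')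
    rw [ev_mul, ev_inv, neg_add_eq_zero] at this
    exact this
  let h : V2 → A := fun x => if hx : x ≠ 0 then ev φ (g ⟨x, hx⟩) else 0
  have hval : ∀ (x : V2) (hx : x ≠ 0) (γ : Gamma0 N), Conn γ (rep N ⟨x, hx⟩).1 x → h x = ev φ γ := by
    intro x hx γ hγ
    simp only [h, dif_pos hx]
    exact hwd _ _ _ _ (rep N ⟨x, hx⟩).2 (hg ⟨x, hx⟩) hγ
  have hγh : ∀ (δ : Gamma0 N) (x : V2), x ≠ 0 → h (mt δ *ᵥ x) = ev φ δ + h x := by
    intro δ x hx
    have hδx := mt_mulVec_ne_zero δ hx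
    obtain ⟨m, n, hm, hn, hc⟩ := hg ⟨x, hx⟩
    have e : rep N ⟨mt δ *ᵥ x, hδx⟩ = rep N ⟨x, hx⟩ :=
      (rep_eq δ ⟨1, 1, one_ne_zero, one_ne_zero, rfl⟩).symm
    rw [hval _ hδx (δ * g ⟨x, hx⟩) ?_, ev_mul]
    · simp only [h, dif_pos hx]
    · rw [e]
      refine ⟨m, n, hm, hn, ?_⟩
      have h1 := congrArg (mt δ *ᵥ ·) hc
      simp only [mulVec_smul, mulVec_mulVec] at h1
      rw [mt_mul, h1]
  have hsm : ∀ (m : ℤ) (x : V2), m ≠ 0 → h (m • x) = h x := by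
    intro m x hm
    by_cases hx : x = 0
    · rw [hx, smul_zero]
    · have hmx : m • x ≠ 0 := smul_ne_zero hm hx
      obtain ⟨m', n', hm', hn', hc⟩ := hg ⟨x, hx⟩
      have e : rep N ⟨m • x, hmx⟩ = rep N ⟨x, hx⟩ :=
        (rep_eq 1 ⟨m, 1, hm, one_ne_zero, by rw [mt_one, one_mulVec, one_smul]⟩).symm
      rw [hval _ hmx (g ⟨x, hx⟩) ?_]
      · simp only [h, dif_pos hx]
      · rw [e]
        refine ⟨m * m', n', mul_ne_zero hm hm', hn', ?_⟩
        rw [mul_smul, hc, smul_comm]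
  have hz : h 0 = 0 := by simp only [h]; rw [dif_neg (by simp)]
  refine ⟨⟨fun u v => if u = 0 ∨ v = 0 then 0 else h v - h u, ?_⟩, ?_⟩
  · constructor
    · intro v; simp
    · intro v; simp
    · intro u v w hu hv hw
      simp only [hu, hv, hw, or_self, if_false]
      abel
    · intro m u v hm
      simp only [smul_eq_zero, hm, false_or, hsm m u hm]
    · intro γ u v
      by_cases hu : u = 0
      · simp [hu, mulVec_zero]
      by_cases hv : v = 0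
      · simp [hv, mulVec_zero]
      simp only [mt_mulVec_ne_zero γ hu, mt_mulVec_ne_zero γ hv, hu, hv, or_self, if_false]
      rw [hγh γ u hu, hγh γ v hv]
      abel
  · refine AddMonoidHom.ext fun x => ?_
    obtain ⟨γ, rfl⟩ := Additive.ofMul.surjective x
    change (if e1 = 0 ∨ mt γ *ᵥ e1 = 0 then 0 else h (mt γ *ᵥ e1) - h e1) = ev φ γ
    rw [if_neg (by
      rintro (h' | h')
      · exact e1_ne h'
      · exact mt_mulVec_ne_zero γ e1_ne h'), hγh γ e1 e1_ne]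
    abel

/-- The homomorphism attached to a symbol is parabolic. -/
theorem toHom_parabolic (f : Symb N A) : ModularCurve.Period.IsParabolicHom (Gamma0 N) (toHom f) := by
  intro γ hγ
  change ev (toHom f) γ = 0
  -- find a fixed cusp
  obtain ⟨ε, hε, htr⟩ : ∃ ε : ℤ, ε ^ 2 = 1 ∧ (mt γ).trace = 2 * ε := by
    have : ((mt γ).trace - 2) * ((mt γ).trace + 2) = 0 := by
      have h : (mt γ).trace ^ 2 = 4 := hγ
      linear_combination h
    rcases mul_eq_zero.mp this with h | h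
    · exact ⟨1, by norm_num, by linarith⟩
    · exact ⟨-1, by norm_num, by linarith⟩
  have hε0 : ε ≠ 0 := by rintro rfl; norm_num at hε
  have hdet := det_mt γ
  rw [Matrix.det_fin_two] at hdet
  rw [Matrix.trace_fin_two] at htr
  by_cases hc : mt γ 1 0 = 0
  · refine ev_toHom_eq_zero f γ e1_ne (m := 1) (n := mt γ 0 0) one_ne_zero ?_ ?_
    · intro h0; rw [h0, hc] at hdet; norm_num at hdet
    · rw [one_smul]
      apply V2_ext
      · rw [mulVec_0]; simp [e1]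
      · rw [mulVec_1, hc]; simp [e1]
  · -- the fixed vector `(a - ε, c)`
    have hu : (![mt γ 0 0 - ε, mt γ 1 0] : V2) ≠ 0 := fun h => hc (by simpa using congrFun h 1)
    refine ev_toHom_eq_zero f γ hu (m := 1) (n := ε) one_ne_zero hε0 ?_
    rw [one_smul]
    have hd : mt γ 1 1 = 2 * ε - mt γ 0 0 := by linarith
    rw [hd] at hdet
    apply V2_ext
    · rw [mulVec_0]
      simp
      linear_combination -hdet + hε
    · rw [mulVec_1, hd]
      simp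
      ring

end Fermat.Agent.Ihara
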