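import Fermat.Agent.Ihara.Pair

set_option autoImplicit false

/-!
# Hecke equivariance of the intersection homomorphism
-/

open CongruenceSubgroup UpperHalfPlane
open scoped MatrixGroups

noncomputable section

namespace Fermat.Agent.Ihara

open Fermat.Agent.Top Matrix

variable {N q : ℕ}

theorem adjugate_adjugate2 (X : M2) : X.adjugate.adjugate = X := by
  ext i j
  fin_cases i <;> fin_cases j <;> simp [Matrix.adjugate_fin_two]

theorem det_adjugate2 (X : M2) : X.adjugate.det = X.det := by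
  rw [Matrix.adjugate_fin_two, Matrix.det_fin_two_of, Matrix.det_fin_two]
  ring

theorem adj_mt (γ : Gamma0 N) : (mt γ).adjugate = mt γ⁻¹ := by
  have h1 : mt γ * (mt γ).adjugate = mt γ * mt γ⁻¹ := by
    rw [Matrix.mul_adjugate, det_mt, one_smul, mt_mul_inv]
  exact mul_left_cancel_det (det_mt_pos γ).ne' h1

theorem isDelta_adj {X : M2} (hX : IsDelta N X) (hdet : IsCoprime X.det (N : ℤ)) :
    IsDelta N X.adjugate := by
  refine isDelta_of_det ?_ (by rw [det_adjugate2]; exact hdet)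
  rw [Matrix.adjugate_fin_two]
  simpa using hX.1

theorem det_tM_pos (N : ℕ) {ℓ : ℕ} (hℓ : ℓ.Prime) (i : HI N ℓ) : 0 < (tM N ℓ i).det := by
  rw [det_tM]; exact_mod_cast hℓ.pos

/-- `Δ_ℓ` as a union of right translates -/
theorem iUnion_right {ℓ : ℕ} (hℓ : ℓ.Prime) :
    ⋃ j : HI N ℓ, (fun X => X * tM N ℓ j) '' GaS N = DeS N ℓ := by
  ext X
  simp only [Set.mem_iUnion]
  constructor
  · rintro ⟨j, _, ⟨γ, rfl⟩, rfl⟩
    exact ⟨(isDelta_mt γ).mul (isDelta_HM hℓ j), by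
      change (mt γ * tM N ℓ j).det = ℓ
      rw [Matrix.det_mul, det_mt, one_mul, det_tM]⟩
  · rintro ⟨h1, h2⟩
    obtain ⟨γ, j, h⟩ := exists_tM hℓ h1 h2
    exact ⟨j, mt γ, ⟨γ, rfl⟩, h.symm⟩

theorem disjoint_right {ℓ : ℕ} (hℓ : ℓ.Prime) :
    Pairwise (Function.onFun Disjoint (fun j : HI N ℓ => (fun X => X * tM N ℓ j) '' GaS N)) := by
  intro i j hij
  rw [Function.onFun, Set.disjoint_left]
  rintro _ ⟨_, ⟨γ, rfl⟩, rfl⟩ ⟨_, ⟨γ', rfl⟩, h⟩
  apply hij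
  refine (repSys_tM N hℓ).uniq (γ'⁻¹ * γ) i j ?_
  rw [mt_mul, Matrix.mul_assoc]
  change mt γ'⁻¹ * (mt γ * tM N ℓ i) = tM N ℓ j
  have h' : mt γ' * tM N ℓ j = mt γ * tM N ℓ i := h
  rw [← h', ← Matrix.mul_assoc, mt_inv_mul, Matrix.one_mul]

/-- `Δ_ℓ` as a union of left translates, for `ℓ ∤ N` -/
theorem iUnion_left {ℓ : ℕ} (hℓ : ℓ.Prime) (hℓN : ¬ ℓ ∣ N) :
    ⋃ j : HI N ℓ, (fun X => (tM N ℓ j).adjugate * X) '' GaS N = DeS N ℓ := by
  have hcop : IsCoprime (ℓ : ℤ) (N : ℤ) :=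
    Nat.isCoprime_iff_coprime.mpr ((Nat.Prime.coprime_iff_not_dvd hℓ).mpr hℓN)
  ext X
  simp only [Set.mem_iUnion]
  constructor
  · rintro ⟨j, _, ⟨γ, rfl⟩, rfl⟩
    refine ⟨(isDelta_adj (isDelta_HM hℓ j) (by
      rw [det_HM]; exact hcop)).mul (isDelta_mt γ), ?_⟩
    change ((tM N ℓ j).adjugate * mt γ).det = ℓ
    rw [Matrix.det_mul, det_mt, mul_one, det_adjugate2, det_tM]
  · rintro ⟨h1, h2⟩
    obtain ⟨γ, j, h⟩ := exists_tM hℓ (X := X.adjugate) (isDelta_adj h1 (by rw [h2]; exact hcop))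
      (by rw [det_adjugate2, h2])
    refine ⟨j, mt γ⁻¹, ⟨γ⁻¹, rfl⟩, ?_⟩
    change (tM N ℓ j).adjugate * mt γ⁻¹ = X
    rw [← adj_mt, ← Matrix.adjugate_mul_distrib, ← h, adjugate_adjugate2]

theorem disjoint_left {ℓ : ℕ} (hℓ : ℓ.Prime) :
    Pairwise (Function.onFun Disjoint
      (fun j : HI N ℓ => (fun X => (tM N ℓ j).adjugate * X) '' GaS N)) := by
  intro i j hij
  rw [Function.onFun, Set.disjoint_left]
  rintro _ ⟨_, ⟨γ, rfl⟩, rfl⟩ ⟨_, ⟨γ', rfl⟩, h⟩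
  apply hij
  have h' : (tM N ℓ j).adjugate * mt γ' = (tM N ℓ i).adjugate * mt γ := h
  have h2 := congrArg Matrix.adjugate h'
  rw [Matrix.adjugate_mul_distrib, Matrix.adjugate_mul_distrib, adjugate_adjugate2,
    adjugate_adjugate2, adj_mt, adj_mt] at h2
  refine (repSys_tM N hℓ).uniq (γ' * γ⁻¹) i j ?_
  rw [mt_mul, Matrix.mul_assoc, ← h2, ← Matrix.mul_assoc, mt_mul_inv, Matrix.one_mul]

/-- Hecke equivariance. -/
theorem hop_FH (ℓ : Nat.Primes) (hℓN : ¬ (ℓ : ℕ) ∣ N) :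
    hop N ℓ (FH N) = (Ts N ℤ ℓ).comp (FH N) := by
  refine AddMonoidHom.ext fun x => ?_
  obtain ⟨γ, rfl⟩ := Additive.ofMul.surjective x
  change ev (hop N ℓ (FH N)) γ = Ts N ℤ ℓ (Fs N γ)
  rw [hop_apply]
  apply Subtype.ext
  funext u v
  have hS := cd_GaS N
  have hpos := fun i => det_tM_pos N ℓ.2 i
  -- right hand side
  have hR : (Ts N ℤ ℓ (Fs N γ)).1 u v = GS (DeS N ℓ) u v (act (mt γ) I) I := by
    rw [← iUnion_right ℓ.2, GS_iUnion _ (fun j => hS.image_right (hpos j).ne')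
      (disjoint_right ℓ.2)]
    change ∑ i : HI N ℓ, Fn N γ (HM ℓ i.1 *ᵥ u) (HM ℓ i.1 *ᵥ v) = _
    refine Finset.sum_congr rfl fun i _ => ?_
    rw [GS_image_right _ (hpos i).ne']
    rfl
  rw [hR, ← iUnion_left ℓ.2 hℓN, GS_iUnion _ (fun j => hS.image_left (by
    rw [det_adjugate2]; exact (hpos j).ne')) (disjoint_left ℓ.2)]
  -- left hand side
  have hL : ∀ i : HI N ℓ, Fn N ((hreps N ℓ.2).c γ i) u v =
      GS ((fun X => (tM N ℓ i).adjugate * X) '' GaS N) u v (act (mt γ) I) I +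
      (GS (GaS N) u v (act (tM N ℓ i) I) I -
        GS (GaS N) u v (act (tM N ℓ ((hreps N ℓ.2).perm γ i)) I) I) := by
    intro i
    have h1 : mt ((hreps N ℓ.2).c γ i) * tM N ℓ ((hreps N ℓ.2).perm γ i) = tM N ℓ i * mt γ :=
      (hreps_matrix ℓ γ i).symm
    rw [Fn_eq _ u v (act (tM N ℓ ((hreps N ℓ.2).perm γ i)) I),
      ← act_mul (det_mt_pos _).ne' (hpos _).ne', h1, act_mul (hpos _).ne' (det_mt_pos _).ne',
      ← GS_act _ (hpos i)]
    have h2 := GS_add hS u v (act (tM N ℓ i) (act (mt γ) I)) (act (tM N ℓ i) I)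
      (act (tM N ℓ ((hreps N ℓ.2).perm γ i)) I)
    have h3 := GS_add hS u v (act (tM N ℓ i) I) (act (tM N ℓ ((hreps N ℓ.2).perm γ i)) I) I
    linarith
  have hsum : (∑ i : HI N ℓ, ev (FH N) ((hreps N ℓ.2).c γ i)).1 u v =
      ∑ i : HI N ℓ, Fn N ((hreps N ℓ.2).c γ i) u v := by
    have h1 : (∑ i : HI N ℓ, ev (FH N) ((hreps N ℓ.2).c γ i)).1 =
        ∑ i : HI N ℓ, (ev (FH N) ((hreps N ℓ.2).c γ i)).1 :=
      map_sum (Symb N ℤ).subtype _ _
    rw [h1, Finset.sum_apply, Finset.sum_apply]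
    rfl
  rw [hsum, Finset.sum_congr rfl fun i _ => hL i, Finset.sum_add_distrib, Finset.sum_sub_distrib,
    Equiv.sum_comp ((hreps N ℓ.2).perm γ) (fun i => GS (GaS N) u v (act (tM N ℓ i) I) I), sub_self,
    add_zero]

/-! ### Atkin–Lehner and trace -/

namespace ALD

variable (a : ALD N q)

theorem W_Fs (hq : q ≠ 0) {γ γ' : Gamma0 (q * N)} (h : mt γ * a.w = a.w * mt γ') :
    a.W ℤ hq (Fs (q * N) γ) = Fs (q * N) γ' := by
  have hw : 0 < a.w.det := by rw [a.det_w]; exact_mod_cast Nat.pos_of_ne_zero hq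
  apply Subtype.ext
  funext u v
  change a.W ℤ hq (Fs (q * N) γ) u v = Fn (q * N) γ' u v
  rw [W_apply]
  change Fn (q * N) γ (a.w *ᵥ u) (a.w *ᵥ v) = _
  rw [Fn_eq γ _ _ (act a.w I), ← GS_image_right _ hw.ne', Fn]
  have hset : (fun X => X * a.w) '' GaS (q * N) = (fun X => a.w * X) '' GaS (q * N) := by
    ext X
    constructor
    · rintro ⟨_, ⟨δ, rfl⟩, rfl⟩
      obtain ⟨X', h1, h2, h3⟩ := a.conj' hq (X := mt δ) (isDelta_mt δ).1
        (by rw [det_mt]; exact isCoprime_one_left)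
      rw [det_mt] at h2
      obtain ⟨δ', rfl⟩ := exists_mt h1 h2
      exact ⟨mt δ', ⟨δ', rfl⟩, h3.symm⟩
    · rintro ⟨_, ⟨δ, rfl⟩, rfl⟩
      obtain ⟨δ', h1⟩ := a.conj_mt hq δ
      exact ⟨mt δ', ⟨δ', rfl⟩, h1.symm⟩
  rw [hset, ← act_mul (det_mt_pos γ).ne' hw.ne', h, act_mul hw.ne' (det_mt_pos γ').ne',
    GS_image_left _ hw]

/-- existence of the conjugate -/
theorem exists_conj' (hq : q ≠ 0) (γ : Gamma0 (q * N)) :
    ∃ γ' : Gamma0 (q * N), mt γ * a.w = a.w * mt γ' := by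
  obtain ⟨X', h1, h2, h3⟩ := a.conj' hq (X := mt γ) (isDelta_mt γ).1
    (by rw [det_mt]; exact isCoprime_one_left)
  rw [det_mt] at h2
  obtain ⟨γ', rfl⟩ := exists_mt h1 h2
  exact ⟨γ', h3⟩

theorem Tr_Fs (hq : q.Prime) (hqN : ¬ q ∣ N) {γ : Gamma0 (q * N)} {γ' : Gamma0 N}
    (h : mt γ * dg q = dg q * mt γ') : a.Tr ℤ hq hqN (Fs (q * N) γ) = Fs N γ' := by
  have hqp : Prime (q : ℤ) := Nat.prime_iff_prime_int.mp hq
  have hd : 0 < (dg q).det := by rw [det_dg]; exact_mod_cast hq.pos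
  have hdet : ∀ i, (a.trM i).det ≠ 0 := fun i => by rw [a.det_trM]; exact hqp.ne_zero
  apply Subtype.ext
  funext u v
  change ∑ i : Option (Fin q), Fn (q * N) γ (a.trM i *ᵥ u) (a.trM i *ᵥ v) = Fn N γ' u v
  have hset : ⋃ i : Option (Fin q), (fun X => X * a.trM i) '' GaS (q * N) =
      (fun X => dg q * X) '' GaS N := by
    ext X
    simp only [Set.mem_iUnion]
    constructor
    · rintro ⟨i, _, ⟨δ, rfl⟩, rfl⟩
      obtain ⟨δ', hδ'⟩ := conj_dg δ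
      obtain ⟨β, hβ⟩ := exists_mt (a.isDelta_bM i) (a.det_bM i)
      refine ⟨mt (δ' * β), ⟨_, rfl⟩, ?_⟩
      change dg q * mt (δ' * β) = mt δ * a.trM i
      rw [trM_eq, ← Matrix.mul_assoc, hδ', hβ, mt_mul, Matrix.mul_assoc]
    · rintro ⟨_, ⟨δ, rfl⟩, rfl⟩
      obtain ⟨X, i, hX, h1⟩ := a.exists_trM hq hqN (isDelta_mt δ)
        (by rw [det_mt]; exact fun h => hqp.not_isUnit (isUnit_of_dvd_one h))
      have hXdet : X.det = 1 := by
        have h2 := congrArg Matrix.det h1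
        rw [Matrix.det_mul, Matrix.det_mul, det_trM, det_dg, det_mt, mul_one] at h2
        exact (mul_right_cancel₀ hqp.ne_zero (by rw [one_mul]; exact h2)).symm
      obtain ⟨γ', rfl⟩ := exists_mt hX hXdet
      exact ⟨i, mt γ', ⟨γ', rfl⟩, h1.symm⟩
  have hdisj : Pairwise (Function.onFun Disjoint
      (fun i : Option (Fin q) => (fun X => X * a.trM i) '' GaS (q * N))) := by
    intro i j hij
    rw [Function.onFun, Set.disjoint_left]
    rintro _ ⟨_, ⟨δ, rfl⟩, rfl⟩ ⟨_, ⟨δ', rfl⟩, h⟩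
    apply hij
    refine a.trM_uniq hq (δ'⁻¹ * δ) i j ?_
    have h' : mt δ' * a.trM j = mt δ * a.trM i := h
    rw [mt_mul, Matrix.mul_assoc, ← h', ← Matrix.mul_assoc, mt_inv_mul, Matrix.one_mul]
  have h1 : ∑ i : Option (Fin q), Fn (q * N) γ (a.trM i *ᵥ u) (a.trM i *ᵥ v) =
      GS ((fun X => dg q * X) '' GaS N) u v (act (mt γ) (act (dg q) I)) (act (dg q) I) := by
    rw [← hset, GS_iUnion _ (fun j => (cd_GaS (q * N)).image_right (hdet j)) hdisj]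
    refine Finset.sum_congr rfl fun i _ => ?_
    rw [GS_image_right _ (hdet i), Fn_eq γ _ _ (act (dg q) I)]
  rw [h1, ← act_mul (det_mt_pos γ).ne' hd.ne', h, act_mul hd.ne' (det_mt_pos γ').ne',
    GS_image_left _ hd]
  rfl

end ALD

end Fermat.Agent.Ihara
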