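import Fermat.Agent.Ihara.Unit

set_option autoImplicit false

/-!
# The Hecke operator `T_ℓ` on functions of the bottom row
-/

open CongruenceSubgroup
open scoped MatrixGroups

namespace Fermat.Agent.Ihara

open Fermat.Agent.Top Matrix.SpecialLinearGroup

variable {N : ℕ} {A : Type*} [AddCommGroup A]

theorem hop_apply (ℓ : Nat.Primes) (a : Additive (Gamma0 N) →+ A) (γ : Gamma0 N) :
    ev (hop N ℓ a) γ = ∑ i : HI N ℓ, ev a ((hreps N ℓ.2).c γ i) := rfl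

/-- The defining matrix identity. -/
theorem hreps_matrix (ℓ : Nat.Primes) (γ : Gamma0 N) (i : HI N ℓ) :
    HM ℓ i.1 * ((γ : SL(2, ℤ)) : Matrix (Fin 2) (Fin 2) ℤ) =
      (((hreps N ℓ.2).c γ i : SL(2, ℤ)) : Matrix (Fin 2) (Fin 2) ℤ) *
        HM ℓ ((hreps N ℓ.2).σ γ i).1 := by
  have h := (hreps N ℓ.2).mul_eq γ i
  have h2 := congrArg (fun g : GL (Fin 2) ℝ => (g : Matrix (Fin 2) (Fin 2) ℝ)) h
  simp only [Units.val_mul, hreps_δ, toGL_apply, mapGL_coe, HR_apply ℓ.2.ne_zero] at h2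
  rw [← map_mul_cast, ← map_mul_cast] at h2
  exact map_cast_injective h2

theorem hreps_entries (ℓ : Nat.Primes) (γ : Gamma0 N) (i : HI N ℓ) (u v : Fin 2) :
    HM ℓ i.1 u 0 * en γ 0 v + HM ℓ i.1 u 1 * en γ 1 v =
      en ((hreps N ℓ.2).c γ i) u 0 * HM ℓ ((hreps N ℓ.2).σ γ i).1 0 v +
      en ((hreps N ℓ.2).c γ i) u 1 * HM ℓ ((hreps N ℓ.2).σ γ i).1 1 v := by
  have h := congrFun (congrFun (hreps_matrix ℓ γ i) u) v
  simp only [Matrix.mul_apply, Fin.sum_univ_two] at h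
  exact h

/-- The index at infinity, when `ℓ ∤ N`. -/
def noneI {N ℓ : ℕ} (h : ¬ ℓ ∣ N) : HI N ℓ := ⟨none, fun h' => absurd h' h⟩

/-- The finite indices. -/
def someI (N : ℕ) {ℓ : ℕ} (j : Fin ℓ) : HI N ℓ := ⟨some j, fun _ => by simp⟩

theorem sum_HI' {ℓ : ℕ} (h : ¬ ℓ ∣ N) (F : HI N ℓ → A) :
    ∑ i : HI N ℓ, F i = ∑ j : Fin ℓ, F (someI N j) + F (noneI h) := by
  classical
  have := sum_HI N ℓ (fun x => if hx : ℓ ∣ N → x ≠ none then F ⟨x, hx⟩ else 0)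
  rw [if_neg h, dif_pos (fun h' => absurd h' h)] at this
  convert this using 1
  · refine Finset.sum_congr rfl fun i _ => ?_
    rw [dif_pos i.2]
    rfl
  · congr 1
    refine Finset.sum_congr rfl fun j _ => ?_
    rw [dif_pos (fun _ => by simp)]
    rfl

/-- Computation of the factors when `ℓ ∣ c`. -/
theorem hreps_none (ℓ : Nat.Primes) (hℓN : ¬ (ℓ : ℕ) ∣ N) (γ : Gamma0 N)
    (hc : ((ℓ : ℕ) : ℤ) ∣ en γ 1 0) :
    (hreps N ℓ.2).σ γ (noneI hℓN) = noneI hℓN ∧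
      en ((hreps N ℓ.2).c γ (noneI hℓN)) 1 0 * ((ℓ : ℕ) : ℤ) = en γ 1 0 ∧
      en ((hreps N ℓ.2).c γ (noneI hℓN)) 1 1 = en γ 1 1 := by
  have e10 := hreps_entries ℓ γ (noneI hℓN) 1 0
  have e11 := hreps_entries ℓ γ (noneI hℓN) 1 1
  have hσ : (hreps N ℓ.2).σ γ (noneI hℓN) = noneI hℓN := by
    rcases hs : ((hreps N ℓ.2).σ γ (noneI hℓN)).1 with _ | j
    · exact Subtype.ext hs
    · exfalso
      rw [hs] at e10 e11
      simp [noneI] at e10 e11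
      have hd : ((ℓ : ℕ) : ℤ) ∣ en γ 1 1 := by
        rw [e11, ← e10]
        exact dvd_add (hc.mul_right _) (dvd_mul_left _ _)
      have := en_det γ
      have h1 : ((ℓ : ℕ) : ℤ) ∣ 1 := by
        rw [← this]
        exact dvd_sub (hd.mul_left _) (hc.mul_left _)
      exact ℓ.2.one_lt.ne' (by exact_mod_cast Int.eq_one_of_dvd_one (by positivity) h1)
  rw [hσ] at e10 e11
  simp [noneI] at e10 e11
  exact ⟨hσ, e10.symm, e11.symm⟩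

theorem hreps_some (ℓ : Nat.Primes) (hℓN : ¬ (ℓ : ℕ) ∣ N) (γ : Gamma0 N)
    (hc : ((ℓ : ℕ) : ℤ) ∣ en γ 1 0) (j : Fin ℓ) :
    ∃ j' : Fin ℓ, (hreps N ℓ.2).σ γ (someI N j) = someI N j' ∧
      en ((hreps N ℓ.2).c γ (someI N j)) 1 0 = ((ℓ : ℕ) : ℤ) * en γ 1 0 ∧
      en ((hreps N ℓ.2).c γ (someI N j)) 1 1 = en γ 1 1 - (j' : ℕ) * en γ 1 0 := by
  have e10 := hreps_entries ℓ γ (someI N j) 1 0
  have e11 := hreps_entries ℓ γ (someI N j) 1 1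
  rcases hs : ((hreps N ℓ.2).σ γ (someI N j)).1 with _ | j'
  · exfalso
    have h1 : (hreps N ℓ.2).σ γ (someI N j) = noneI hℓN := Subtype.ext hs
    have h2 := ((hreps N ℓ.2).perm γ).injective (a₁ := someI N j) (a₂ := noneI hℓN)
      (h1.trans (hreps_none ℓ hℓN γ hc).1.symm)
    have := congrArg Subtype.val h2
    simp [someI, noneI] at this
  · rw [hs] at e10 e11
    simp [someI] at e10 e11
    refine ⟨j', Subtype.ext hs, e10.symm, ?_⟩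
    have hℓ0 : ((ℓ : ℕ) : ℤ) ≠ 0 := by exact_mod_cast ℓ.2.ne_zero
    apply mul_left_cancel₀ hℓ0
    rw [← e10] at e11
    simp only [someI]
    linear_combination -e11

/-- The formula for `T_ℓ a` on matrices with lower left entry divisible by `ℓ`. -/
theorem Unip.phi_hop {a : Additive (Gamma0 N) →+ A} (ha : Unip a) (ℓ : Nat.Primes)
    (hℓN : ¬ (ℓ : ℕ) ∣ N) (γ : Gamma0 N) (c d : ℤ) (h10 : en γ 1 0 = ((ℓ : ℕ) : ℤ) * c)
    (h11 : en γ 1 1 = d) :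
    ev (hop N ℓ a) γ = ∑ j : Fin ℓ, phi a (((ℓ : ℕ) : ℤ) * (((ℓ : ℕ) : ℤ) * c))
      (d - ((j : ℕ) : ℤ) * (((ℓ : ℕ) : ℤ) * c)) + phi a c d := by
  have hc : ((ℓ : ℕ) : ℤ) ∣ en γ 1 0 := ⟨c, h10⟩
  have hℓ0 : ((ℓ : ℕ) : ℤ) ≠ 0 := by exact_mod_cast ℓ.2.ne_zero
  rw [hop_apply, sum_HI' hℓN]
  congr 1
  · choose f hf1 hf2 hf3 using fun j => hreps_some ℓ hℓN γ hc j
    have hinj : Function.Injective f := by
      intro i j hij
      have h1 : (hreps N ℓ.2).σ γ (someI N i) = (hreps N ℓ.2).σ γ (someI N j) := by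
        rw [hf1, hf1, hij]
      have h2 := ((hreps N ℓ.2).perm γ).injective h1
      have := congrArg Subtype.val h2
      simpa [someI] using this
    have hbij : Function.Bijective f := Finite.injective_iff_bijective.mp hinj
    rw [← Equiv.sum_comp (Equiv.ofBijective f hbij) (fun j : Fin ℓ =>
      phi a (((ℓ : ℕ) : ℤ) * (((ℓ : ℕ) : ℤ) * c)) (d - ((j : ℕ) : ℤ) * (((ℓ : ℕ) : ℤ) * c)))]
    refine Finset.sum_congr rfl fun j _ => ?_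
    rw [Equiv.ofBijective_apply]
    refine (ha.phi_eq _ ?_ ?_).symm
    · rw [hf2, h10]
    · rw [hf3, h10, h11]
  · obtain ⟨-, h2, h3⟩ := hreps_none ℓ hℓN γ hc
    refine (ha.phi_eq _ ?_ (h3.trans h11)).symm
    rw [h10, mul_comm] at h2
    exact mul_left_cancel₀ hℓ0 h2

/-- Uniqueness of the decomposition. -/
theorem hreps_eq (ℓ : Nat.Primes) (γ g : Gamma0 N) (i j : HI N ℓ)
    (h : HM ℓ i.1 * ((γ : SL(2, ℤ)) : Matrix (Fin 2) (Fin 2) ℤ) =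
      ((g : SL(2, ℤ)) : Matrix (Fin 2) (Fin 2) ℤ) * HM ℓ j.1) :
    (hreps N ℓ.2).c γ i = g ∧ (hreps N ℓ.2).σ γ i = j := by
  have h1 : HR ℓ i.1 * toGL N γ = toGL N g * HR ℓ j.1 := by
    apply Units.ext
    rw [Units.val_mul, Units.val_mul, toGL_apply, toGL_apply, mapGL_coe, mapGL_coe,
      HR_apply ℓ.2.ne_zero, HR_apply ℓ.2.ne_zero, ← map_mul_cast, ← map_mul_cast, h]
  have h2 := (hreps N ℓ.2).mul_eq γ i
  rw [hreps_δ, hreps_δ, h1] at h2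
  have h3 : j = (hreps N ℓ.2).σ γ i := by
    refine hreps_unique N ℓ.2 (((hreps N ℓ.2).c γ i)⁻¹ * g : Gamma0 N) _ _ ?_
    have h4 : mapGL ℝ (((((hreps N ℓ.2).c γ i)⁻¹ * g : Gamma0 N)) : SL(2, ℤ)) =
        (toGL N ((hreps N ℓ.2).c γ i))⁻¹ * toGL N g := by
      rw [← map_inv, ← map_mul]; rfl
    rw [h4, mul_assoc, h2, inv_mul_cancel_left]
  refine ⟨?_, h3.symm⟩
  rw [← h3] at h2
  exact ((hreps N ℓ.2).inj (mul_right_cancel h2)).symm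

/-- Entrywise version. -/
theorem hreps_eq' (ℓ : Nat.Primes) (γ g : Gamma0 N) (i j : HI N ℓ)
    (h : ∀ u v : Fin 2, HM ℓ i.1 u 0 * en γ 0 v + HM ℓ i.1 u 1 * en γ 1 v =
      en g u 0 * HM ℓ j.1 0 v + en g u 1 * HM ℓ j.1 1 v) :
    (hreps N ℓ.2).c γ i = g ∧ (hreps N ℓ.2).σ γ i = j := by
  apply hreps_eq
  ext u v
  rw [Matrix.mul_apply, Matrix.mul_apply, Fin.sum_univ_two, Fin.sum_univ_two]
  exact h u v

theorem ev_hop_tr_mul (ℓ : Nat.Primes) (hℓN : ¬ (ℓ : ℕ) ∣ N) (a : Additive (Gamma0 N) →+ A) :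
    ev (hop N ℓ a) (tr N ((ℓ : ℕ) : ℤ)) = ((ℓ : ℕ) * ((ℓ : ℕ) + 1)) • ev a (tr N 1) := by
  rw [hop_apply, sum_HI' hℓN]
  have h1 : ∀ j : Fin ℓ, (hreps N ℓ.2).c (tr N ((ℓ : ℕ) : ℤ)) (someI N j) = tr N 1 := by
    intro j
    refine (hreps_eq' ℓ _ _ _ (someI N j) ?_).1
    intro u v
    fin_cases u <;> fin_cases v <;> simp [someI, tr]
    ring
  have h2 : (hreps N ℓ.2).c (tr N ((ℓ : ℕ) : ℤ)) (noneI hℓN) =
      tr N (((ℓ : ℕ) : ℤ) * ((ℓ : ℕ) : ℤ)) := by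
    refine (hreps_eq' ℓ _ _ _ (noneI hℓN) ?_).1
    intro u v
    fin_cases u <;> fin_cases v <;> simp [noneI, tr]
  have h3 : ev a (tr N (((ℓ : ℕ) : ℤ) * ((ℓ : ℕ) : ℤ))) = ((ℓ : ℕ) * (ℓ : ℕ)) • ev a (tr N 1) := by
    rw [ev_tr, ← natCast_zsmul, Nat.cast_mul]
  simp only [h1, h2, Finset.sum_const, Finset.card_univ, Fintype.card_fin]
  rw [h3, ← add_smul]
  congr 1
  ring

/-- `T_ℓ` on the translation. -/
theorem ev_hop_tr {k : Type*} [Field k] (ℓ : Nat.Primes) (hℓN : ¬ (ℓ : ℕ) ∣ N)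
    (hℓk : ((ℓ : ℕ) : k) ≠ 0) (a : Additive (Gamma0 N) →+ k) :
    ev (hop N ℓ a) (tr N 1) = (((ℓ : ℕ) : k) + 1) * ev a (tr N 1) := by
  have h := ev_hop_tr_mul ℓ hℓN a
  rw [ev_tr, natCast_zsmul, nsmul_eq_mul, nsmul_eq_mul] at h
  push_cast at h
  apply mul_left_cancel₀ hℓk
  rw [h]; ring

/-- The parabolic element attached to `(j, ℓ)`. -/
theorem ev_parabolic {ℓ j : ℤ} (hj : IsCoprime ℓ (j * N)) (a : Additive (Gamma0 N) →+ A)
    (g : Gamma0 N) (h00 : en g 0 0 = 1 + j * N * ℓ) (h01 : en g 0 1 = -(j ^ 2 * N))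
    (h10 : en g 1 0 = N * ℓ ^ 2) (h11 : en g 1 1 = 1 - j * N * ℓ) : ev a g = ev a (lo N 1) := by
  obtain ⟨x, y, hxy⟩ := hj
  have hdet : x * ℓ - j * (-(N * y)) = 1 := by linear_combination hxy
  obtain ⟨δ, hδ⟩ : ∃ δ : Gamma0 N, δ = mkG x j (-(N * y)) ℓ hdet
      ((dvd_mul_right _ _).neg_right) := ⟨_, rfl⟩
  have : g = δ * lo N 1 * δ⁻¹ := by
    obtain ⟨i1, i2, i3, i4⟩ := en_inv δ
    have d00 : en δ 0 0 = x := by rw [hδ]; rfl
    have d01 : en δ 0 1 = j := by rw [hδ]; rfl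
    have d10 : en δ 1 0 = -(N * y) := by rw [hδ]; rfl
    have d11 : en δ 1 1 = ℓ := by rw [hδ]; rfl
    apply ext_en <;>
      simp only [en_mul, i1, i2, i3, i4, h00, h01, h10, h11, d00, d01, d10, d11, lo, en_mkG_00,
        en_mkG_01, en_mkG_10, en_mkG_11]
    · linear_combination -hdet
    · ring
    · ring
    · linear_combination -hdet
  rw [this, ev_conj]

theorem ev_hop_lo_mul (ℓ : Nat.Primes) (hℓN : ¬ (ℓ : ℕ) ∣ N) (a : Additive (Gamma0 N) →+ A) :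
    ev (hop N ℓ a) (lo N ((ℓ : ℕ) : ℤ)) = ((ℓ : ℕ) * ((ℓ : ℕ) + 1)) • ev a (lo N 1) := by
  have hℓ := ℓ.2
  have hpos := hℓ.pos
  have : NeZero (ℓ : ℕ) := ⟨hℓ.ne_zero⟩
  have hg : ∀ j : ℤ, (1 + j * N * ((ℓ : ℕ) : ℤ)) * (1 - j * N * ((ℓ : ℕ) : ℤ)) -
      (-(j ^ 2 * N)) * (N * ((ℓ : ℕ) : ℤ) ^ 2) = 1 := fun j => by ring
  let g : ℤ → Gamma0 N := fun j => mkG (1 + j * N * ((ℓ : ℕ) : ℤ)) (-(j ^ 2 * N))
    (N * ((ℓ : ℕ) : ℤ) ^ 2) (1 - j * N * ((ℓ : ℕ) : ℤ)) (hg j) (dvd_mul_right _ _)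
  rw [hop_apply, sum_HI' hℓN]
  have h1 : ∀ j : Fin ℓ, (hreps N ℓ.2).c (lo N ((ℓ : ℕ) : ℤ)) (someI N j) = g ((j : ℕ) : ℤ) := by
    intro j
    refine (hreps_eq' ℓ _ _ _ (someI N j) ?_).1
    intro u v
    fin_cases u <;> fin_cases v <;> simp [someI, lo, g] <;> ring
  have h2 : (hreps N ℓ.2).c (lo N ((ℓ : ℕ) : ℤ)) (noneI hℓN) = lo N 1 := by
    refine (hreps_eq' ℓ _ _ _ (noneI hℓN) ?_).1
    intro u v
    fin_cases u <;> fin_cases v <;> simp [noneI, lo]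
  simp only [h1, h2]
  have h3 : ∀ j : Fin ℓ, ev a (g ((j : ℕ) : ℤ)) =
      (if j = 0 then ((ℓ : ℕ) * (ℓ : ℕ)) else 1) • ev a (lo N 1) := by
    intro j
    split_ifs with hj
    · subst hj
      have : g (((0 : Fin ℓ) : ℕ) : ℤ) = lo N (((ℓ : ℕ) : ℤ) * ((ℓ : ℕ) : ℤ)) := by
        apply ext_en <;> simp [g, lo]
        left; ring
      rw [this, ev_lo, ← natCast_zsmul, Nat.cast_mul]
    · rw [one_smul]
      refine ev_parabolic (ℓ := ((ℓ : ℕ) : ℤ)) (j := ((j : ℕ) : ℤ)) ?_ a _ rfl rfl rfl rfl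
      refine IsCoprime.mul_right ?_ ?_
      · rw [Nat.isCoprime_iff_coprime]
        refine (Nat.Prime.coprime_iff_not_dvd hℓ).mpr fun h => ?_
        have := Nat.eq_zero_of_dvd_of_lt h j.2
        exact hj (Fin.ext this)
      · rw [Nat.isCoprime_iff_coprime]
        exact (Nat.Prime.coprime_iff_not_dvd hℓ).mpr hℓN
  rw [Finset.sum_congr rfl fun j _ => h3 j, ← Finset.sum_smul]
  have h4 : ∑ j : Fin ℓ, (if j = 0 then ((ℓ : ℕ) * (ℓ : ℕ)) else 1) = (ℓ : ℕ) * ℓ + (ℓ - 1) := by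
    rw [Finset.sum_ite, Finset.sum_const, Finset.sum_const]
    have e1 : (Finset.univ.filter (fun j : Fin ℓ => j = 0)).card = 1 := by
      rw [Finset.card_eq_one]
      exact ⟨0, by ext; simp⟩
    have e2 : (Finset.univ.filter (fun j : Fin ℓ => ¬ j = 0)).card = ℓ - 1 := by
      have := Finset.card_filter_add_card_filter_not (s := (Finset.univ : Finset (Fin ℓ)))
        (fun j : Fin ℓ => j = 0)
      rw [e1, Finset.card_univ, Fintype.card_fin] at this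
      omega
    rw [e1, e2]; simp
  rw [h4]
  nth_rewrite 2 [← one_smul ℕ (ev a (lo N 1))]
  rw [← add_smul]
  congr 1
  have : (ℓ : ℕ) * ((ℓ : ℕ) + 1) = (ℓ : ℕ) * ℓ + ℓ := by ring
  rw [this]
  omega

theorem ev_hop_lo {k : Type*} [Field k] (ℓ : Nat.Primes) (hℓN : ¬ (ℓ : ℕ) ∣ N)
    (hℓk : ((ℓ : ℕ) : k) ≠ 0) (a : Additive (Gamma0 N) →+ k) :
    ev (hop N ℓ a) (lo N 1) = (((ℓ : ℕ) : k) + 1) * ev a (lo N 1) := by
  have h := ev_hop_lo_mul ℓ hℓN a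
  rw [ev_lo, natCast_zsmul, nsmul_eq_mul, nsmul_eq_mul] at h
  push_cast at h
  apply mul_left_cancel₀ hℓk
  rw [h]; ring

end Fermat.Agent.Ihara
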