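import Fermat.Agent.Ihara.Side

set_option autoImplicit false

/-!
# Intersection numbers: finiteness
-/

open CongruenceSubgroup UpperHalfPlane
open scoped MatrixGroups

noncomputable section

namespace Fermat.Agent.Ihara

open Fermat.Agent.Top Matrix

/-- difference of sides -/
def df (u v : V2) (z z' : ℍ) (X : M2) : ℤ := sd (X *ᵥ u) (X *ᵥ v) z - sd (X *ᵥ u) (X *ᵥ v) z'

theorem sg_mul_le {a b : ℝ} (c : ℝ) (h : sg (c * a) ≠ sg (c * b)) :
    (a ≤ 0 ∧ 0 ≤ b) ∨ (b ≤ 0 ∧ 0 ≤ a) := by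
  by_contra hcon
  push Not at hcon
  obtain ⟨h1, h2⟩ := hcon
  apply h
  rcases le_or_gt a 0 with ha | ha
  · have hb := h1 ha
    have ha' : a < 0 := by
      rcases ha.lt_or_eq with h' | h'
      · exact h'
      · exact absurd (h2 hb.le) (by rw [h']; simp)
    have ha0 : a ≠ 0 := ha'.ne
    have e : c * b = (b / a) * (c * a) := by field_simp
    rw [e, sg_mul_pos (div_pos_of_neg_of_neg hb ha')]
  · have hb : 0 < b := by
      by_contra hb
      exact absurd (h2 (not_lt.mp hb)) (not_lt.mpr ha.le)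
    have ha0 : a ≠ 0 := ha.ne'
    have e : c * b = (b / a) * (c * a) := by field_simp
    rw [e, sg_mul_pos (div_pos hb ha)]

theorem exists_zero_of_sign {f : ℝ → ℝ} (hf : Continuous f)
    (h : (f 0 ≤ 0 ∧ 0 ≤ f 1) ∨ (f 1 ≤ 0 ∧ 0 ≤ f 0)) : ∃ t ∈ Set.Icc (0 : ℝ) 1, f t = 0 := by
  rcases h with ⟨h0, h1⟩ | ⟨h0, h1⟩
  · obtain ⟨t, ht, h⟩ := intermediate_value_Icc (by norm_num : (0 : ℝ) ≤ 1) hf.continuousOn
      (show (0 : ℝ) ∈ Set.Icc (f 0) (f 1) from ⟨h0, h1⟩)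
    exact ⟨t, ht, h⟩
  · obtain ⟨t, ht, h⟩ := intermediate_value_Icc' (by norm_num : (0 : ℝ) ≤ 1) hf.continuousOn
      (show (0 : ℝ) ∈ Set.Icc (f 1) (f 0) from ⟨h0, h1⟩)
    exact ⟨t, ht, h⟩

theorem finite_df (u v : V2) (z z' : ℍ) {D : ℤ} (hD : D ≠ 0) :
    {X : M2 | X.det = D ∧ df u v z z' X ≠ 0}.Finite := by
  by_cases hdt : dt u v = 0
  · refine Set.finite_empty.subset ?_
    rintro X ⟨-, h⟩
    exact h (by
      unfold df
      rw [sd_eq_zero_of_dt (by rw [dt_mulVec, hdt, mul_zero]),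
        sd_eq_zero_of_dt (by rw [dt_mulVec, hdt, mul_zero]), sub_zero])
  have hu : u ≠ 0 := by rintro rfl; exact hdt (by simp [dt])
  have hv : v ≠ 0 := by rintro rfl; exact hdt (by simp [dt])
  set m : ℝ := min z.im z'.im with hm
  have hm0 : 0 < m := lt_min z.im_pos z'.im_pos
  set R : ℝ := |z.re| + |z'.re| with hR
  set Mx : ℝ := z.im + z'.im with hMx
  set ε : ℝ := min 1 (m ^ 2) with hε
  have hε0 : 0 < ε := lt_min one_pos (by positivity)
  set B : ℝ := ((D * dt u v : ℤ) : ℝ) ^ 2 * Mx ^ 2 / ε with hB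
  have hF := finite_nr m R B hm0
  set F := {u : V2 | ∃ x y : ℝ, m ≤ y ∧ |x| ≤ R ∧ nr u x y ≤ B} with hFdef
  refine Set.Finite.of_finite_image (f := fun X : M2 => (X *ᵥ u, X *ᵥ v)) ?_ ?_
  · refine (hF.prod hF).subset ?_
    rintro _ ⟨X, ⟨hXD, hX⟩, rfl⟩
    have hXdet : X.det ≠ 0 := by rw [hXD]; exact hD
    have hXu := mulVec_ne_zero_of_det hXdet hu
    have hXv := mulVec_ne_zero_of_det hXdet hv
    have hne : sg ((dt (X *ᵥ u) (X *ᵥ v) : ℝ) * qr (X *ᵥ u) (X *ᵥ v) z.re z.im) ≠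
        sg ((dt (X *ᵥ u) (X *ᵥ v) : ℝ) * qr (X *ᵥ u) (X *ᵥ v) z'.re z'.im) :=
      fun h => hX (sub_eq_zero.mpr h)
    have hsign := sg_mul_le _ hne
    -- intermediate value
    obtain ⟨t, ht, h0⟩ := exists_zero_of_sign
      (f := fun t => qr (X *ᵥ u) (X *ᵥ v) ((1 - t) * z.re + t * z'.re)
        ((1 - t) * z.im + t * z'.im)) (by unfold qr; fun_prop) (by simpa using hsign)
    have hy : m ≤ (1 - t) * z.im + t * z'.im := by
      have h1 : m ≤ z.im := min_le_left _ _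
      have h2 : m ≤ z'.im := min_le_right _ _
      nlinarith [ht.1, ht.2]
    have hyM : (1 - t) * z.im + t * z'.im ≤ Mx := by
      have h1 := z.im_pos
      have h2 := z'.im_pos
      nlinarith [ht.1, ht.2]
    have hx : |(1 - t) * z.re + t * z'.re| ≤ R := by
      refine (abs_add_le _ _).trans ?_
      rw [abs_mul, abs_mul, abs_of_nonneg ht.1, abs_of_nonneg (by linarith [ht.2] : (0:ℝ) ≤ 1 - t)]
      have h1 := abs_nonneg z.re
      have h2 := abs_nonneg z'.re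
      nlinarith [ht.1, ht.2]
    have hprod := qr_sq_add (X *ᵥ u) (X *ᵥ v) ((1 - t) * z.re + t * z'.re)
      ((1 - t) * z.im + t * z'.im)
    have h0' : qr (X *ᵥ u) (X *ᵥ v) ((1 - t) * z.re + t * z'.re)
        ((1 - t) * z.im + t * z'.im) = 0 := h0
    rw [h0', dt_mulVec, hXD, mul_pow, zero_pow two_ne_zero, zero_add] at hprod
    have hbound : ((D * dt u v : ℤ) : ℝ) ^ 2 * ((1 - t) * z.im + t * z'.im) ^ 2 ≤
        ((D * dt u v : ℤ) : ℝ) ^ 2 * Mx ^ 2 := by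
      have h1 : 0 < (1 - t) * z.im + t * z'.im := hm0.trans_le hy
      have : ((1 - t) * z.im + t * z'.im) ^ 2 ≤ Mx ^ 2 := by nlinarith
      exact mul_le_mul_of_nonneg_left this (sq_nonneg _)
    have hnu := nr_lower hXu ((1 - t) * z.re + t * z'.re) ((1 - t) * z.im + t * z'.im) hm0 hy
    have hnv := nr_lower hXv ((1 - t) * z.re + t * z'.re) ((1 - t) * z.im + t * z'.im) hm0 hy
    refine ⟨⟨_, _, hy, hx, ?_⟩, ⟨_, _, hy, hx, ?_⟩⟩
    · rw [hB, le_div_iff₀ hε0]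
      refine le_trans ?_ (hprod.symm.le.trans hbound)
      exact mul_le_mul_of_nonneg_left hnv (nr_nonneg _ _ _)
    · rw [hB, le_div_iff₀ hε0]
      refine le_trans ?_ (hprod.symm.le.trans hbound)
      rw [mul_comm (nr (X *ᵥ u) _ _)]
      exact mul_le_mul_of_nonneg_left hnu (nr_nonneg _ _ _)
  · intro X _ Y _ h
    rw [Prod.mk.injEq] at h
    exact mulVec_pair_injective hdt h.1 h.2

/-- The defect of additivity. -/
def kap (u v w : V2) (z : ℍ) (X : M2) : ℤ :=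
  sd (X *ᵥ u) (X *ᵥ v) z + sd (X *ᵥ v) (X *ᵥ w) z + sd (X *ᵥ w) (X *ᵥ u) z +
    sg ((dt u v * dt v w * dt w u : ℤ) : ℝ)

theorem kap_act {g : M2} (hg : g.det = 1) (u v w : V2) (z : ℍ) (X : M2) :
    kap u v w (act g z) (g * X) = kap u v w z X := by
  have hg' : 0 < g.det := by rw [hg]; exact one_pos
  unfold kap
  simp only [← mulVec_mulVec, sd_act hg']

/-- Triangle computation. -/
theorem triangle {a b c : V2} (h1 : dt a b ≠ 0) (h2 : dt b c ≠ 0) (h3 : dt c a ≠ 0) (z : ℍ)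
    (hk : sd a b z + sd b c z + sd c a z + sg ((dt a b * dt b c * dt c a : ℤ) : ℝ) ≠ 0) {ε : ℝ}
    (hε : 0 < ε) (ha : ε ≤ nr a z.re z.im) (hb : ε ≤ nr b z.re z.im) (hc : ε ≤ nr c z.re z.im) :
    nr a z.re z.im ≤ 2 * (((dt a b * dt b c * dt c a : ℤ) : ℝ) * z.im) ^ 2 / ε ∧
    nr b z.re z.im ≤ 2 * (((dt a b * dt b c * dt c a : ℤ) : ℝ) * z.im) ^ 2 / ε := by
  -- notation
  set x := z.re
  set y := z.im with hy
  set D1 : ℝ := ((dt a b : ℤ) : ℝ) with hD1
  set D2 : ℝ := ((dt b c : ℤ) : ℝ) with hD2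
  set D3 : ℝ := ((dt c a : ℤ) : ℝ) with hD3
  have e1 : D1 ≠ 0 := by rw [hD1]; exact_mod_cast h1
  have e2 : D2 ≠ 0 := by rw [hD2]; exact_mod_cast h2
  have e3 : D3 ≠ 0 := by rw [hD3]; exact_mod_cast h3
  have s1 : 1 ≤ D1 ^ 2 := by
    have : (1 : ℤ) ≤ (dt a b) ^ 2 := by have := sq_pos_of_ne_zero h1; omega
    rw [hD1]; exact_mod_cast this
  have s2 : 1 ≤ D2 ^ 2 := by
    have : (1 : ℤ) ≤ (dt b c) ^ 2 := by have := sq_pos_of_ne_zero h2; omega
    rw [hD2]; exact_mod_cast this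
  have s3 : 1 ≤ D3 ^ 2 := by
    have : (1 : ℤ) ≤ (dt c a) ^ 2 := by have := sq_pos_of_ne_zero h3; omega
    rw [hD3]; exact_mod_cast this
  have hcast : ((dt a b * dt b c * dt c a : ℤ) : ℝ) = D1 * D2 * D3 := by push_cast; rfl
  rw [hcast] at hk ⊢
  set K := D1 * D2 * D3 with hK
  have hK0 : K ≠ 0 := mul_ne_zero (mul_ne_zero e1 e2) e3
  -- the three inner products
  set A1 : ℝ := -(D3 * D1 * qr b c x y) with hA1
  set A2 : ℝ := -(D1 * D2 * qr c a x y) with hA2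
  set A3 : ℝ := -(D2 * D3 * qr a b x y) with hA3
  have r1 : A2 + A3 = D2 ^ 2 * nr a x y := by
    rw [hA2, hA3, hD1, hD2, hD3]; unfold qr nr dt; push_cast; ring
  have r2 : A3 + A1 = D3 ^ 2 * nr b x y := by
    rw [hA1, hA3, hD1, hD2, hD3]; unfold qr nr dt; push_cast; ring
  have r3 : A1 + A2 = D1 ^ 2 * nr c x y := by
    rw [hA1, hA2, hD1, hD2, hD3]; unfold qr nr dt; push_cast; ring
  have r4 : A1 * A2 + A2 * A3 + A3 * A1 = (K * y) ^ 2 := by
    rw [hA1, hA2, hA3, hK, hD1, hD2, hD3]; unfold qr dt; push_cast; ring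
  have l1 : ε ≤ A2 + A3 := by
    rw [r1]; exact ha.trans (le_mul_of_one_le_left (nr_nonneg _ _ _) s2)
  have l2 : ε ≤ A3 + A1 := by
    rw [r2]; exact hb.trans (le_mul_of_one_le_left (nr_nonneg _ _ _) s3)
  have l3 : ε ≤ A1 + A2 := by
    rw [r3]; exact hc.trans (le_mul_of_one_le_left (nr_nonneg _ _ _) s1)
  -- signs
  have t1 : sd a b z = sg (-(K) * A3) := by
    unfold sd
    have : -(K) * A3 = (D2 * D3) ^ 2 * (D1 * qr a b x y) := by rw [hK, hA3]; ring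
    rw [this]
    exact (sg_mul_pos (by have := mul_ne_zero e2 e3; positivity)).symm
  have t2 : sd b c z = sg (-(K) * A1) := by
    unfold sd
    have : -(K) * A1 = (D3 * D1) ^ 2 * (D2 * qr b c x y) := by rw [hK, hA1]; ring
    rw [this]
    exact (sg_mul_pos (by have := mul_ne_zero e3 e1; positivity)).symm
  have t3 : sd c a z = sg (-(K) * A2) := by
    unfold sd
    have : -(K) * A2 = (D1 * D2) ^ 2 * (D3 * qr c a x y) := by rw [hK, hA2]; ring
    rw [this]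
    exact (sg_mul_pos (by have := mul_ne_zero e1 e2; positivity)).symm
  rw [t1, t2, t3] at hk
  -- all `A i` are nonnegative
  have hsK : ∀ A : ℝ, 0 < A → sg (-(K) * A) = -sg K := by
    intro A hA
    have : -(K) * A = A * (-K) := by ring
    rw [this, sg_mul_pos hA, sg_neg']
  have hsK' : ∀ A : ℝ, A < 0 → sg (-(K) * A) = sg K := by
    intro A hA
    have : -(K) * A = (-A) * K := by ring
    rw [this, sg_mul_pos (by linarith)]
  have n1 : 0 ≤ A1 := by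
    by_contra h
    push Not at h
    rw [hsK' A1 h, hsK A2 (by linarith), hsK A3 (by linarith)] at hk
    apply hk; ring
  have n2 : 0 ≤ A2 := by
    by_contra h
    push Not at h
    rw [hsK' A2 h, hsK A1 (by linarith), hsK A3 (by linarith)] at hk
    apply hk; ring
  have n3 : 0 ≤ A3 := by
    by_contra h
    push Not at h
    rw [hsK' A3 h, hsK A1 (by linarith), hsK A2 (by linarith)] at hk
    apply hk; ring
  have b1 : A1 * ε ≤ (K * y) ^ 2 := by
    have h1 := mul_le_mul_of_nonneg_left l1 n1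
    have h2 := mul_nonneg n2 n3
    have h3 : A1 * (A2 + A3) = A1 * A2 + A3 * A1 := by ring
    rw [h3] at h1
    linarith
  have b2 : A2 * ε ≤ (K * y) ^ 2 := by
    have h1 := mul_le_mul_of_nonneg_left l2 n2
    have h2 := mul_nonneg n3 n1
    have h3 : A2 * (A3 + A1) = A2 * A3 + A1 * A2 := by ring
    rw [h3] at h1
    linarith
  have b3 : A3 * ε ≤ (K * y) ^ 2 := by
    have h1 := mul_le_mul_of_nonneg_left l3 n3
    have h2 := mul_nonneg n1 n2
    have h3 : A3 * (A1 + A2) = A3 * A1 + A2 * A3 := by ring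
    rw [h3] at h1
    linarith
  have c1 : nr a x y ≤ A2 + A3 := by
    rw [r1]; exact le_mul_of_one_le_left (nr_nonneg _ _ _) s2
  have c2 : nr b x y ≤ A3 + A1 := by
    rw [r2]; exact le_mul_of_one_le_left (nr_nonneg _ _ _) s3
  constructor
  · rw [le_div_iff₀ hε]
    have h1 := mul_le_mul_of_nonneg_right c1 hε.le
    have h2 : (A2 + A3) * ε = A2 * ε + A3 * ε := by ring
    rw [h2] at h1
    linarith
  · rw [le_div_iff₀ hε]
    have h1 := mul_le_mul_of_nonneg_right c2 hε.le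
    have h2 : (A3 + A1) * ε = A3 * ε + A1 * ε := by ring
    rw [h2] at h1
    linarith

theorem finite_kap {u v w : V2} (h1 : dt u v ≠ 0) (h2 : dt v w ≠ 0) (h3 : dt w u ≠ 0) (z : ℍ) :
    {X : M2 | X.det = 1 ∧ kap u v w z X ≠ 0}.Finite := by
  have hu : u ≠ 0 := by rintro rfl; exact h1 (by simp [dt])
  have hv : v ≠ 0 := by rintro rfl; exact h1 (by simp [dt])
  have hw : w ≠ 0 := by rintro rfl; exact h2 (by simp [dt])
  set ε : ℝ := min 1 (z.im ^ 2) with hε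
  have hε0 : 0 < ε := lt_min one_pos (by have := z.im_pos; positivity)
  set B : ℝ := 2 * (((dt u v * dt v w * dt w u : ℤ) : ℝ) * z.im) ^ 2 / ε with hB
  have hF := finite_nr z.im |z.re| B z.im_pos
  refine Set.Finite.of_finite_image (f := fun X : M2 => (X *ᵥ u, X *ᵥ v)) ?_ ?_
  · refine (hF.prod hF).subset ?_
    rintro _ ⟨X, ⟨hXD, hX⟩, rfl⟩
    have hXdet : X.det ≠ 0 := by rw [hXD]; exact one_ne_zero
    have hd : ∀ a b : V2, dt (X *ᵥ a) (X *ᵥ b) = dt a b := fun a b => by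
      rw [dt_mulVec, hXD, one_mul]
    have hX' : sd (X *ᵥ u) (X *ᵥ v) z + sd (X *ᵥ v) (X *ᵥ w) z + sd (X *ᵥ w) (X *ᵥ u) z +
        sg ((dt (X *ᵥ u) (X *ᵥ v) * dt (X *ᵥ v) (X *ᵥ w) * dt (X *ᵥ w) (X *ᵥ u) : ℤ) : ℝ) ≠ 0 := by
      rw [hd, hd, hd]; exact hX
    have key := triangle (by rwa [hd]) (by rwa [hd]) (by rwa [hd]) z hX' hε0
      (nr_lower (mulVec_ne_zero_of_det hXdet hu) z.re z.im z.im_pos le_rfl)
      (nr_lower (mulVec_ne_zero_of_det hXdet hv) z.re z.im z.im_pos le_rfl)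
      (nr_lower (mulVec_ne_zero_of_det hXdet hw) z.re z.im z.im_pos le_rfl)
    rw [hd, hd, hd] at key
    exact ⟨⟨z.re, z.im, le_rfl, le_rfl, key.1⟩, ⟨z.re, z.im, le_rfl, le_rfl, key.2⟩⟩
  · intro X _ Y _ h
    rw [Prod.mk.injEq] at h
    exact mulVec_pair_injective h1 h.1 h.2

end Fermat.Agent.Ihara
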