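import Fermat.Agent.Ihara.Hecke
import Fermat.Agent.Ihara.Arith

set_option autoImplicit false

/-!
# The key identity
-/

open CongruenceSubgroup
open scoped MatrixGroups

namespace Fermat.Agent.Ihara

open Fermat.Agent.Top

variable {N : ℕ} {k : Type*} [Field k]

/-- Consequence of the unit relation: `φ(ℓc, d - jc)` does not depend on `j`. -/
theorem Glue.phi_sub {q ℓ : ℕ} (hℓ : ℓ.Prime) (hℓk : (ℓ : k) ≠ 0)
    {a b : Additive (Gamma0 N) →+ k} (hq : IsCoprime (q : ℤ) (N : ℤ))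
    (h : Glue (q : ℤ) a b) (ha : Unip a) (hb : Unip b) {c K g : ℕ} (hc : N ∣ c)
    (hg : q ^ (2 * K) = 1 + ℓ * c * g) (hgℓ : ¬ ℓ ∣ g) {d : ℤ}
    (hcd : IsCoprime ((ℓ * c : ℕ) : ℤ) d) (hcq : IsCoprime ((ℓ * c : ℕ) : ℤ) (q : ℤ)) (j : ℤ) :
    phi a ((ℓ : ℤ) * ((ℓ : ℤ) * c)) (d - j * ((ℓ : ℤ) * c)) =
      phi a ((ℓ : ℤ) * ((ℓ : ℤ) * c)) d := by
  obtain ⟨κ, hκ⟩ := h.exists_phi_pow hq ha hb
  obtain ⟨C, hC⟩ : ∃ C : ℤ, C = (ℓ : ℤ) * c := ⟨_, rfl⟩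
  have hcd' : IsCoprime C d := by rw [hC]; exact_mod_cast hcd
  have hcq' : IsCoprime C (q : ℤ) := by rw [hC]; exact_mod_cast hcq
  have hℓd : IsCoprime (ℓ : ℤ) d := hcd'.of_isCoprime_of_dvd_left ⟨c, hC⟩
  have hℓq : IsCoprime (ℓ : ℤ) (q : ℤ) := hcq'.of_isCoprime_of_dvd_left ⟨c, hC⟩
  have hNC : (N : ℤ) ∣ (ℓ : ℤ) * C := by
    rw [hC]
    exact Dvd.dvd.mul_left (Dvd.dvd.mul_left (by exact_mod_cast hc) _) _
  have hC1 : IsCoprime ((ℓ : ℤ) * C) d := hℓd.mul_left hcd'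
  have hC2 : IsCoprime ((ℓ : ℤ) * C) (q : ℤ) := hℓq.mul_left hcq'
  have hgZ : (q : ℤ) ^ (2 * K) = 1 + C * g := by
    rw [hC]; exact_mod_cast hg
  rw [← hC]
  -- the iteration
  have key : ∀ i : ℕ, phi a ((ℓ : ℤ) * C) (d + i * (C * (g * d))) =
      phi a ((ℓ : ℤ) * C) d + (i * K) • κ := by
    intro i
    have h1 := hκ ((ℓ : ℤ) * C) d hNC hC2 hC1 (i * K)
    rw [← h1]
    refine (ha.phi_congr_right hNC ?_ ?_).symm
    · -- coprimality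
      have h2 : IsCoprime (C * ℓ) (d + C * (i * (g * d))) := by
        refine IsCoprime.mul_left ?_ ?_
        · exact hcd'.add_mul_left_right _
        · have : d + C * (i * (g * d)) = d + (ℓ : ℤ) * (c * (i * (g * d))) := by rw [hC]; ring
          rw [this]
          exact hℓd.add_mul_left_right _
      convert h2 using 1 <;> ring
    · have h3 : (q : ℤ) ^ (2 * (i * K)) = (1 + C * g) ^ i := by
        rw [← hgZ, ← pow_mul]; ring_nf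
      rw [h3]
      have h4 : (C * g) * (C * g) ∣ (1 + C * g) ^ i - (1 + i * (C * g)) := by
        clear h1 h3
        induction i with
        | zero => simp
        | succ i ih =>
          obtain ⟨w, hw⟩ := ih
          refine ⟨w * (1 + C * g) + i, ?_⟩
          rw [pow_succ]
          push_cast
          linear_combination (1 + C * g) * hw
      obtain ⟨w, hw⟩ := h4
      refine ⟨c * g * g * w * d, ?_⟩
      rw [hC] at hw ⊢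
      linear_combination d * hw
  -- the constant vanishes
  have hκ0 : (K : ℕ) • κ = 0 := by
    have h1 := key ℓ
    have h2 : phi a ((ℓ : ℤ) * C) (d + ((ℓ : ℕ) : ℤ) * (C * (g * d))) =
        phi a ((ℓ : ℤ) * C) d := by
      refine ha.phi_congr_right hNC hC1 ⟨g * d, by ring⟩
    rw [h2] at h1
    have h3 := (left_eq_add.mp h1)
    rw [mul_smul, nsmul_eq_mul] at h3
    exact (mul_eq_zero.mp h3).resolve_left hℓk
  have key' : ∀ i : ℕ, phi a ((ℓ : ℤ) * C) (d + i * (C * (g * d))) = phi a ((ℓ : ℤ) * C) d := by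
    intro i
    rw [key i, mul_smul, hκ0, smul_zero, add_zero]
  -- choose `i` with `i g d ≡ -j` modulo `ℓ`
  have hgd : IsCoprime (g * d : ℤ) (ℓ : ℤ) := by
    refine IsCoprime.mul_left ?_ hℓd.symm
    exact (Nat.isCoprime_iff_coprime.mpr ((Nat.Prime.coprime_iff_not_dvd hℓ).mpr hgℓ)).symm
  obtain ⟨u, v, huv⟩ := hgd
  obtain ⟨i, hi⟩ : ∃ i : ℕ, (i : ℤ) = (-j * u) % ℓ :=
    ⟨((-j * u) % ℓ).toNat, Int.toNat_of_nonneg (Int.emod_nonneg _ (by exact_mod_cast hℓ.ne_zero))⟩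
  have hi' : (ℓ : ℤ) ∣ i - (-j * u) := by
    rw [hi, Int.emod_def]
    exact ⟨-((-j * u) / ℓ), by ring⟩
  obtain ⟨w, hw⟩ := hi'
  rw [← key' i]
  refine (ha.phi_congr_right hNC ?_ ?_)
  · have h2 : IsCoprime (C * ℓ) (d + C * (i * (g * d))) := by
      refine IsCoprime.mul_left ?_ ?_
      · exact hcd'.add_mul_left_right _
      · have : d + C * (i * (g * d)) = d + (ℓ : ℤ) * (c * (i * (g * d))) := by rw [hC]; ring
        rw [this]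
        exact hℓd.add_mul_left_right _
    convert h2 using 1 <;> ring
  · refine ⟨-(w * (g * d) + j * v), ?_⟩
    linear_combination (-C * (g * d)) * hw + j * C * huv

/-- `phi` as a function on `(ℤ/d)ˣ`. -/
noncomputable def Fd (a : Additive (Gamma0 N) →+ k) (d : ℤ) (hNd : Nat.Coprime N d.natAbs)
    (x : (ZMod d.natAbs)ˣ) : k :=
  phi a (N * (((ZMod.unitOfCoprime N hNd)⁻¹ * x : (ZMod d.natAbs)ˣ) : ZMod d.natAbs).val) d

theorem isCoprime_of_cast {d c : ℤ} (x : (ZMod d.natAbs)ˣ) (h : (c : ZMod d.natAbs) = x) :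
    IsCoprime c d := by
  have h1 : IsUnit (c : ZMod d.natAbs) := by rw [h]; exact x.isUnit
  have h2 := (ZMod.coe_int_isUnit_iff_isCoprime c d.natAbs).mp h1
  rw [Int.natCast_natAbs] at h2
  rcases abs_choice d with h3 | h3
  · rw [h3] at h2; exact h2.symm
  · rw [h3] at h2; exact (IsCoprime.neg_left_iff _ _).mp h2 |>.symm

theorem Unip.phi_eq_Fd {a : Additive (Gamma0 N) →+ k} (ha : Unip a) {d : ℤ} (hd : d ≠ 0)
    (hNd : Nat.Coprime N d.natAbs) (x : (ZMod d.natAbs)ˣ) {c : ℤ} (hc : (N : ℤ) ∣ c)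
    (hx : (c : ZMod d.natAbs) = x) : phi a c d = Fd a d hNd x := by
  have : NeZero d.natAbs := ⟨Int.natAbs_ne_zero.mpr hd⟩
  rw [Fd]
  obtain ⟨c', hc'⟩ : ∃ c' : ℤ, c' = N * (((ZMod.unitOfCoprime N hNd)⁻¹ * x : (ZMod d.natAbs)ˣ) :
    ZMod d.natAbs).val := ⟨_, rfl⟩
  have hx' : (c' : ZMod d.natAbs) = x := by
    rw [hc']
    push_cast
    rw [ZMod.natCast_zmod_val]
    have h9 : ZMod.unitOfCoprime N hNd * ((ZMod.unitOfCoprime N hNd)⁻¹ * x) = x :=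
      mul_inv_cancel_left _ _
    have h10 := congrArg Units.val h9
    rw [Units.val_mul, ZMod.coe_unitOfCoprime] at h10
    exact h10
  rw [← hc']
  refine ha.phi_congr_left (hc' ▸ dvd_mul_right _ _) hc (isCoprime_of_cast x hx') ?_
  have h1 : ((c - c' : ℤ) : ZMod d.natAbs) = 0 := by
    push_cast
    rw [hx, hx', sub_self]
  rw [ZMod.intCast_zmod_eq_zero_iff_dvd] at h1
  exact Int.natAbs_dvd.mp h1

/-- `T_ℓ` preserves the property of vanishing on the standard unipotent elements. -/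
theorem Unip.hop (ℓ : Nat.Primes) (hℓN : ¬ (ℓ : ℕ) ∣ N) (hℓk : ((ℓ : ℕ) : k) ≠ 0)
    {a : Additive (Gamma0 N) →+ k} (ha : Unip a) : Unip (Top.hop N ℓ a) := by
  constructor
  · rw [ev_hop_tr ℓ hℓN hℓk, ha.tr1, mul_zero]
  · rw [ev_hop_lo ℓ hℓN hℓk, ha.lo1, mul_zero]

/-- **Key identity**, general form. -/
theorem Glue.key' {q : ℕ} (hq : q.Prime) (hqN : ¬ q ∣ N) (hN : N ≠ 0) (ℓ : Nat.Primes)
    (hℓN : ¬ (ℓ : ℕ) ∣ N) (hℓ2 : (ℓ : ℕ) ≠ 2) (hℓq : (ℓ : ℕ) ≠ q) (hℓk : ((ℓ : ℕ) : k) ≠ 0)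
    {a b : Additive (Gamma0 N) →+ k} (h : Glue (q : ℤ) a b) (ha : Unip a) (hb : Unip b)
    {d : ℤ} (hd : d ≠ 0)
    (hNd : Nat.Coprime N d.natAbs) (hℓd : Nat.Coprime ℓ d.natAbs) (x : (ZMod d.natAbs)ˣ) :
    Fd (Top.hop N ℓ a) d hNd x = Fd a d hNd ((ZMod.unitOfCoprime _ hℓd)⁻¹ * x) +
      ((ℓ : ℕ) : k) * Fd a d hNd (ZMod.unitOfCoprime _ hℓd * x) := by
  have hn : d.natAbs ≠ 0 := Int.natAbs_ne_zero.mpr hd
  have hqN' : IsCoprime (q : ℤ) (N : ℤ) :=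
    Nat.isCoprime_iff_coprime.mpr ((Nat.Prime.coprime_iff_not_dvd hq).mpr hqN)
  obtain ⟨c, K, g, h1, h2, h3, h4, h5, h6⟩ := exists_aux hN hq hqN ℓ.2 hℓ2 hℓN hℓq hn hℓd hNd x
  have hc : (N : ℤ) ∣ (c : ℤ) := by exact_mod_cast h1
  have hcd : IsCoprime (((ℓ : ℕ) * c : ℕ) : ℤ) d := by
    refine isCoprime_of_cast x ?_
    rw [← h2]; simp
  have hcd' : IsCoprime (((ℓ : ℕ) : ℤ) * (c : ℤ)) d := by exact_mod_cast hcd
  have hcq : IsCoprime (((ℓ : ℕ) * c : ℕ) : ℤ) (q : ℤ) := Nat.isCoprime_iff_coprime.mpr h6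
  have hx1 : ((((ℓ : ℕ) : ℤ) * (c : ℤ) : ℤ) : ZMod d.natAbs) = x := by
    rw [← h2]; push_cast; rfl
  obtain ⟨γ, hγ0, hγ1⟩ := exists_row (N := N) (c := ((ℓ : ℕ) : ℤ) * (c : ℤ)) (hc.mul_left _) hcd'
  have h7 := ha.phi_hop ℓ hℓN γ c d hγ0 hγ1
  have hTa := ha.hop ℓ hℓN hℓk
  rw [← hTa.phi_eq γ hγ0 hγ1] at h7
  have h8 : ∀ j : Fin ℓ, phi a (((ℓ : ℕ) : ℤ) * (((ℓ : ℕ) : ℤ) * c))
      (d - ((j : ℕ) : ℤ) * (((ℓ : ℕ) : ℤ) * c)) =
      phi a (((ℓ : ℕ) : ℤ) * (((ℓ : ℕ) : ℤ) * c)) d := fun j =>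
    h.phi_sub ℓ.2 hℓk hqN' ha hb h1 h3 h4 hcd hcq ((j : ℕ) : ℤ)
  simp only [h8, Finset.sum_const, Finset.card_univ, Fintype.card_fin, nsmul_eq_mul] at h7
  have e1 : phi (Top.hop N ℓ a) (((ℓ : ℕ) : ℤ) * (c : ℤ)) d = Fd (Top.hop N ℓ a) d hNd x :=
    hTa.phi_eq_Fd hd hNd x (hc.mul_left _) hx1
  have e2 : phi a (((ℓ : ℕ) : ℤ) * (((ℓ : ℕ) : ℤ) * c)) d =
      Fd a d hNd (ZMod.unitOfCoprime _ hℓd * x) := by
    refine ha.phi_eq_Fd hd hNd _ ((hc.mul_left _).mul_left _) ?_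
    rw [Int.cast_mul, hx1, Units.val_mul, ZMod.coe_unitOfCoprime]
    simp
  have e3 : phi a (c : ℤ) d = Fd a d hNd ((ZMod.unitOfCoprime _ hℓd)⁻¹ * x) := by
    refine ha.phi_eq_Fd hd hNd _ hc ?_
    have h9 : x = ZMod.unitOfCoprime _ hℓd * ((ZMod.unitOfCoprime _ hℓd)⁻¹ * x) := by
      rw [mul_inv_cancel_left]
    have h10 : (ZMod.unitOfCoprime _ hℓd : ZMod d.natAbs) * ((c : ℤ) : ZMod d.natAbs) =
        (ZMod.unitOfCoprime _ hℓd : ZMod d.natAbs) *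
          (((ZMod.unitOfCoprime _ hℓd)⁻¹ * x : (ZMod d.natAbs)ˣ) : ZMod d.natAbs) := by
      rw [← Units.val_mul, ← h9, ← hx1, ZMod.coe_unitOfCoprime]
      push_cast; rfl
    exact (Units.mul_right_inj _).mp h10
  rw [e1, e2, e3] at h7
  rw [h7]; ring

/-- `hop` for eigenvectors. -/
theorem Fd_hop_of_eigen {lam : k} {a : Additive (Gamma0 N) →+ k} {ℓ : Nat.Primes}
    (hlam : ∀ γ, ev (Top.hop N ℓ a) γ = lam * ev a γ) {d : ℤ} (hNd : Nat.Coprime N d.natAbs)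
    (x : (ZMod d.natAbs)ˣ) (ha : Unip a) (ha' : Unip (Top.hop N ℓ a)) (hd : d ≠ 0) :
    Fd (Top.hop N ℓ a) d hNd x = lam * Fd a d hNd x := by
  have : NeZero d.natAbs := ⟨Int.natAbs_ne_zero.mpr hd⟩
  obtain ⟨c', hc'⟩ : ∃ c' : ℤ, c' = N * (((ZMod.unitOfCoprime N hNd)⁻¹ * x : (ZMod d.natAbs)ˣ) :
    ZMod d.natAbs).val := ⟨_, rfl⟩
  have hx' : (c' : ZMod d.natAbs) = x := by
    rw [hc']
    push_cast
    rw [ZMod.natCast_zmod_val]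
    have h9 : ZMod.unitOfCoprime N hNd * ((ZMod.unitOfCoprime N hNd)⁻¹ * x) = x :=
      mul_inv_cancel_left _ _
    have h10 := congrArg Units.val h9
    rw [Units.val_mul, ZMod.coe_unitOfCoprime] at h10
    exact h10
  have hdvd : (N : ℤ) ∣ c' := hc' ▸ dvd_mul_right _ _
  obtain ⟨γ, h0, h1⟩ := exists_row (N := N) hdvd (isCoprime_of_cast x hx')
  rw [← ha'.phi_eq_Fd hd hNd x hdvd hx', ← ha.phi_eq_Fd hd hNd x hdvd hx', ha'.phi_eq γ h0 h1,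
    ha.phi_eq γ h0 h1, hlam]

/-- **Key identity.** -/
theorem Glue.key {q : ℕ} (hq : q.Prime) (hqN : ¬ q ∣ N) (hN : N ≠ 0) (ℓ : Nat.Primes)
    (hℓN : ¬ (ℓ : ℕ) ∣ N) (hℓ2 : (ℓ : ℕ) ≠ 2) (hℓq : (ℓ : ℕ) ≠ q) (hℓk : ((ℓ : ℕ) : k) ≠ 0)
    {a b : Additive (Gamma0 N) →+ k} (h : Glue (q : ℤ) a b) (ha : Unip a) (hb : Unip b)
    {lam : k} (hlam : ∀ γ, ev (Top.hop N ℓ a) γ = lam * ev a γ) {d : ℤ} (hd : d ≠ 0)
    (hNd : Nat.Coprime N d.natAbs) (hℓd : Nat.Coprime ℓ d.natAbs) (x : (ZMod d.natAbs)ˣ) :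
    lam * Fd a d hNd x = Fd a d hNd ((ZMod.unitOfCoprime _ hℓd)⁻¹ * x) +
      ((ℓ : ℕ) : k) * Fd a d hNd (ZMod.unitOfCoprime _ hℓd * x) := by
  rw [← h.key' hq hqN hN ℓ hℓN hℓ2 hℓq hℓk ha hb hd hNd hℓd x,
    Fd_hop_of_eigen hlam hNd x ha (ha.hop ℓ hℓN hℓk) hd]

end Fermat.Agent.Ihara
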