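import Fermat.Agent.Ihara.Key

set_option autoImplicit false

/-!
# Ihara's lemma

A pair `(a, b)` of homomorphisms `Γ₀(N) → k` gluing along `Γ₀(Nq)` which is an eigenvector of
almost all `T_ℓ` has Eisenstein eigenvalues.
-/

open CongruenceSubgroup
open scoped MatrixGroups

namespace Fermat.Agent.Ihara

open Fermat.Agent.Top

/-- Eisenstein systems of eigenvalues. -/
def IsEis {k : Type*} [Field k] (lam : ℕ → k) : Prop :=
  ∃ n : ℕ, n ≠ 0 ∧ ∃ (ψ : (ZMod n)ˣ →* kˣ) (S : Finset ℕ), ∀ ℓ : ℕ, ℓ.Prime → ℓ ∉ S →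
    ∀ h : ℓ.Coprime n, lam ℓ = ((ψ (ZMod.unitOfCoprime ℓ h))⁻¹ : kˣ) +
      (ℓ : k) * (ψ (ZMod.unitOfCoprime ℓ h) : kˣ)

/-- A linear relation between the translates of a nonzero function is satisfied by a character. -/
theorem exists_character {G k : Type*} [CommGroup G] [Finite G] [Field k] [IsAlgClosed k]
    (F : G → k) (hF : F ≠ 0) : ∃ χ : G →* kˣ, ∀ (g : G) (lam c : k),
      (∀ x, lam * F x = F (g⁻¹ * x) + c * F (g * x)) → lam = ((χ g)⁻¹ : kˣ) + c * (χ g : kˣ) := by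
  classical
  let T : G →* Module.End k (G → k) :=
    { toFun := fun g => LinearMap.funLeft k k (fun x => g * x)
      map_one' := by
        ext f x
        simp [LinearMap.funLeft]
      map_mul' := fun g h => by
        apply LinearMap.ext
        intro f
        funext x
        change f (g * h * x) = f (h * (g * x))
        rw [mul_comm g h, mul_assoc] }
  let φ : MonoidAlgebra k G →ₐ[k] Module.End k (G → k) := MonoidAlgebra.lift k _ G T
  let I : Ideal (MonoidAlgebra k G) :=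
    { carrier := {c | φ c F = 0}
      add_mem' := fun {a b} ha hb => by
        change φ (a + b) F = 0
        rw [map_add, LinearMap.add_apply, show φ a F = 0 from ha, show φ b F = 0 from hb, add_zero]
      zero_mem' := by
        change φ 0 F = 0
        rw [map_zero, LinearMap.zero_apply]
      smul_mem' := fun c a ha => by
        change φ (c * a) F = 0
        rw [map_mul, Module.End.mul_apply, show φ a F = 0 from ha, map_zero] }
  have hI : I ≠ ⊤ := by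
    intro h
    have h1 : (1 : MonoidAlgebra k G) ∈ I := by rw [h]; trivial
    have h2 : φ 1 F = 0 := h1
    rw [map_one, Module.End.one_apply] at h2
    exact hF h2
  obtain ⟨M, hM, hIM⟩ := Ideal.exists_le_maximal I hI
  have : Module.Finite k (MonoidAlgebra k G) := inferInstance
  have hfin : Module.Finite k (MonoidAlgebra k G ⧸ M) := inferInstance
  let _ : Field (MonoidAlgebra k G ⧸ M) := Ideal.Quotient.field M
  have hbij : Function.Bijective (algebraMap k (MonoidAlgebra k G ⧸ M)) :=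
    IsAlgClosed.algebraMap_bijective_of_isIntegral
  let e : (MonoidAlgebra k G ⧸ M) ≃ₐ[k] k := (AlgEquiv.ofBijective (Algebra.ofId k _) hbij).symm
  let χ : MonoidAlgebra k G →ₐ[k] k := e.toAlgHom.comp (Ideal.Quotient.mkₐ k M)
  have hχ : ∀ c ∈ I, χ c = 0 := by
    intro c hc
    change e (Ideal.Quotient.mk M c) = 0
    rw [Ideal.Quotient.eq_zero_iff_mem.mpr (hIM hc), map_zero]
  let χ0 : G →* k := χ.toMonoidHom.comp (MonoidAlgebra.of k G)
  refine ⟨χ0.toHomUnits, fun g lam c h => ?_⟩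
  have hmem : (algebraMap k (MonoidAlgebra k G) lam - MonoidAlgebra.of k G g⁻¹ -
      algebraMap k (MonoidAlgebra k G) c * MonoidAlgebra.of k G g) ∈ I := by
    change φ _ F = 0
    have h1 : ∀ g : G, φ (MonoidAlgebra.of k G g) = T g := fun g => MonoidAlgebra.lift_of T g
    rw [map_sub, map_sub, map_mul, h1, h1, AlgHom.commutes, AlgHom.commutes]
    funext x
    have := h x
    change lam * F x - F (g⁻¹ * x) - c * F (g * x) = 0
    rw [this]; ring
  have h2 := hχ _ hmem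
  rw [map_sub, map_sub, map_mul, AlgHom.commutes, AlgHom.commutes] at h2
  have h3 : ∀ g : G, χ (MonoidAlgebra.of k G g) = ((χ0.toHomUnits g : kˣ) : k) := fun g => rfl
  rw [h3, h3, map_inv] at h2
  change lam - _ - c * _ = 0 at h2
  linear_combination h2

variable {N : ℕ} {k : Type*} [Field k]

theorem isEis_of_one {lam : ℕ → k} (S : Finset ℕ)
    (h : ∀ ℓ : ℕ, ℓ.Prime → ℓ ∉ S → lam ℓ = ℓ + 1) : IsEis lam := by
  refine ⟨1, one_ne_zero, 1, S, fun ℓ hℓ hS hc => ?_⟩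
  rw [h ℓ hℓ hS]
  simp [add_comm]

theorem exists_row_ne {a : Additive (Gamma0 N) →+ k} (ha : Unip a) (h : a ≠ 0) :
    ∃ c d : ℤ, (N : ℤ) ∣ c ∧ IsCoprime c d ∧ d ≠ 0 ∧ phi a c d ≠ 0 := by
  obtain ⟨γ, hγ⟩ : ∃ γ : Gamma0 N, ev a γ ≠ 0 := by
    obtain ⟨x, hx⟩ := DFunLike.ne_iff.mp h
    exact ⟨x.toMul, hx⟩
  by_cases hd : en γ 1 1 = 0
  · have h1 : ev a (γ * tr N 1) ≠ 0 := by
      rw [ev_mul, ha.ev_tr, add_zero]; exact hγ
    have hdet := en_det γ
    rw [hd, mul_zero, zero_sub] at hdet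
    have h10 : en (γ * tr N 1) 1 0 = en γ 1 0 := by
      rw [en_mul]; simp [tr]
    have h11 : en (γ * tr N 1) 1 1 = en γ 1 0 := by
      rw [en_mul]; simp [tr, hd]
    refine ⟨en γ 1 0, en γ 1 0, dvd_en γ, ?_, ?_, ?_⟩
    · rw [isCoprime_self]
      exact IsUnit.of_mul_eq_one (-en γ 0 1) (by linear_combination hdet)
    · intro h0
      rw [h0] at hdet; simp at hdet
    · rw [ha.phi_eq (γ * tr N 1) h10 h11]; exact h1
  · refine ⟨en γ 1 0, en γ 1 1, dvd_en γ, ?_, hd, ?_⟩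
    · exact ⟨-en γ 0 1, en γ 0 0, by linear_combination en_det γ⟩
    · rw [ha.phi_eq γ rfl rfl]; exact hγ

/-- **Ihara's lemma** for eigenvectors. -/
theorem isEis_of_glue [IsAlgClosed k] (hN : N ≠ 0) {q : ℕ} (hq : q.Prime) (hqN : ¬ q ∣ N)
    {a b : Additive (Gamma0 N) →+ k} (h : Glue (q : ℤ) a b) (hab : a ≠ 0 ∨ b ≠ 0)
    {lam : ℕ → k} (S : Finset ℕ)
    (ha : ∀ ℓ : Nat.Primes, (ℓ : ℕ) ∉ S → ∀ γ, ev (hop N ℓ a) γ = lam ℓ * ev a γ)
    (hb : ∀ ℓ : Nat.Primes, (ℓ : ℕ) ∉ S → ∀ γ, ev (hop N ℓ b) γ = lam ℓ * ev b γ) :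
    IsEis lam := by
  classical
  -- the bad primes
  obtain ⟨S₀, hS₀⟩ : ∃ S₀ : Finset ℕ, ∀ ℓ : ℕ, ℓ.Prime → ℓ ∉ S₀ → ℓ ∉ S ∧ ¬ ℓ ∣ N ∧ ℓ ≠ 2 ∧
      ℓ ≠ q ∧ (ℓ : k) ≠ 0 := by
    refine ⟨S ∪ N.primeFactors ∪ {2, q, ringChar k}, fun ℓ hℓ h => ?_⟩
    simp only [Finset.mem_union, Finset.mem_insert, Finset.mem_singleton, not_or] at h
    obtain ⟨⟨h1, h2⟩, h3, h4, h5⟩ := h
    refine ⟨h1, fun hdvd => h2 (Nat.mem_primeFactors.mpr ⟨hℓ, hdvd, hN⟩), h3, h4, fun h0 => ?_⟩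
    have h6 := (ringChar.spec k ℓ).mp h0
    rcases (Nat.dvd_prime hℓ).mp h6 with h7 | h7
    · exact CharP.ringChar_ne_one h7
    · exact h5 h7.symm
  have key : ∀ {c : Additive (Gamma0 N) →+ k}, (∀ ℓ : Nat.Primes, (ℓ : ℕ) ∉ S → ∀ γ,
      ev (hop N ℓ c) γ = lam ℓ * ev c γ) → ¬ Unip c → IsEis lam := by
    intro c hc hu
    refine isEis_of_one S₀ fun ℓ hℓ hS => ?_
    obtain ⟨h1, h2, -, -, h5⟩ := hS₀ ℓ hℓ hS
    by_contra hne
    apply hu
    have e : ∀ γ : Gamma0 N, ev (hop N ⟨ℓ, hℓ⟩ c) γ = ((ℓ : k) + 1) * ev c γ → ev c γ = 0 := by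
      intro γ hγ
      rw [hc ⟨ℓ, hℓ⟩ h1] at hγ
      have : (lam ℓ - (ℓ + 1)) * ev c γ = 0 := by
        rw [sub_mul]; exact sub_eq_zero.mpr hγ
      exact (mul_eq_zero.mp this).resolve_left (sub_ne_zero.mpr hne)
    exact ⟨e _ (ev_hop_tr ⟨ℓ, hℓ⟩ h2 h5 c), e _ (ev_hop_lo ⟨ℓ, hℓ⟩ h2 h5 c)⟩
  by_cases ua : Unip a
  swap; · exact key ha ua
  by_cases ub : Unip b
  swap; · exact key hb ub
  have hqN' : IsCoprime (q : ℤ) (N : ℤ) :=
    Nat.isCoprime_iff_coprime.mpr ((Nat.Prime.coprime_iff_not_dvd hq).mpr hqN)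
  -- the main case
  have main : ∀ {a b : Additive (Gamma0 N) →+ k}, Glue (q : ℤ) a b → Unip a → Unip b → a ≠ 0 →
      (∀ ℓ : Nat.Primes, (ℓ : ℕ) ∉ S → ∀ γ, ev (hop N ℓ a) γ = lam ℓ * ev a γ) → IsEis lam := by
    intro a b h ua ub ha0 ha
    obtain ⟨c, d, hc, hcd, hd, hphi⟩ := exists_row_ne ua ha0
    have hNd : Nat.Coprime N d.natAbs := by
      have := hcd.of_isCoprime_of_dvd_left hc
      rw [Int.isCoprime_iff_gcd_eq_one] at this
      simpa [Int.gcd] using this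
    have hu : IsUnit (c : ZMod d.natAbs) := by
      rw [ZMod.coe_int_isUnit_iff_isCoprime, Int.natCast_natAbs]
      rcases abs_choice d with h3 | h3
      · rw [h3]; exact hcd.symm
      · rw [h3]; exact hcd.symm.neg_left
    obtain ⟨x, hx⟩ := hu
    have hF : Fd a d hNd ≠ 0 := by
      intro h0
      apply hphi
      rw [ua.phi_eq_Fd hd hNd x hc hx.symm, h0]; rfl
    have : NeZero d.natAbs := ⟨Int.natAbs_ne_zero.mpr hd⟩
    obtain ⟨χ, hχ⟩ := exists_character (Fd a d hNd) hF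
    refine ⟨d.natAbs, Int.natAbs_ne_zero.mpr hd, χ, S₀, fun ℓ hℓ hS hℓd => ?_⟩
    obtain ⟨h1, h2, h3, h4, h5⟩ := hS₀ ℓ hℓ hS
    exact hχ _ _ _ (fun x => h.key hq hqN hN ⟨ℓ, hℓ⟩ h2 h3 h4 h5 ua ub (ha ⟨ℓ, hℓ⟩ h1) hd hNd hℓd x)
  rcases hab with ha0 | hb0
  · exact main h ua ub ha0 ha
  · exact main (h.symm hqN') ub ua hb0 hb

end Fermat.Agent.Ihara
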