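import Fermat.Agent.Ihara.Cusp

set_option autoImplicit false

/-!
# Manin's trick; finiteness; functionals on integral modular symbols
-/

open CongruenceSubgroup
open scoped MatrixGroups

namespace Fermat.Agent.Ihara

open Fermat.Agent.Top Matrix

variable {N : ℕ} {A : Type*} [AddCommGroup A]

/-- The matrix of an element of `SL₂(ℤ)`. -/
abbrev sm (g : SL(2, ℤ)) : M2 := (g : Matrix (Fin 2) (Fin 2) ℤ)

/-- The value on a unimodular symbol. -/
def evg (f : V2 → V2 → A) (g : SL(2, ℤ)) : A := f (sm g *ᵥ e1) (sm g *ᵥ e2)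

theorem evg_gamma {f : V2 → V2 → A} (hf : IsSymb N f) (γ : Gamma0 N) (g : SL(2, ℤ)) :
    evg f ((γ : SL(2, ℤ)) * g) = evg f g := by
  unfold evg
  rw [sm, Matrix.SpecialLinearGroup.coe_mul]
  exact hf.left_inv e1 e2 γ (sm g)

/-- Manin's trick. -/
theorem eq_zero_of_evg {f : V2 → V2 → A} (hf : IsSymb N f) (h : ∀ g, evg f g = 0) : f = 0 := by
  have key : ∀ (n : ℕ) (x : V2), Prim x → (x 1).natAbs = n → f e1 x = 0 := by
    intro n
    induction n using Nat.strong_induction_on with
    | _ n ih =>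
    intro x hx hn
    rcases Nat.eq_zero_or_pos n with hn0 | hn0
    · -- `x = ± e₁`
      have hx1 : x 1 = 0 := by rw [← Int.natAbs_eq_zero, hn, hn0]
      have hx0 : x 0 = 1 ∨ x 0 = -1 := by
        have h1 : IsCoprime (x 0) (x 1) := hx
        rw [hx1, isCoprime_zero_right, Int.isUnit_iff] at h1
        exact h1
      rcases hx0 with h0 | h0
      · have : x = e1 := V2_ext (by rw [h0]; rfl) (by rw [hx1]; rfl)
        rw [this, hf.self]
      · have : x = -e1 := V2_ext (by rw [h0]; rfl) (by rw [hx1]; rfl)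
        rw [this, hf.neg_right, hf.self]
    · have hb0 : x 1 ≠ 0 := by
        intro h0
        rw [h0] at hn
        simp at hn
        omega
      obtain ⟨a, b, hab⟩ := id hx
      -- second column `(c, d)` with `x₀ d - c x₁ = 1`
      let d : ℤ := a % (x 1)
      let c : ℤ := -b - (a / (x 1)) * x 0
      have hd : d = a - x 1 * (a / x 1) := Int.emod_def _ _
      have hdet : x 0 * d - c * x 1 = 1 := by
        rw [hd]
        simp only [c]
        linear_combination hab
      have hdlt : d.natAbs < n := by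
        rw [← hn]
        have h1 := Int.emod_nonneg a hb0
        have h2 := Int.emod_lt_abs a hb0
        have h3 : ((a % x 1).natAbs : ℤ) < ((x 1).natAbs : ℤ) := by
          rw [Int.natAbs_of_nonneg h1, Int.natCast_natAbs]
          exact h2
        exact_mod_cast h3
      have hy : Prim ![c, d] := ⟨-x 1, x 0, by
        change -x 1 * c + x 0 * d = 1
        linear_combination hdet⟩
      have h1 := ih d.natAbs hdlt ![c, d] hy rfl
      have h2 := h ⟨!![x 0, c; x 1, d], by rw [Matrix.det_fin_two_of]; exact hdet⟩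
      have e1' : sm ⟨!![x 0, c; x 1, d], by rw [Matrix.det_fin_two_of]; exact hdet⟩ *ᵥ e1 = x := by
        apply V2_ext
        · rw [mulVec_0]; simp [e1]; rfl
        · rw [mulVec_1]; simp [e1]; rfl
      have e2' : sm ⟨!![x 0, c; x 1, d], by rw [Matrix.det_fin_two_of]; exact hdet⟩ *ᵥ e2 =
          ![c, d] := by
        apply V2_ext
        · rw [mulVec_0]; simp [e2]; rfl
        · rw [mulVec_1]; simp [e2]; rfl
      unfold evg at h2
      rw [e1', e2'] at h2
      rw [← hf.add e1 ![c, d] x e1_ne hy.ne hx.ne, h1, hf.anti, h2, neg_zero, add_zero]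
  have key' : ∀ x : V2, x ≠ 0 → f e1 x = 0 := by
    intro x hx
    obtain ⟨g, y, hg0, hy, hgy, -⟩ := exists_prim x hx
    rw [hgy, hf.smul_right _ _ _ (by exact_mod_cast hg0)]
    exact key _ y hy rfl
  funext u v
  change f u v = 0
  by_cases hu : u = 0
  · rw [hu, hf.zero_left]
  by_cases hv : v = 0
  · rw [hv, hf.zero_right]
  rw [← hf.sub_eq e1_ne hu hv, key' u hu, key' v hv, sub_zero]

/-! ### cosets -/

/-- The right cosets `Γ₀(N) g`. -/
abbrev Cos (N : ℕ) := Quotient (QuotientGroup.rightRel (Gamma0 N))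

instance finite_Cos (N : ℕ) [NeZero N] : Finite (Cos N) := by
  have h1 : Finite (SL(2, ℤ) ⧸ Gamma0 N) := Subgroup.finite_quotient_of_finiteIndex
  exact Finite.of_equiv _ (QuotientGroup.quotientRightRelEquivQuotientLeftRel (Gamma0 N)).symm

noncomputable instance (N : ℕ) [NeZero N] : Fintype (Cos N) := Fintype.ofFinite _

/-- The coset of an element. -/
def cos (N : ℕ) (g : SL(2, ℤ)) : Cos N := Quotient.mk (QuotientGroup.rightRel (Gamma0 N)) g

theorem cos_eq_iff {g g' : SL(2, ℤ)} :
    cos N g = cos N g' ↔ ∃ γ : Gamma0 N, g' = (γ : SL(2, ℤ)) * g := by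
  unfold cos
  rw [Quotient.eq (r := QuotientGroup.rightRel (Gamma0 N))]
  rw [QuotientGroup.rightRel_apply]
  constructor
  · intro h
    exact ⟨⟨_, h⟩, by simp⟩
  · rintro ⟨γ, rfl⟩
    simp

theorem cos_gamma (γ : Gamma0 N) (g : SL(2, ℤ)) : cos N ((γ : SL(2, ℤ)) * g) = cos N g :=
  (cos_eq_iff.mpr ⟨γ, rfl⟩).symm

theorem cos_out (c : Cos N) : cos N c.out = c := Quotient.out_eq c

/-- Evaluation at a coset. -/
noncomputable def evc (f : V2 → V2 → A) (c : Cos N) : A := evg f c.out

theorem evc_cos {f : V2 → V2 → A} (hf : IsSymb N f) (g : SL(2, ℤ)) :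
    evc f (cos N g) = evg f g := by
  obtain ⟨γ, hγ⟩ := cos_eq_iff.mp (cos_out (cos N g)).symm
  rw [evc, hγ, evg_gamma hf]

theorem eq_zero_of_evc {f : V2 → V2 → A} (hf : IsSymb N f) (h : ∀ c : Cos N, evc f c = 0) :
    f = 0 :=
  eq_zero_of_evg hf fun g => by rw [← evc_cos hf g, h]

/-- Evaluation at all cosets. -/
noncomputable def evcHom (N : ℕ) (A : Type*) [AddCommGroup A] : Symb N A →+ (Cos N → A) where
  toFun f := fun c => evc f.1 c
  map_zero' := rfl
  map_add' _ _ := rfl

theorem evcHom_injective : Function.Injective (evcHom N A) := by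
  rw [injective_iff_map_eq_zero]
  intro f hf
  exact Subtype.ext (eq_zero_of_evc f.2 fun c => congrFun hf c)

instance symb_finite (N : ℕ) [NeZero N] : Module.Finite ℤ (Symb N ℤ) :=
  Module.Finite.of_injective (evcHom N ℤ).toIntLinearMap evcHom_injective

instance symb_torsionFree (N : ℕ) : IsAddTorsionFree (Symb N ℤ) where
  nsmul_right_injective n hn f g h := by
    apply Subtype.ext
    funext u v
    have h1 := congrArg (fun x : Symb N ℤ => x.1 u v) h
    exact nsmul_right_injective hn h1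

/-- A symbol whose values are divisible by `n` is divisible by `n`. -/
theorem exists_eq_nsmul {n : ℕ} (hn : n ≠ 0) (f : Symb N ℤ)
    (h : ∀ u v, ((f u v : ℤ) : ZMod n) = 0) : ∃ g : Symb N ℤ, f = n • g := by
  have h' : ∀ u v, ∃ z : ℤ, f u v = n • z := by
    intro u v
    obtain ⟨z, hz⟩ := (ZMod.intCast_zmod_eq_zero_iff_dvd _ n).mp (h u v)
    exact ⟨z, by rw [nsmul_eq_mul]; exact hz⟩
  choose g hg using h'
  have hinj : ∀ {a b : ℤ}, n • a = n • b → a = b := fun h => nsmul_right_injective hn h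
  refine ⟨⟨g, ?_⟩, ?_⟩
  · constructor
    · intro v; apply hinj; rw [← hg, f.2.zero_left, smul_zero]
    · intro v; apply hinj; rw [← hg, f.2.zero_right, smul_zero]
    · intro u v w hu hv hw
      apply hinj; rw [smul_add, ← hg, ← hg, ← hg, f.2.add u v w hu hv hw]
    · intro m u v hm
      apply hinj; rw [← hg, ← hg, f.2.smul_left m u v hm]
    · intro γ u v
      apply hinj; rw [← hg, ← hg, f.2.inv]
  · apply Subtype.ext
    funext u v
    exact hg u v

/-- Values at cosets suffice. -/
theorem exists_eq_nsmul_of_evc {n : ℕ} (hn : n ≠ 0) (f : Symb N ℤ)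
    (h : ∀ c : Cos N, ((evc f.1 c : ℤ) : ZMod n) = 0) : ∃ g : Symb N ℤ, f = n • g := by
  refine exists_eq_nsmul hn f fun u v => ?_
  have h1 := f.2.map (Int.castAddHom (ZMod n))
  have h2 := eq_zero_of_evc h1 h
  exact congrFun (congrFun h2 u) v

/-- Functionals on integral modular symbols modulo `p` are combinations of evaluations. -/
theorem exists_repr [NeZero N] {p : ℕ} [Fact p.Prime] (φ : Symb N ℤ →+ ZMod p) :
    ∃ v : Cos N → ZMod p, ∀ f : Symb N ℤ, φ f = ∑ c, v c * ((evc f.1 c : ℤ) : ZMod p) := by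
  classical
  -- the image modulo `p`
  let E : Symb N ℤ →+ (Cos N → ZMod p) :=
    { toFun := fun f c => ((evc f.1 c : ℤ) : ZMod p)
      map_zero' := by
        funext c
        change (((evcHom N ℤ) 0 c : ℤ) : ZMod p) = 0
        rw [map_zero]; simp
      map_add' := fun f g => by
        funext c
        change (((evcHom N ℤ) (f + g) c : ℤ) : ZMod p) = (((evcHom N ℤ) f c : ℤ) : ZMod p) +
          (((evcHom N ℤ) g c : ℤ) : ZMod p)
        rw [map_add, Pi.add_apply, Int.cast_add] }
  have hker : ∀ f, E f = 0 → φ f = 0 := by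
    intro f hf
    obtain ⟨g, rfl⟩ := exists_eq_nsmul_of_evc (Nat.Prime.ne_zero (Fact.out : p.Prime)) f
      (fun c => congrFun hf c)
    rw [map_nsmul, nsmul_eq_mul, CharP.cast_eq_zero, zero_mul]
  let W : Submodule (ZMod p) (Cos N → ZMod p) := AddSubgroup.toZModSubmodule p E.range
  have hW : ∀ w : W, ∃ f, E f = w.1 := fun w => w.2
  choose s hs using hW
  let ψ : W →+ ZMod p :=
    { toFun := fun w => φ (s w)
      map_zero' := hker _ (by rw [hs]; rfl)
      map_add' := fun w w' => by
        rw [← map_add, ← sub_eq_zero, ← map_sub]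
        apply hker
        rw [map_sub, map_add, hs, hs, hs]
        simp }
  let ψ' : W →ₗ[ZMod p] ZMod p := AddMonoidHom.toZModLinearMap p ψ
  obtain ⟨Ψ, hΨ⟩ := LinearMap.exists_extend ψ'
  refine ⟨fun c => Ψ (Pi.single c 1), fun f => ?_⟩
  have hfW : E f ∈ W := ⟨f, rfl⟩
  have h1 : φ f = Ψ (E f) := by
    have h2 : Ψ (E f) = ψ' ⟨E f, hfW⟩ := by rw [← hΨ]; rfl
    rw [h2]
    change φ f = φ (s ⟨E f, hfW⟩)
    rw [← sub_eq_zero, ← map_sub]
    apply hker
    rw [map_sub, hs, sub_self]
  rw [h1]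
  conv_lhs => rw [pi_eq_sum_univ' (E f)]
  rw [map_sum]
  refine Finset.sum_congr rfl fun c _ => ?_
  rw [map_smul, smul_eq_mul, mul_comm]
  rfl

end Fermat.Agent.Ihara
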