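import Fermat.Agent.Ihara.Sym

set_option autoImplicit false

/-!
# Hecke operators on modular symbols
-/

open CongruenceSubgroup
open scoped MatrixGroups

namespace Fermat.Agent.Ihara

open Fermat.Agent.Top Matrix

variable {N M q : ℕ} {A : Type*} [AddCommGroup A]

/-! ### `T_ℓ` -/

theorem isDelta_mt (γ : Gamma0 N) : IsDelta N (mt γ) := isDelta_of_mem γ

theorem exists_mt {X : M2} (hX : IsDelta N X) (hdet : X.det = 1) : ∃ γ : Gamma0 N, X = mt γ := by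
  obtain ⟨γ, h⟩ := exists_mem_of_isDelta hX hdet
  exact ⟨γ, h.symm⟩

theorem isDelta_of_det {X : M2} (h : (N : ℤ) ∣ X 1 0) (hdet : IsCoprime X.det (N : ℤ)) :
    IsDelta N X := by
  refine ⟨h, ?_⟩
  obtain ⟨c, hc⟩ := h
  rw [Matrix.det_fin_two, hc] at hdet
  have h1 : X 0 0 * X 1 1 - X 0 1 * ((N : ℤ) * c) = X 0 0 * X 1 1 + (N : ℤ) * (-(X 0 1 * c)) := by
    ring
  rw [h1] at hdet
  have h2 := (IsCoprime.add_mul_left_left_iff).mp hdet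
  exact h2.of_mul_left_left

/-- The matrices representing `T_ℓ`. -/
def tM (N ℓ : ℕ) : HI N ℓ → M2 := fun i => HM ℓ i.1

theorem det_tM (N ℓ : ℕ) (i : HI N ℓ) : (tM N ℓ i).det = ℓ := det_HM ℓ i.1

theorem mul_left_cancel_det {X Y Z : M2} (hZ : Z.det ≠ 0) (h : Z * X = Z * Y) : X = Y := by
  have h1 := congrArg (fun W => Z.adjugate * W) h
  simp only [← Matrix.mul_assoc, Matrix.adjugate_mul, Matrix.smul_mul, Matrix.one_mul] at h1
  exact smul_right_injective _ hZ h1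

theorem mul_right_cancel_det {X Y Z : M2} (hZ : Z.det ≠ 0) (h : X * Z = Y * Z) : X = Y := by
  have h1 := congrArg (fun W => W * Z.adjugate) h
  simp only [Matrix.mul_assoc, Matrix.mul_adjugate, Matrix.mul_smul, Matrix.mul_one] at h1
  exact smul_right_injective _ hZ h1

/-- Elements of `Δ₀(N)` of prime determinant. -/
theorem exists_tM {ℓ : ℕ} (hℓ : ℓ.Prime) {X : M2} (hX : IsDelta N X) (hdet : X.det = ℓ) :
    ∃ (γ : Gamma0 N) (i : HI N ℓ), X = mt γ * tM N ℓ i := by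
  obtain ⟨i, B, hB, h⟩ := exists_factor hℓ hX (by rw [hdet])
  have hB1 : B.det = 1 := by
    have := congrArg Matrix.det h
    rw [Matrix.det_mul, det_HM, hdet] at this
    have hℓ0 : (ℓ : ℤ) ≠ 0 := by exact_mod_cast hℓ.ne_zero
    exact mul_right_cancel₀ hℓ0 (by rw [← this, one_mul])
  obtain ⟨γ, rfl⟩ := exists_mt hB hB1
  exact ⟨γ, i, h⟩

theorem repSys_tM (N : ℕ) {ℓ : ℕ} (hℓ : ℓ.Prime) : RepSys N N (tM N ℓ) where
  det i := by rw [det_tM]; exact_mod_cast hℓ.ne_zero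
  ex γ i := by
    obtain ⟨γ', j, h⟩ := exists_tM hℓ (X := tM N ℓ i * mt γ) ((isDelta_HM hℓ i).mul (isDelta_mt γ))
      (by rw [Matrix.det_mul, det_tM, det_mt, mul_one])
    exact ⟨γ', j, h⟩
  uniq γ' i j h := Subtype.ext (HM_unique hℓ (γ' : SL(2, ℤ)) _ _ h)

/-- `T_ℓ` (`U_ℓ` if `ℓ ∣ N`) on modular symbols. -/
noncomputable def Ts (N : ℕ) (A : Type*) [AddCommGroup A] (ℓ : Nat.Primes) :
    Symb N A →+ Symb N A :=
  ((opM (tM N ℓ)).comp (Symb N A).subtype).codRestrict (Symb N A)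
    (fun f => (repSys_tM N ℓ.2).isSymb f.2)

theorem Ts_coe (ℓ : Nat.Primes) (f : Symb N A) : (Ts N A ℓ f).1 = opM (tM N ℓ) f.1 := rfl

theorem Ts_apply (ℓ : Nat.Primes) (f : Symb N A) (u v : V2) :
    Ts N A ℓ f u v = ∑ i : HI N ℓ, f (HM ℓ i.1 *ᵥ u) (HM ℓ i.1 *ᵥ v) := rfl

theorem tM_comm_factor {ℓ ℓ' : ℕ} (hℓ : ℓ.Prime) (hℓ' : ℓ'.Prime) (i : HI N ℓ × HI N ℓ') :
    ∃ (γ : Gamma0 N) (j : HI N ℓ' × HI N ℓ),
      tM N ℓ i.1 * tM N ℓ' i.2 = mt γ * (tM N ℓ' j.1 * tM N ℓ j.2) := by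
  obtain ⟨j, B, hB, h1⟩ := exists_factor hℓ (A := HM ℓ i.1.1 * HM ℓ' i.2.1)
    ((isDelta_HM hℓ i.1).mul (isDelta_HM hℓ' i.2))
    (by rw [Matrix.det_mul, det_HM]; exact dvd_mul_right _ _)
  have hℓ0 : (ℓ : ℤ) ≠ 0 := by exact_mod_cast hℓ.ne_zero
  have hBdet : B.det = ℓ' := by
    have h2 := congrArg Matrix.det h1
    rw [Matrix.det_mul, Matrix.det_mul, det_HM, det_HM, det_HM, mul_comm] at h2
    exact (mul_right_cancel₀ hℓ0 h2).symm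
  obtain ⟨γ, j', hγ⟩ := exists_tM hℓ' hB hBdet
  refine ⟨γ, (j', j), ?_⟩
  change HM ℓ i.1.1 * HM ℓ' i.2.1 = _
  rw [h1, hγ, Matrix.mul_assoc]
  rfl

theorem Ts_comm (ℓ ℓ' : Nat.Primes) (f : Symb N A) :
    Ts N A ℓ (Ts N A ℓ' f) = Ts N A ℓ' (Ts N A ℓ f) := by
  rcases eq_or_ne ℓ ℓ' with rfl | hne
  · rfl
  · apply Subtype.ext
    rw [Ts_coe, Ts_coe, Ts_coe, Ts_coe, opM_opM, opM_opM]
    have hne' : (ℓ : ℕ) ≠ ℓ' := fun h => hne (Subtype.ext h)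
    refine opM_congr (N := N) ?_ ?_ (fun i => tM_comm_factor ℓ'.2 ℓ.2 i) f.2
    · intro γ' i j h
      obtain ⟨h1, h2⟩ := HM_unique_comp ℓ'.2 ℓ.2 hne'.symm (γ' : SL(2, ℤ)) _ _ _ _ h
      exact Prod.ext (Subtype.ext h1) (Subtype.ext h2)
    · rw [Fintype.card_prod, Fintype.card_prod, mul_comm]

/-! ### change of level -/

/-- inclusion of groups -/
def incl (h : N ∣ M) (γ : Gamma0 M) : Gamma0 N :=
  ⟨γ.1, by
    have := Gamma0_mem.mp γ.2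
    rw [Gamma0_mem, ZMod.intCast_zmod_eq_zero_iff_dvd] at *
    exact (by exact_mod_cast h : (N : ℤ) ∣ M).trans this⟩

@[simp] theorem mt_incl (h : N ∣ M) (γ : Gamma0 M) : mt (incl h γ) = mt γ := rfl

theorem IsSymb.mono (h : N ∣ M) {f : V2 → V2 → A} (hf : IsSymb N f) : IsSymb M f where
  zero_left := hf.zero_left
  zero_right := hf.zero_right
  add := hf.add
  smul_left := hf.smul_left
  inv γ u v := hf.inv (incl h γ) u v

/-- Symbols of level `N` as symbols of level `M`. -/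
def resS (h : N ∣ M) : Symb N A →+ Symb M A where
  toFun f := ⟨f.1, f.2.mono h⟩
  map_zero' := rfl
  map_add' _ _ := rfl

@[simp] theorem resS_coe (h : N ∣ M) (f : Symb N A) : (resS h f).1 = f.1 := rfl

theorem resS_injective (h : N ∣ M) : Function.Injective (resS (A := A) h) := fun _ _ h' =>
  Subtype.ext (congrArg (fun x : Symb M A => x.1) h')

theorem Ts_resS (h : N ∣ M) (ℓ : Nat.Primes) (hℓ : ¬ (ℓ : ℕ) ∣ M) (f : Symb N A) :
    Ts M A ℓ (resS h f) = resS h (Ts N A ℓ f) := by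
  classical
  apply Subtype.ext
  funext u v
  change ∑ i : HI M ℓ, f (HM ℓ i.1 *ᵥ u) (HM ℓ i.1 *ᵥ v) =
    ∑ i : HI N ℓ, f (HM ℓ i.1 *ᵥ u) (HM ℓ i.1 *ᵥ v)
  rw [sum_HI M ℓ (fun i => f (HM ℓ i *ᵥ u) (HM ℓ i *ᵥ v)),
    sum_HI N ℓ (fun i => f (HM ℓ i *ᵥ u) (HM ℓ i *ᵥ v)), if_neg hℓ, if_neg (fun h' => hℓ (h'.trans h))]

theorem ev_toHom_resS (h : N ∣ M) (f : Symb N A) (γ : Gamma0 M) :
    ev (toHom (resS h f)) γ = ev (toHom f) (incl h γ) := rfl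

/-- Compatibility of `toHom` with the Hecke operators. -/
theorem toHom_Ts (ℓ : Nat.Primes) (f : Symb N A) : toHom (Ts N A ℓ f) = hop N ℓ (toHom f) := by
  refine AddMonoidHom.ext fun x => ?_
  obtain ⟨γ, rfl⟩ := Additive.ofMul.surjective x
  change ev (toHom (Ts N A ℓ f)) γ = ev (hop N ℓ (toHom f)) γ
  have hne : ∀ i : HI N ℓ, HM ℓ i.1 *ᵥ e1 ≠ 0 := fun i =>
    mulVec_ne_zero_of_det (by rw [det_HM]; exact_mod_cast ℓ.2.ne_zero) e1_ne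
  have hne' : ∀ i : HI N ℓ, HM ℓ i.1 *ᵥ (mt γ *ᵥ e1) ≠ 0 := fun i =>
    mulVec_ne_zero_of_det (by rw [det_HM]; exact_mod_cast ℓ.2.ne_zero) (mt_mulVec_ne_zero γ e1_ne)
  have h1 : ∀ i : HI N ℓ, ev (toHom f) ((hreps N ℓ.2).c γ i) =
      f (HM ℓ ((hreps N ℓ.2).perm γ i).1 *ᵥ e1) e1 + f e1 (HM ℓ i.1 *ᵥ (mt γ *ᵥ e1)) := by
    intro i
    rw [ev_toHom f _ (hne ((hreps N ℓ.2).perm γ i)), mulVec_mulVec]
    have h2 : mt ((hreps N ℓ.2).c γ i) * HM ℓ ((hreps N ℓ.2).perm γ i).1 = HM ℓ i.1 * mt γ :=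
      (hreps_matrix ℓ γ i).symm
    rw [h2, ← mulVec_mulVec, f.2.add _ _ _ (hne _) e1_ne (hne' i)]
  rw [hop_apply, ev_toHom', Finset.sum_congr rfl fun i _ => h1 i, Finset.sum_add_distrib,
    Equiv.sum_comp ((hreps N ℓ.2).perm γ) (fun i => f (HM ℓ i.1 *ᵥ e1) e1), ← Finset.sum_add_distrib,
    Ts_apply]
  refine Finset.sum_congr rfl fun i _ => ?_
  exact (f.2.add _ _ _ (hne i) e1_ne (hne' i)).symm

end Fermat.Agent.Ihara
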