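import Fermat.Agent.Ihara.Inter

set_option autoImplicit false

/-!
# The homomorphism `Γ₀(N) → Symb N ℤ` given by intersection numbers
-/

open CongruenceSubgroup UpperHalfPlane
open scoped MatrixGroups

noncomputable section

namespace Fermat.Agent.Ihara

open Fermat.Agent.Top Matrix

variable {N q : ℕ}

/-- Sum over a set of matrices. -/
def GS (S : Set M2) (u v : V2) (z z' : ℍ) : ℤ := ∑ᶠ X ∈ S, df u v z z' X

/-- Sets of matrices with constant nonzero determinant -/
def CD (S : Set M2) : Prop := ∃ D : ℤ, D ≠ 0 ∧ ∀ X ∈ S, X.det = D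

theorem CD.finite {S : Set M2} (hS : CD S) (u v : V2) (z z' : ℍ) :
    (S ∩ Function.support (df u v z z')).Finite := by
  obtain ⟨D, hD, h⟩ := hS
  exact (finite_df u v z z' hD).subset fun X hX => ⟨h X hX.1, hX.2⟩

theorem CD.image_right {S : Set M2} (hS : CD S) {B : M2} (hB : B.det ≠ 0) :
    CD ((fun X => X * B) '' S) := by
  obtain ⟨D, hD, h⟩ := hS
  refine ⟨D * B.det, mul_ne_zero hD hB, ?_⟩
  rintro _ ⟨X, hX, rfl⟩
  rw [Matrix.det_mul, h X hX]

theorem CD.image_left {S : Set M2} (hS : CD S) {B : M2} (hB : B.det ≠ 0) :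
    CD ((fun X => B * X) '' S) := by
  obtain ⟨D, hD, h⟩ := hS
  refine ⟨B.det * D, mul_ne_zero hB hD, ?_⟩
  rintro _ ⟨X, hX, rfl⟩
  rw [Matrix.det_mul, h X hX]

theorem GS_self (S : Set M2) (u v : V2) (z : ℍ) : GS S u v z z = 0 := by
  unfold GS df
  simp

theorem GS_add {S : Set M2} (hS : CD S) (u v : V2) (z z' z'' : ℍ) :
    GS S u v z z' + GS S u v z' z'' = GS S u v z z'' := by
  unfold GS
  rw [← finsum_mem_add_distrib' (hS.finite u v z z') (hS.finite u v z' z'')]
  refine finsum_mem_congr rfl fun X _ => ?_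
  unfold df; ring

theorem GS_anti {S : Set M2} (hS : CD S) (u v : V2) (z z' : ℍ) :
    GS S u v z' z = -GS S u v z z' := by
  have := GS_add hS u v z z' z
  rw [GS_self] at this
  linarith

theorem GS_image_right (S : Set M2) {B : M2} (hB : B.det ≠ 0) (u v : V2) (z z' : ℍ) :
    GS ((fun X => X * B) '' S) u v z z' = GS S (B *ᵥ u) (B *ᵥ v) z z' := by
  unfold GS
  rw [finsum_mem_image (fun X _ Y _ h => mul_right_cancel_det hB h)]
  refine finsum_mem_congr rfl fun X _ => ?_
  unfold df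
  simp only [mulVec_mulVec]

theorem GS_image_left (S : Set M2) {B : M2} (hB : 0 < B.det) (u v : V2) (z z' : ℍ) :
    GS ((fun X => B * X) '' S) u v (act B z) (act B z') = GS S u v z z' := by
  unfold GS
  rw [finsum_mem_image (fun X _ Y _ h => mul_left_cancel_det hB.ne' h)]
  refine finsum_mem_congr rfl fun X _ => ?_
  unfold df
  simp only [← mulVec_mulVec, sd_act hB]

theorem GS_act (S : Set M2) {B : M2} (hB : 0 < B.det) (u v : V2) (z z' : ℍ) :
    GS S u v (act B z) (act B z') = GS ((fun X => B.adjugate * X) '' S) u v z z' := by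
  have hadj : B.adjugate.det ≠ 0 := by
    have h := congrArg Matrix.det (Matrix.mul_adjugate B)
    rw [Matrix.det_mul, Matrix.det_smul, Matrix.det_one, Fintype.card_fin, mul_one] at h
    intro h0
    rw [h0, mul_zero] at h
    exact hB.ne' (pow_eq_zero_iff two_ne_zero |>.mp h.symm)
  unfold GS
  rw [finsum_mem_image (fun X _ Y _ h => mul_left_cancel_det hadj h)]
  refine finsum_mem_congr rfl fun X _ => ?_
  unfold df
  simp only [← mulVec_mulVec, sd_act_adj hB]

theorem GS_biUnion {J : Type*} [DecidableEq J] (T : J → Set M2) (hT : ∀ j, CD (T j))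
    (hdisj : Pairwise (Function.onFun Disjoint T)) (u v : V2) (z z' : ℍ) (s : Finset J) :
    GS (⋃ j ∈ s, T j) u v z z' = ∑ j ∈ s, GS (T j) u v z z' ∧
      ((⋃ j ∈ s, T j) ∩ Function.support (df u v z z')).Finite := by
  induction s using Finset.induction_on with
  | empty => simp [GS]
  | insert a s ha ih =>
    rw [Finset.set_biUnion_insert, Finset.sum_insert ha, ← ih.1]
    constructor
    · unfold GS
      refine finsum_mem_union' ?_ ((hT a).finite u v z z') ih.2
      rw [Set.disjoint_iUnion₂_right]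
      intro j hj
      exact hdisj (fun h => ha (h ▸ hj))
    · rw [Set.union_inter_distrib_right]
      exact ((hT a).finite u v z z').union ih.2

theorem GS_iUnion {J : Type*} [Fintype J] (T : J → Set M2) (hT : ∀ j, CD (T j))
    (hdisj : Pairwise (Function.onFun Disjoint T)) (u v : V2) (z z' : ℍ) :
    GS (⋃ j, T j) u v z z' = ∑ j, GS (T j) u v z z' := by
  classical
  have := (GS_biUnion T hT hdisj u v z z' Finset.univ).1
  simpa using this

/-- The set of matrices of `Γ₀(N)`. -/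
def GaS (N : ℕ) : Set M2 := Set.range (mt (N := N))

theorem mem_GaS {X : M2} : X ∈ GaS N ↔ IsDelta N X ∧ X.det = 1 := by
  constructor
  · rintro ⟨γ, rfl⟩; exact ⟨isDelta_mt γ, det_mt γ⟩
  · rintro ⟨h1, h2⟩
    obtain ⟨γ, rfl⟩ := exists_mt h1 h2
    exact ⟨γ, rfl⟩

theorem cd_GaS (N : ℕ) : CD (GaS N) := ⟨1, one_ne_zero, by rintro _ ⟨γ, rfl⟩; exact det_mt γ⟩

/-- Elements of `Δ₀(N)` of determinant `ℓ` -/
def DeS (N ℓ : ℕ) : Set M2 := {X | IsDelta N X ∧ X.det = ℓ}

theorem GaS_mul_left (γ : Gamma0 N) : (fun X => mt γ * X) '' GaS N = GaS N := by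
  ext X
  constructor
  · rintro ⟨_, ⟨δ, rfl⟩, rfl⟩
    exact ⟨γ * δ, mt_mul γ δ⟩
  · rintro ⟨δ, rfl⟩
    exact ⟨mt (γ⁻¹ * δ), ⟨_, rfl⟩, by
      change mt γ * mt (γ⁻¹ * δ) = mt δ
      rw [← mt_mul, mul_inv_cancel_left]⟩

theorem GaS_mul_right (γ : Gamma0 N) : (fun X => X * mt γ) '' GaS N = GaS N := by
  ext X
  constructor
  · rintro ⟨_, ⟨δ, rfl⟩, rfl⟩
    exact ⟨δ * γ, mt_mul δ γ⟩
  · rintro ⟨δ, rfl⟩
    exact ⟨mt (δ * γ⁻¹), ⟨_, rfl⟩, by
      change mt (δ * γ⁻¹) * mt γ = mt δ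
      rw [← mt_mul, inv_mul_cancel_right]⟩

theorem det_mt_pos (γ : Gamma0 N) : 0 < (mt γ).det := by rw [det_mt]; exact one_pos

/-- independence of the base point -/
theorem GS_indep {S : Set M2} (hS : CD S) {g : M2} (hg : 0 < g.det) (hgS : (fun X => g * X) '' S = S)
    (u v : V2) (z z' : ℍ) : GS S u v (act g z) z = GS S u v (act g z') z' := by
  have h1 := GS_image_left S hg u v z z'
  rw [hgS] at h1
  have h2 := GS_add hS u v (act g z) (act g z') z'
  have h3 := GS_add hS u v (act g z) z z'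
  linarith

/-- The intersection number with `γ`. -/
def Fn (N : ℕ) (γ : Gamma0 N) (u v : V2) : ℤ := GS (GaS N) u v (act (mt γ) I) I

theorem Fn_eq (γ : Gamma0 N) (u v : V2) (z : ℍ) :
    Fn N γ u v = GS (GaS N) u v (act (mt γ) z) z :=
  GS_indep (cd_GaS N) (det_mt_pos γ) (GaS_mul_left γ) u v I z

theorem Fn_mul (γ γ' : Gamma0 N) (u v : V2) : Fn N (γ * γ') u v = Fn N γ u v + Fn N γ' u v := by
  rw [Fn_eq γ u v (act (mt γ') I), Fn, mt_mul, act_mul (det_mt_pos γ).ne' (det_mt_pos γ').ne']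
  exact (GS_add (cd_GaS N) u v _ _ _).symm

theorem df_congr {u v u' v' : V2} (z z' : ℍ) (X : M2)
    (h : ∀ z, sd (X *ᵥ u) (X *ᵥ v) z = sd (X *ᵥ u') (X *ᵥ v') z) :
    df u v z z' X = df u' v' z z' X := by
  unfold df; rw [h, h]

theorem Fn_smul_left (γ : Gamma0 N) (m : ℤ) (u v : V2) (hm : m ≠ 0) :
    Fn N γ (m • u) v = Fn N γ u v := by
  unfold Fn GS
  refine finsum_mem_congr rfl fun X _ => df_congr _ _ _ fun z => ?_
  rw [mulVec_smul, sd_smul_left hm]

theorem Fn_anti (γ : Gamma0 N) (u v : V2) : Fn N γ v u = -Fn N γ u v := by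
  have h : Fn N γ v u + Fn N γ u v = 0 := by
    unfold Fn GS
    rw [← finsum_mem_add_distrib' ((cd_GaS N).finite v u _ _) ((cd_GaS N).finite u v _ _)]
    have : ∀ X ∈ GaS N, df v u (act (mt γ) I) I X + df u v (act (mt γ) I) I X = 0 := by
      intro X _
      unfold df
      rw [sd_anti (X *ᵥ u), sd_anti (X *ᵥ u)]; ring
    rw [finsum_mem_congr rfl this]
    simp
  linarith

theorem Fn_zero_of_dt (γ : Gamma0 N) {u v : V2} (h : dt u v = 0) : Fn N γ u v = 0 := by
  unfold Fn GS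
  have : ∀ X ∈ GaS N, df u v (act (mt γ) I) I X = 0 := by
    intro X _
    unfold df
    rw [sd_eq_zero_of_dt (by rw [dt_mulVec, h, mul_zero]),
      sd_eq_zero_of_dt (by rw [dt_mulVec, h, mul_zero]), sub_zero]
  rw [finsum_mem_congr rfl this]
  simp

/-- Parallel vectors are proportional. -/
theorem exists_smul_eq_of_dt {u v : V2} (hu : u ≠ 0) (hv : v ≠ 0) (h : dt u v = 0) :
    ∃ m n : ℤ, m ≠ 0 ∧ n ≠ 0 ∧ m • u = n • v := by
  unfold dt at h
  by_cases h0 : u 0 = 0
  · have h1 : u 1 ≠ 0 := fun h1 => hu (V2_ext h0 h1)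
    have hv0 : v 0 = 0 := by
      rw [h0, zero_mul, zero_sub, neg_eq_zero] at h
      exact (mul_eq_zero.mp h).resolve_left h1
    have hv1 : v 1 ≠ 0 := fun h1 => hv (V2_ext hv0 h1)
    refine ⟨v 1, u 1, hv1, h1, V2_ext ?_ ?_⟩
    · simp [h0, hv0]
    · simp [mul_comm]
  · have hv0 : v 0 ≠ 0 := by
      intro hv0
      rw [hv0, mul_zero, sub_zero] at h
      exact hv (V2_ext hv0 ((mul_eq_zero.mp h).resolve_left h0))
    refine ⟨v 0, u 0, hv0, h0, V2_ext ?_ ?_⟩
    · simp [mul_comm]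
    · simp only [Pi.smul_apply, smul_eq_mul]
      linear_combination -h

theorem Fn_triangle (γ : Gamma0 N) {u v w : V2} (h1 : dt u v ≠ 0) (h2 : dt v w ≠ 0)
    (h3 : dt w u ≠ 0) : Fn N γ u v + Fn N γ v w + Fn N γ w u = 0 := by
  have hS := cd_GaS N
  have hfin : ∀ z : ℍ, (GaS N ∩ Function.support (kap u v w z)).Finite := by
    intro z
    refine (finite_kap h1 h2 h3 z).subset ?_
    rintro _ ⟨⟨δ, rfl⟩, h⟩
    exact ⟨det_mt δ, h⟩
  have hκ : ∑ᶠ X ∈ GaS N, kap u v w (act (mt γ) I) X = ∑ᶠ X ∈ GaS N, kap u v w I X := by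
    conv_lhs => rw [← GaS_mul_left γ]
    rw [finsum_mem_image (fun X _ Y _ h => mul_left_cancel_det (det_mt_pos γ).ne' h)]
    exact finsum_mem_congr rfl fun X _ => kap_act (det_mt γ) u v w I X
  have hfin2 : (GaS N ∩ Function.support (fun X => df u v (act (mt γ) I) I X +
      df v w (act (mt γ) I) I X)).Finite := by
    refine ((hS.finite u v (act (mt γ) I) I).union (hS.finite v w (act (mt γ) I) I)).subset ?_
    rintro X ⟨hX, h⟩
    rw [← Set.inter_union_distrib_left]
    exact ⟨hX, Function.support_add _ _ h⟩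
  have hfin3 : (GaS N ∩ Function.support (fun X => df u v (act (mt γ) I) I X +
      df v w (act (mt γ) I) I X + df w u (act (mt γ) I) I X)).Finite := by
    refine (hfin2.union (hS.finite w u (act (mt γ) I) I)).subset ?_
    rintro X ⟨hX, h⟩
    rw [← Set.inter_union_distrib_left]
    exact ⟨hX, Function.support_add _ _ h⟩
  unfold Fn GS
  rw [← finsum_mem_add_distrib' (hS.finite u v _ _) (hS.finite v w _ _),
    ← finsum_mem_add_distrib' hfin2 (hS.finite w u _ _)]
  have h4 := finsum_mem_add_distrib' hfin3 (hfin I)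
  have e : ∀ X ∈ GaS N, df u v (act (mt γ) I) I X + df v w (act (mt γ) I) I X +
        df w u (act (mt γ) I) I X + kap u v w I X = kap u v w (act (mt γ) I) X := by
    intro X _
    unfold df kap
    ring
  rw [finsum_mem_congr rfl e, hκ] at h4
  linarith


theorem isSymb_Fn (γ : Gamma0 N) : IsSymb N (Fn N γ) where
  zero_left v := Fn_zero_of_dt γ (by simp [dt])
  zero_right v := Fn_zero_of_dt γ (by simp [dt])
  smul_left m u v hm := Fn_smul_left γ m u v hm
  inv δ u v := by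
    unfold Fn
    rw [← GS_image_right (GaS N) (det_mt_pos δ).ne', GaS_mul_right]
  add u v w hu hv hw := by
    by_cases h1 : dt u v = 0
    · obtain ⟨m, n, hm, hn, h⟩ := exists_smul_eq_of_dt hu hv h1
      rw [Fn_zero_of_dt γ h1, zero_add, ← Fn_smul_left γ n v w hn, ← h, Fn_smul_left γ m u w hm]
    by_cases h2 : dt v w = 0
    · obtain ⟨m, n, hm, hn, h⟩ := exists_smul_eq_of_dt hv hw h2
      rw [Fn_zero_of_dt γ h2, add_zero, Fn_anti γ v u, Fn_anti γ w u,
        ← Fn_smul_left γ m v u hm, h, Fn_smul_left γ n w u hn]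
    by_cases h3 : dt w u = 0
    · obtain ⟨m, n, hm, hn, h⟩ := exists_smul_eq_of_dt hw hu h3
      rw [Fn_anti γ w u, Fn_zero_of_dt γ h3, Fn_anti γ w v, ← Fn_smul_left γ m w v hm, h,
        Fn_smul_left γ n u v hn]
      ring
    · have := Fn_triangle γ h1 h2 h3
      rw [Fn_anti γ w u]
      linarith

/-- The intersection homomorphism. -/
def Fs (N : ℕ) (γ : Gamma0 N) : Symb N ℤ := ⟨Fn N γ, isSymb_Fn γ⟩

theorem Fs_mul (γ γ' : Gamma0 N) : Fs N (γ * γ') = Fs N γ + Fs N γ' := by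
  apply Subtype.ext
  funext u v
  exact Fn_mul γ γ' u v

/-- The intersection homomorphism. -/
def FH (N : ℕ) : Additive (Gamma0 N) →+ Symb N ℤ :=
  AddMonoidHom.mk' (fun x => Fs N x.toMul) (fun x y => Fs_mul x.toMul y.toMul)

theorem ev_FH (γ : Gamma0 N) : ev (FH N) γ = Fs N γ := rfl

end Fermat.Agent.Ihara
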