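import Fermat.Agent.Ihara.Dual

set_option autoImplicit false

/-!
# Perfectness of the intersection pairing modulo odd primes
-/

open CongruenceSubgroup UpperHalfPlane
open scoped MatrixGroups

noncomputable section

namespace Fermat.Agent.Ihara

open Fermat.Agent.Top Matrix

variable {N : ℕ}

/-- right multiplication on cosets -/
def rmul (N : ℕ) (h : SL(2, ℤ)) : Cos N → Cos N :=
  Quotient.map' (s₁ := QuotientGroup.rightRel (Gamma0 N)) (s₂ := QuotientGroup.rightRel (Gamma0 N))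
    (fun g => g * h) (by
      intro g g' hg
      rw [QuotientGroup.rightRel_apply] at hg ⊢
      simpa using hg)

theorem rmul_cos (g h : SL(2, ℤ)) : rmul N h (cos N g) = cos N (g * h) := rfl

theorem exists_cos (c : Cos N) : ∃ g, cos N g = c := ⟨c.out, cos_out c⟩

theorem rmul_rmul (h h' : SL(2, ℤ)) (c : Cos N) : rmul N h' (rmul N h c) = rmul N (h * h') c := by
  obtain ⟨g, rfl⟩ := exists_cos c
  rw [rmul_cos, rmul_cos, rmul_cos, mul_assoc]

theorem rmul_one (c : Cos N) : rmul N 1 c = c := by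
  obtain ⟨g, rfl⟩ := exists_cos c
  rw [rmul_cos, mul_one]

/-- right multiplication as a permutation -/
def rperm (N : ℕ) (h : SL(2, ℤ)) : Equiv.Perm (Cos N) where
  toFun := rmul N h
  invFun := rmul N h⁻¹
  left_inv c := by rw [rmul_rmul, mul_inv_cancel, rmul_one]
  right_inv c := by rw [rmul_rmul, inv_mul_cancel, rmul_one]

@[simp] theorem rperm_apply (h : SL(2, ℤ)) (c : Cos N) : rperm N h c = rmul N h c := rfl

/-- `S` -/
def Sm : SL(2, ℤ) := ⟨!![0, -1; 1, 0], by rw [Matrix.det_fin_two_of]; norm_num⟩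

/-- element of order 3 modulo `±1` fixing `ρ` -/
def Um : SL(2, ℤ) := ⟨!![-1, -1; 1, 0], by rw [Matrix.det_fin_two_of]; norm_num⟩

theorem sm_Sm : sm Sm = !![0, -1; 1, 0] := rfl
theorem sm_Um : sm Um = !![-1, -1; 1, 0] := rfl

theorem sm_mul (g h : SL(2, ℤ)) : sm (g * h) = sm g * sm h := Matrix.SpecialLinearGroup.coe_mul g h

variable {A : Type*} [AddCommGroup A]

theorem evg_S {f : V2 → V2 → A} (hf : IsSymb N f) (g : SL(2, ℤ)) : evg f (g * Sm) = -evg f g := by
  unfold evg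
  rw [sm_mul, ← mulVec_mulVec, ← mulVec_mulVec]
  have h1 : sm Sm *ᵥ e1 = e2 := by
    rw [sm_Sm]; apply V2_ext
    · rw [mulVec_0]; simp [e1, e2]
    · rw [mulVec_1]; simp [e1, e2]
  have h2 : sm Sm *ᵥ e2 = -e1 := by
    rw [sm_Sm]; apply V2_ext
    · rw [mulVec_0]; simp [e1, e2]
    · rw [mulVec_1]; simp [e1, e2]
  rw [h1, h2, mulVec_neg, hf.neg_right, hf.anti]

theorem evg_U {f : V2 → V2 → A} (hf : IsSymb N f) (g : SL(2, ℤ)) :
    evg f g + evg f (g * Um) + evg f (g * Um * Um) = 0 := by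
  unfold evg
  rw [sm_mul, sm_mul, sm_mul, ← mulVec_mulVec, ← mulVec_mulVec, ← mulVec_mulVec, ← mulVec_mulVec,
    ← mulVec_mulVec, ← mulVec_mulVec]
  have h1 : sm Um *ᵥ e1 = -(e1 - e2) := by
    rw [sm_Um]; apply V2_ext
    · rw [mulVec_0]; simp [e1, e2]
    · rw [mulVec_1]; simp [e1, e2]
  have h2 : sm Um *ᵥ e2 = -e1 := by
    rw [sm_Um]; apply V2_ext
    · rw [mulVec_0]; simp [e1, e2]
    · rw [mulVec_1]; simp [e1, e2]
  have h3 : sm Um *ᵥ (-(e1 - e2)) = -e2 := by
    rw [mulVec_neg, mulVec_sub, h1, h2]; abel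
  have h4 : sm Um *ᵥ (-e1) = e1 - e2 := by
    rw [mulVec_neg, h1, neg_neg]
  have hne : ∀ x : V2, x ≠ 0 → sm g *ᵥ x ≠ 0 := fun x hx =>
    mulVec_ne_zero_of_det (by rw [sm, g.det_coe]; exact one_ne_zero) hx
  have h12 : e1 - e2 ≠ 0 := fun h => by simpa [e1, e2] using congrFun h 0
  rw [h1, h2, h3, h4, mulVec_neg, mulVec_neg, mulVec_neg, hf.neg_left, hf.neg_right, hf.neg_left,
    hf.anti (sm g *ᵥ (e1 - e2)) (sm g *ᵥ e2), hf.anti (sm g *ᵥ e1) (sm g *ᵥ (e1 - e2)),
    ← hf.add (sm g *ᵥ e1) (sm g *ᵥ (e1 - e2)) (sm g *ᵥ e2) (hne _ e1_ne) (hne _ h12) (hne _ e2_ne)]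
  abel

/-! ### the base points -/

theorem sqrt3_pos : 0 < Real.sqrt 3 / 2 := by positivity

/-- `ρ` -/
def rho : ℍ := ⟨⟨-1 / 2, Real.sqrt 3 / 2⟩, sqrt3_pos⟩

/-- `S ρ` -/
def rho2 : ℍ := ⟨⟨1 / 2, Real.sqrt 3 / 2⟩, sqrt3_pos⟩

theorem rho_re : rho.re = -1 / 2 := rfl
theorem rho_im : rho.im = Real.sqrt 3 / 2 := rfl
theorem rho2_re : rho2.re = 1 / 2 := rfl
theorem rho2_im : rho2.im = Real.sqrt 3 / 2 := rfl

theorem sqrt3_sq : (Real.sqrt 3 / 2) ^ 2 = 3 / 4 := by
  rw [div_pow, Real.sq_sqrt (by norm_num)]; norm_num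

theorem act_S_rho : act (sm Sm) rho = rho2 := by
  apply UpperHalfPlane.ext
  rw [coe_act (by rw [sm, Sm.det_coe]; exact one_pos), sm_Sm]
  have h : (rho : ℂ) ≠ 0 := rho.ne_zero
  simp only [Matrix.of_apply, Matrix.cons_val', Matrix.cons_val_zero, Matrix.cons_val_one,
    Matrix.cons_val_fin_one, Int.cast_zero, zero_mul, Int.cast_neg, Int.cast_one, one_mul, add_zero,
    zero_add]
  rw [div_eq_iff h]
  have e1 : (rho : ℂ) = ⟨-1 / 2, Real.sqrt 3 / 2⟩ := rfl
  have e2 : (rho2 : ℂ) = ⟨1 / 2, Real.sqrt 3 / 2⟩ := rfl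
  rw [e1, e2]
  have h3 := sqrt3_sq
  apply Complex.ext
  · simp only [Complex.neg_re, Complex.one_re, Complex.mul_re]
    nlinarith
  · simp only [Complex.neg_im, Complex.one_im, Complex.mul_im]
    ring

theorem act_U_rho : act (sm Um) rho = rho := by
  apply UpperHalfPlane.ext
  rw [coe_act (by rw [sm, Um.det_coe]; exact one_pos), sm_Um]
  have h : (rho : ℂ) ≠ 0 := rho.ne_zero
  simp only [Matrix.of_apply, Matrix.cons_val', Matrix.cons_val_zero, Matrix.cons_val_one,
    Matrix.cons_val_fin_one, Int.cast_zero, Int.cast_neg, Int.cast_one, one_mul, add_zero,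
    neg_mul]
  rw [div_eq_iff h]
  have e1 : (rho : ℂ) = ⟨-1 / 2, Real.sqrt 3 / 2⟩ := rfl
  rw [e1]
  have h3 := sqrt3_sq
  apply Complex.ext
  · simp only [Complex.neg_re, Complex.one_re, Complex.mul_re, Complex.add_re]
    nlinarith
  · simp only [Complex.neg_im, Complex.one_im, Complex.mul_im, Complex.add_im]
    ring

theorem sg_of_mul_pos {r s : ℝ} (h : 0 < r * s) : sg r = sg s := by
  rcases lt_trichotomy r 0 with h1 | h1 | h1
  · have : s < 0 := by
      by_contra hs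
      push Not at hs
      nlinarith
    rw [sg_neg h1, sg_neg this]
  · rw [h1, zero_mul] at h; exact absurd h (lt_irrefl _)
  · have : 0 < s := by
      by_contra hs
      push Not at hs
      nlinarith
    rw [sg_pos h1, sg_pos this]

/-- Only the standard geodesic separates `ρ` and `S ρ`. -/
theorem df_rho {X : M2} (hX : X.det = 1) :
    df e1 e2 rho2 rho X = (if X = 1 ∨ X = -1 then -2 else 0) +
      (if X = sm Sm ∨ X = -sm Sm then 2 else 0) := by
  obtain ⟨a, b, c, d, rfl⟩ : ∃ a b c d : ℤ, X = !![a, b; c, d] :=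
    ⟨X 0 0, X 0 1, X 1 0, X 1 1, by ext i j; fin_cases i <;> fin_cases j <;> rfl⟩
  rw [Matrix.det_fin_two_of] at hX
  have hu : (!![a, b; c, d] : M2) *ᵥ e1 = ![a, c] := by
    apply V2_ext
    · rw [mulVec_0]; simp [e1]
    · rw [mulVec_1]; simp [e1]
  have hv : (!![a, b; c, d] : M2) *ᵥ e2 = ![b, d] := by
    apply V2_ext
    · rw [mulVec_0]; simp [e2]
    · rw [mulVec_1]; simp [e2]
  have hdt : dt ![a, c] ![b, d] = 1 := by
    simp only [dt, Matrix.cons_val_zero, Matrix.cons_val_one, Matrix.cons_val_fin_one]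
    linear_combination hX
  have h3 := sqrt3_sq
  have q1 : qr ![a, c] ![b, d] rho.re rho.im = a * b + c * d + (a * d + b * c) / 2 := by
    rw [rho_re, rho_im]
    simp only [qr, Matrix.cons_val_zero, Matrix.cons_val_one, Matrix.cons_val_fin_one]
    rw [h3]; ring
  have q2 : qr ![a, c] ![b, d] rho2.re rho2.im = a * b + c * d - (a * d + b * c) / 2 := by
    rw [rho2_re, rho2_im]
    simp only [qr, Matrix.cons_val_zero, Matrix.cons_val_one, Matrix.cons_val_fin_one]
    rw [h3]; ring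
  have hXr : (a : ℝ) * d - b * c = 1 := by exact_mod_cast hX
  unfold df sd
  rw [hu, hv, hdt, q1, q2, Int.cast_one, one_mul, one_mul]
  by_cases hmn : a * b = 0 ∧ c * d = 0
  · obtain ⟨h1, h2⟩ := hmn
    have h1r : (a : ℝ) * b = 0 := by exact_mod_cast h1
    have h2r : (c : ℝ) * d = 0 := by exact_mod_cast h2
    rcases eq_or_ne a 0 with ha | ha
    · -- `±S`
      subst ha
      have hbc : b * c = -1 := by linarith
      have hc : c ≠ 0 := by rintro rfl; simp at hbc
      have hd : d = 0 := (mul_eq_zero.mp h2).resolve_left hc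
      subst hd
      have hb : (b = 1 ∧ c = -1) ∨ (b = -1 ∧ c = 1) := by
        rcases Int.isUnit_iff.mp (IsUnit.of_mul_eq_one (-c) (by linarith : b * -c = 1)) with h | h
        · left; exact ⟨h, by rw [h] at hbc; linarith⟩
        · right; exact ⟨h, by rw [h] at hbc; linarith⟩
      have hs1 : ((0 : ℤ) : ℝ) * b + c * ((0 : ℤ) : ℝ) - (((0 : ℤ) : ℝ) * ((0 : ℤ) : ℝ) + b * c) / 2 =
          1 / 2 := by
        have : (b : ℝ) * c = -1 := by exact_mod_cast hbc
        rw [this]; norm_num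
      have hs2 : ((0 : ℤ) : ℝ) * b + c * ((0 : ℤ) : ℝ) + (((0 : ℤ) : ℝ) * ((0 : ℤ) : ℝ) + b * c) / 2 =
          -(1 / 2) := by
        have : (b : ℝ) * c = -1 := by exact_mod_cast hbc
        rw [this]; norm_num
      rw [hs1, hs2, sg_pos (by norm_num : (0 : ℝ) < 1 / 2), sg_neg (by norm_num : (-(1 / 2) : ℝ) < 0)]
      have hn1 : ¬ ((!![0, b; c, 0] : M2) = 1 ∨ (!![0, b; c, 0] : M2) = -1) := by
        rintro (h | h)
        · have := congrFun (congrFun h 0) 0; simp at this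
        · have := congrFun (congrFun h 0) 0; simp at this
      have hn2 : (!![0, b; c, 0] : M2) = sm Sm ∨ (!![0, b; c, 0] : M2) = -sm Sm := by
        rw [sm_Sm]
        rcases hb with ⟨rfl, rfl⟩ | ⟨rfl, rfl⟩
        · right; ext i j; fin_cases i <;> fin_cases j <;> simp
        · left; rfl
      rw [if_neg hn1, if_pos hn2]; norm_num
    · -- `±1`
      have hb : b = 0 := (mul_eq_zero.mp h1).resolve_left ha
      subst hb
      have had : a * d = 1 := by linarith
      have hd0 : d ≠ 0 := by rintro rfl; simp at had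
      have hc : c = 0 := (mul_eq_zero.mp h2).resolve_right hd0
      subst hc
      have hb : (a = 1 ∧ d = 1) ∨ (a = -1 ∧ d = -1) := by
        rcases Int.isUnit_iff.mp (IsUnit.of_mul_eq_one d had) with h | h
        · left; exact ⟨h, by rw [h] at had; linarith⟩
        · right; exact ⟨h, by rw [h] at had; linarith⟩
      have hs1 : (a : ℝ) * ((0 : ℤ) : ℝ) + ((0 : ℤ) : ℝ) * d -
          (a * d + ((0 : ℤ) : ℝ) * ((0 : ℤ) : ℝ)) / 2 = -(1 / 2) := by
        have : (a : ℝ) * d = 1 := by exact_mod_cast had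
        rw [this]; norm_num
      have hs2 : (a : ℝ) * ((0 : ℤ) : ℝ) + ((0 : ℤ) : ℝ) * d +
          (a * d + ((0 : ℤ) : ℝ) * ((0 : ℤ) : ℝ)) / 2 = 1 / 2 := by
        have : (a : ℝ) * d = 1 := by exact_mod_cast had
        rw [this]; norm_num
      rw [hs1, hs2, sg_pos (by norm_num : (0 : ℝ) < 1 / 2), sg_neg (by norm_num : (-(1 / 2) : ℝ) < 0)]
      have hn1 : ¬ ((!![a, 0; 0, d] : M2) = sm Sm ∨ (!![a, 0; 0, d] : M2) = -sm Sm) := by
        rw [sm_Sm]
        rintro (h | h)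
        · have := congrFun (congrFun h 0) 0; simp at this; exact ha this
        · have := congrFun (congrFun h 0) 0; simp at this; exact ha this
      have hn2 : (!![a, 0; 0, d] : M2) = 1 ∨ (!![a, 0; 0, d] : M2) = -1 := by
        rcases hb with ⟨rfl, rfl⟩ | ⟨rfl, rfl⟩
        · left; ext i j; fin_cases i <;> fin_cases j <;> simp
        · right; ext i j; fin_cases i <;> fin_cases j <;> simp
      rw [if_pos hn2, if_neg hn1]; norm_num
  · have hn1 : ¬ ((!![a, b; c, d] : M2) = 1 ∨ (!![a, b; c, d] : M2) = -1) := by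
      rintro (h | h)
      · have h01 := congrFun (congrFun h 0) 1
        have h10 := congrFun (congrFun h 1) 0
        simp at h01 h10
        exact hmn ⟨by rw [h01, mul_zero], by rw [h10, zero_mul]⟩
      · have h01 := congrFun (congrFun h 0) 1
        have h10 := congrFun (congrFun h 1) 0
        simp at h01 h10
        exact hmn ⟨by rw [h01, mul_zero], by rw [h10, zero_mul]⟩
    have hn2 : ¬ ((!![a, b; c, d] : M2) = sm Sm ∨ (!![a, b; c, d] : M2) = -sm Sm) := by
      rw [sm_Sm]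
      rintro (h | h)
      · have h01 := congrFun (congrFun h 0) 0
        have h10 := congrFun (congrFun h 1) 1
        simp at h01 h10
        exact hmn ⟨by rw [h01, zero_mul], by rw [h10, mul_zero]⟩
      · have h01 := congrFun (congrFun h 0) 0
        have h10 := congrFun (congrFun h 1) 1
        simp at h01 h10
        exact hmn ⟨by rw [h01, zero_mul], by rw [h10, mul_zero]⟩
    rw [if_neg hn1, if_neg hn2, add_zero, sub_eq_zero]
    have hge : 1 ≤ (a * b) ^ 2 + (a * b) * (c * d) + (c * d) ^ 2 := by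
      by_contra hlt
      push Not at hlt
      have h0 : (a * b) ^ 2 + (a * b) * (c * d) + (c * d) ^ 2 = 0 := by
        nlinarith [sq_nonneg (a * b), sq_nonneg (c * d), sq_nonneg (a * b + c * d)]
      apply hmn
      constructor
      · nlinarith [sq_nonneg (a * b), sq_nonneg (c * d), sq_nonneg (a * b + c * d)]
      · nlinarith [sq_nonneg (a * b), sq_nonneg (c * d), sq_nonneg (a * b + c * d)]
    have hge' : (1 : ℝ) ≤ ((a : ℝ) * b) ^ 2 + (a * b) * (c * d) + (c * d) ^ 2 := by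
      exact_mod_cast hge
    refine sg_of_mul_pos ?_
    · have : ((a : ℝ) * b + c * d - (a * d + b * c) / 2) * (a * b + c * d + (a * d + b * c) / 2) =
          ((a : ℝ) * b) ^ 2 + (a * b) * (c * d) + (c * d) ^ 2 - 1 / 4 := by
        have h4 : ((a : ℝ) * d + b * c) ^ 2 = 1 + 4 * (a * b) * (c * d) := by
          have : ((a : ℝ) * d + b * c) ^ 2 = (a * d - b * c) ^ 2 + 4 * (a * b) * (c * d) := by ring
          rw [this, hXr]; ring
        linear_combination (-1 / 4 : ℝ) * h4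
      rw [this]
      linarith

/-! ### counting -/

theorem finsum_pair_if (T : Set M2) (Y : M2) (hY : Y ≠ -Y) (a : ℤ) (hT : Y ∈ T ↔ -Y ∈ T)
    [Decidable (Y ∈ T)] :
    ∑ᶠ X ∈ T, (if X = Y ∨ X = -Y then a else 0) = if Y ∈ T then 2 * a else 0 := by
  by_cases h : Y ∈ T
  · rw [if_pos h]
    have h1 : ∑ᶠ X ∈ T, (if X = Y ∨ X = -Y then a else 0) =
        ∑ᶠ X ∈ ({Y, -Y} : Set M2), (if X = Y ∨ X = -Y then a else 0) := by
      refine finsum_mem_inter_support_eq' _ _ _ fun X hX => ?_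
      have hX' : X = Y ∨ X = -Y := by
        by_contra hcon
        rw [Function.mem_support, if_neg hcon] at hX
        exact hX rfl
      constructor
      · intro _; exact hX'
      · intro _
        rcases hX' with rfl | rfl
        · exact h
        · exact hT.mp h
    rw [h1, finsum_mem_pair hY, if_pos (Or.inl rfl), if_pos (Or.inr rfl), two_mul]
  · rw [if_neg h]
    have h1 : ∀ X ∈ T, (if X = Y ∨ X = -Y then a else 0) = 0 := by
      intro X hX
      rw [if_neg]
      rintro (rfl | rfl)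
      · exact h hX
      · exact h (hT.mpr hX)
    rw [finsum_mem_congr rfl h1]
    simp

theorem finsum_pair_fin (T : Set M2) (Y : M2) (a : ℤ) :
    (T ∩ Function.support (fun X : M2 => if X = Y ∨ X = -Y then a else 0)).Finite := by
  refine (Set.toFinite ({Y, -Y} : Set M2)).subset ?_
  rintro X ⟨-, hX⟩
  have hX' : X = Y ∨ X = -Y := by
    by_contra hcon
    rw [Function.mem_support, if_neg hcon] at hX
    exact hX rfl
  exact hX'

/-- `g⁻¹ Γ₀(N) h` -/
def TS (N : ℕ) (g h : SL(2, ℤ)) : Set M2 :=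
  (fun X => X * sm h) '' ((fun X => (sm g).adjugate * X) '' GaS N)

theorem det_TS {g h : SL(2, ℤ)} {X : M2} (hX : X ∈ TS N g h) : X.det = 1 := by
  obtain ⟨_, ⟨_, ⟨γ, rfl⟩, rfl⟩, rfl⟩ := hX
  rw [Matrix.det_mul, Matrix.det_mul, Matrix.det_adjugate, sm, sm, g.det_coe, h.det_coe, det_mt]
  simp

theorem mem_TS {g h k : SL(2, ℤ)} : sm k ∈ TS N g h ↔ cos N (g * k) = cos N h := by
  have hadj : sm g * (sm g).adjugate = 1 := by rw [Matrix.mul_adjugate, sm, g.det_coe, one_smul]
  have hadj' : (sm g).adjugate * sm g = 1 := by rw [Matrix.adjugate_mul, sm, g.det_coe, one_smul]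
  constructor
  · rintro ⟨_, ⟨_, ⟨γ, rfl⟩, rfl⟩, hX⟩
    have hX : (sm g).adjugate * mt γ * sm h = sm k := hX
    symm
    rw [cos_eq_iff]
    refine ⟨γ, ?_⟩
    apply Subtype.ext
    have h1 : sm g * sm k = mt γ * sm h := by
      rw [← hX, ← Matrix.mul_assoc, ← Matrix.mul_assoc, hadj, Matrix.one_mul]
    rw [Matrix.SpecialLinearGroup.coe_mul, Matrix.SpecialLinearGroup.coe_mul]
    exact h1
  · intro hc
    obtain ⟨γ, hγ⟩ := cos_eq_iff.mp hc.symm
    refine ⟨_, ⟨_, ⟨γ, rfl⟩, rfl⟩, ?_⟩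
    change (sm g).adjugate * mt γ * sm h = sm k
    have h1 : sm (g * k) = mt γ * sm h := by rw [hγ]; rfl
    rw [Matrix.mul_assoc, ← h1, sm_mul, ← Matrix.mul_assoc, hadj', Matrix.one_mul]

theorem neg_mem_TS {g h : SL(2, ℤ)} {X : M2} (hX : X ∈ TS N g h) : -X ∈ TS N g h := by
  obtain ⟨_, ⟨_, ⟨γ, rfl⟩, rfl⟩, rfl⟩ := hX
  refine ⟨_, ⟨-mt γ, ?_, rfl⟩, ?_⟩
  · rw [mem_GaS]
    constructor
    · obtain ⟨h1, h2⟩ := isDelta_mt γ
      constructor
      · rw [Matrix.neg_apply]; exact h1.neg_right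
      · rw [Matrix.neg_apply]; exact h2.neg_left
    · rw [Matrix.det_neg, det_mt]; simp
  · simp

theorem ne_neg_of_det {X : M2} (h : X.det = 1) : X ≠ -X := by
  intro hX
  have h0 : X = 0 := by
    ext i j
    have := congrFun (congrFun hX i) j
    rw [Matrix.neg_apply] at this
    rw [Matrix.zero_apply]
    linarith
  rw [h0, Matrix.det_zero] at h
  exact zero_ne_one h

open Classical in
theorem GS_TS (g h : SL(2, ℤ)) :
    GS (TS N g h) e1 e2 rho2 rho = -4 * (if cos N g = cos N h then 1 else 0) +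
      4 * (if cos N (g * Sm) = cos N h then 1 else 0) := by
  unfold GS
  rw [finsum_mem_congr rfl (fun X hX => df_rho (det_TS hX)),
    finsum_mem_add_distrib' (finsum_pair_fin _ _ _) (finsum_pair_fin _ _ _),
    finsum_pair_if (TS N g h) 1 (ne_neg_of_det Matrix.det_one) (-2)
      ⟨neg_mem_TS, fun h => by simpa using neg_mem_TS h⟩,
    finsum_pair_if (TS N g h) (sm Sm) (ne_neg_of_det Sm.det_coe) 2
      ⟨neg_mem_TS, fun h => by simpa using neg_mem_TS h⟩]
  have e1 : (1 : M2) ∈ TS N g h ↔ cos N g = cos N h := by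
    have := mem_TS (N := N) (g := g) (h := h) (k := 1)
    rw [mul_one] at this
    rw [← this]
    exact Iff.rfl
  simp only [e1, mem_TS]
  split_ifs <;> norm_num

/-! ### perfectness -/

section

variable [NeZero N] {p : ℕ} (v : Cos N → ZMod p)

/-- the potential -/
def pot (g : SL(2, ℤ)) : ZMod p :=
  ∑ c, v c * ((GS (GaS N) (sm c.out *ᵥ e1) (sm c.out *ᵥ e2) (act (sm g) rho) rho : ℤ) : ZMod p)

theorem det_sm_ne (g : SL(2, ℤ)) : (sm g).det ≠ 0 := by rw [sm, g.det_coe]; exact one_ne_zero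
theorem det_sm_pos (g : SL(2, ℤ)) : 0 < (sm g).det := by rw [sm, g.det_coe]; exact one_pos

theorem pot_U (g : SL(2, ℤ)) : pot v (g * Um) = pot v g := by
  unfold pot
  rw [sm_mul, act_mul (det_sm_ne _) (det_sm_ne _), act_U_rho]

theorem pot_gamma (hv : ∀ γ : Gamma0 N, ∑ c, v c * ((evc (Fs N γ).1 c : ℤ) : ZMod p) = 0)
    (γ : Gamma0 N) (g : SL(2, ℤ)) : pot v ((γ : SL(2, ℤ)) * g) = pot v g := by
  have h1 : pot v ((γ : SL(2, ℤ)) * g) =
      ∑ c, v c * ((evc (Fs N γ).1 c : ℤ) : ZMod p) + pot v g := by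
    unfold pot
    rw [← Finset.sum_add_distrib]
    refine Finset.sum_congr rfl fun c _ => ?_
    rw [← mul_add, ← Int.cast_add]
    congr 2
    have h2 : evc (Fs N γ).1 c = GS (GaS N) (sm c.out *ᵥ e1) (sm c.out *ᵥ e2)
        (act (mt γ) (act (sm g) rho)) (act (sm g) rho) := Fn_eq γ _ _ _
    rw [h2, GS_add (cd_GaS N), sm_mul]
    have h3 : act (sm (γ : SL(2, ℤ)) * sm g) rho = act (mt γ) (act (sm g) rho) :=
      act_mul (det_sm_ne _) (det_sm_ne _) _
    rw [h3]
  rw [h1, hv, zero_add]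

open Classical in
theorem pot_S (g : SL(2, ℤ)) :
    pot v (g * Sm) - pot v g = -4 * v (cos N g) + 4 * v (cos N (g * Sm)) := by
  unfold pot
  rw [← Finset.sum_sub_distrib]
  have h1 : ∀ c : Cos N, v c * ((GS (GaS N) (sm c.out *ᵥ e1) (sm c.out *ᵥ e2)
      (act (sm (g * Sm)) rho) rho : ℤ) : ZMod p) -
      v c * ((GS (GaS N) (sm c.out *ᵥ e1) (sm c.out *ᵥ e2) (act (sm g) rho) rho : ℤ) : ZMod p) =
      -4 * (if cos N g = c then v c else 0) + 4 * (if cos N (g * Sm) = c then v c else 0) := by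
    intro c
    have h2 : GS (GaS N) (sm c.out *ᵥ e1) (sm c.out *ᵥ e2) (act (sm (g * Sm)) rho) rho -
        GS (GaS N) (sm c.out *ᵥ e1) (sm c.out *ᵥ e2) (act (sm g) rho) rho =
        -4 * (if cos N g = c then 1 else 0) + 4 * (if cos N (g * Sm) = c then 1 else 0) := by
      have h3 := GS_add (cd_GaS N) (sm c.out *ᵥ e1) (sm c.out *ᵥ e2)
        (act (sm (g * Sm)) rho) (act (sm g) rho) rho
      have h4 := GS_TS (N := N) g c.out
      rw [cos_out] at h4
      rw [← h4, ← h3, add_sub_cancel_right, sm_mul, act_mul (det_sm_ne _) (det_sm_ne _), act_S_rho,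
        GS_act _ (det_sm_pos g), ← GS_image_right _ (det_sm_ne c.out)]
      rfl
    rw [← mul_sub, ← Int.cast_sub, h2]
    split_ifs <;> push_cast <;> ring
  rw [Finset.sum_congr rfl fun c _ => h1 c, Finset.sum_add_distrib, ← Finset.mul_sum,
    ← Finset.mul_sum, Finset.sum_ite_eq, Finset.sum_ite_eq]
  simp

end

theorem isUnit_two {p : ℕ} [Fact p.Prime] (hp : p ≠ 2) : (2 : ZMod p) ≠ 0 := by
  intro h
  have : ((2 : ℕ) : ZMod p) = 0 := by exact_mod_cast h
  rw [ZMod.natCast_eq_zero_iff, Nat.prime_dvd_prime_iff_eq Fact.out Nat.prime_two] at this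
  exact hp this

/-- `S`-invariant functions give the zero functional. -/
theorem sum_S [NeZero N] {p : ℕ} [Fact p.Prime] (hp : p ≠ 2) (B : Cos N → ZMod p)
    (hB : ∀ c, B (rmul N Sm c) = B c) {f : V2 → V2 → ℤ} (hf : IsSymb N f) :
    ∑ c, B c * ((evc f c : ℤ) : ZMod p) = 0 := by
  have h1 : ∑ c, B c * ((evc f c : ℤ) : ZMod p) =
      -∑ c, B c * ((evc f c : ℤ) : ZMod p) := by
    conv_lhs => rw [← Equiv.sum_comp (rperm N Sm)]
    rw [← Finset.sum_neg_distrib]
    refine Finset.sum_congr rfl fun c _ => ?_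
    rw [rperm_apply, hB]
    obtain ⟨g, rfl⟩ := exists_cos c
    rw [rmul_cos, evc_cos hf, evc_cos hf, evg_S hf, Int.cast_neg, mul_neg]
  have h2 : 2 * ∑ c, B c * ((evc f c : ℤ) : ZMod p) = 0 := by
    rw [two_mul]; nth_rewrite 1 [h1]; exact neg_add_cancel _
  exact (mul_eq_zero.mp h2).resolve_left (isUnit_two hp)

/-- `U`-invariant functions give the zero functional. -/
theorem sum_U [NeZero N] {p : ℕ} [Fact p.Prime] (A : Cos N → ZMod p)
    (hA : ∀ c, A (rmul N Um c) = A c) {f : V2 → V2 → ℤ} (hf : IsSymb N f) :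
    ∑ c, A c * ((evc f c : ℤ) : ZMod p) = 0 := by
  have h0 : ∑ c, ((A c).val : ℤ) * evc f c = 0 := by
    have h1 : ∑ c, ((A c).val : ℤ) * evc f (rmul N Um c) = ∑ c, ((A c).val : ℤ) * evc f c := by
      conv_rhs => rw [← Equiv.sum_comp (rperm N Um)]
      refine Finset.sum_congr rfl fun c _ => ?_
      rw [rperm_apply, hA]
    have h2 : ∑ c, ((A c).val : ℤ) * evc f (rmul N Um (rmul N Um c)) =
        ∑ c, ((A c).val : ℤ) * evc f c := by
      rw [← h1]
      conv_rhs => rw [← Equiv.sum_comp (rperm N Um)]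
      refine Finset.sum_congr rfl fun c _ => ?_
      rw [rperm_apply, hA]
    have h3 : ∑ c, ((A c).val : ℤ) * evc f c + ∑ c, ((A c).val : ℤ) * evc f (rmul N Um c) +
        ∑ c, ((A c).val : ℤ) * evc f (rmul N Um (rmul N Um c)) = 0 := by
      rw [← Finset.sum_add_distrib, ← Finset.sum_add_distrib]
      refine Finset.sum_eq_zero fun c _ => ?_
      obtain ⟨g, rfl⟩ := exists_cos c
      rw [rmul_cos, rmul_cos, evc_cos hf, evc_cos hf, evc_cos hf, ← mul_add, ← mul_add,
        evg_U hf, mul_zero]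
    rw [h1, h2] at h3
    linarith
  have h1 := congrArg (Int.cast : ℤ → ZMod p) h0
  rw [Int.cast_sum, Int.cast_zero] at h1
  rw [← h1]
  refine Finset.sum_congr rfl fun c _ => ?_
  rw [Int.cast_mul]
  simp

/-- **Perfectness**: a functional modulo an odd prime killing all `Fs γ` vanishes. -/
theorem perfect [NeZero N] {p : ℕ} [Fact p.Prime] (hp : p ≠ 2) (φ : Symb N ℤ →+ ZMod p)
    (hφ : ∀ γ : Gamma0 N, φ (Fs N γ) = 0) : φ = 0 := by
  obtain ⟨v, hv⟩ := exists_repr φ
  have hv0 : ∀ γ : Gamma0 N, ∑ c, v c * ((evc (Fs N γ).1 c : ℤ) : ZMod p) = 0 := fun γ => by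
    rw [← hv, hφ]
  let A : Cos N → ZMod p := fun c => pot v c.out
  have hA : ∀ g, A (cos N g) = pot v g := by
    intro g
    obtain ⟨γ, hγ⟩ := cos_eq_iff.mp (cos_out (cos N g)).symm
    change pot v (cos N g).out = pot v g
    rw [hγ, pot_gamma v hv0]
  have hAU : ∀ c, A (rmul N Um c) = A c := by
    intro c
    obtain ⟨g, rfl⟩ := exists_cos c
    rw [rmul_cos, hA, hA, pot_U]
  let B : Cos N → ZMod p := fun c => A c - 4 * v c
  have hB : ∀ c, B (rmul N Sm c) = B c := by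
    intro c
    obtain ⟨g, rfl⟩ := exists_cos c
    have := pot_S v g
    change A _ - 4 * v _ = A _ - 4 * v _
    rw [rmul_cos, hA, hA]
    linear_combination this
  ext f
  rw [AddMonoidHom.zero_apply]
  have h1 := sum_U A hAU f.2
  have h2 := sum_S hp B hB f.2
  have h3 : 4 * φ f = 0 := by
    rw [hv, Finset.mul_sum]
    have : ∑ c, 4 * (v c * ((evc f.1 c : ℤ) : ZMod p)) =
        ∑ c, A c * ((evc f.1 c : ℤ) : ZMod p) - ∑ c, B c * ((evc f.1 c : ℤ) : ZMod p) := by
      rw [← Finset.sum_sub_distrib]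
      refine Finset.sum_congr rfl fun c _ => ?_
      change _ = A c * _ - (A c - 4 * v c) * _
      ring
    rw [this, h1, h2, sub_zero]
  have h4 : (4 : ZMod p) ≠ 0 := by
    have : (4 : ZMod p) = 2 * 2 := by norm_num
    rw [this]
    exact mul_ne_zero (isUnit_two hp) (isUnit_two hp)
  exact (mul_eq_zero.mp h3).resolve_left h4

end Fermat.Agent.Ihara
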