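import Fermat.Agent.Ihara.Manin

set_option autoImplicit false

/-!
# The side of a point with respect to a geodesic
-/

open CongruenceSubgroup UpperHalfPlane
open scoped MatrixGroups

noncomputable section

namespace Fermat.Agent.Ihara

open Fermat.Agent.Top Matrix

/-- `Re ((u₀ - u₁ z) * conj (v₀ - v₁ z))`, `z = x + i y` -/
def qr (u v : V2) (x y : ℝ) : ℝ := (u 0 - u 1 * x) * (v 0 - v 1 * x) + u 1 * v 1 * y ^ 2

/-- `|u₀ - u₁ z|²` -/
def nr (u : V2) (x y : ℝ) : ℝ := (u 0 - u 1 * x) ^ 2 + (u 1 * y) ^ 2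

/-- determinant -/
def dt (u v : V2) : ℤ := u 0 * v 1 - u 1 * v 0

theorem qr_sq_add (u v : V2) (x y : ℝ) :
    qr u v x y ^ 2 + (dt u v * y) ^ 2 = nr u x y * nr v x y := by
  unfold qr dt nr
  push_cast
  ring

theorem nr_nonneg (u : V2) (x y : ℝ) : 0 ≤ nr u x y := by unfold nr; positivity

theorem nr_lower {u : V2} (hu : u ≠ 0) (x y : ℝ) {m : ℝ} (hm : 0 < m) (hmy : m ≤ y) :
    min 1 (m ^ 2) ≤ nr u x y := by
  unfold nr
  by_cases h1 : u 1 = 0
  · have h0 : u 0 ≠ 0 := fun h0 => hu (V2_ext h0 h1)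
    have h2 : (1 : ℝ) ≤ (u 0 : ℝ) ^ 2 := by
      have : (1 : ℤ) ≤ (u 0) ^ 2 := by
        have := sq_pos_of_ne_zero h0
        omega
      exact_mod_cast this
    rw [h1]
    simp only [Int.cast_zero, zero_mul, sub_zero]
    refine (min_le_left _ _).trans ?_
    nlinarith
  · have h2 : (1 : ℝ) ≤ (u 1 : ℝ) ^ 2 := by
      have : (1 : ℤ) ≤ (u 1) ^ 2 := by
        have := sq_pos_of_ne_zero h1
        omega
      exact_mod_cast this
    refine (min_le_right _ _).trans ?_
    have h3 : m ^ 2 ≤ y ^ 2 := by nlinarith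
    have h4 : (0 : ℝ) ≤ (u 0 - u 1 * x) ^ 2 := sq_nonneg _
    nlinarith [mul_nonneg (sub_nonneg.mpr h2) (sq_nonneg y)]

theorem dt_mulVec (X : M2) (u v : V2) : dt (X *ᵥ u) (X *ᵥ v) = X.det * dt u v := by
  unfold dt
  rw [mulVec_0, mulVec_1, mulVec_0, mulVec_1, Matrix.det_fin_two]
  ring

theorem dt_smul_left (m : ℤ) (u v : V2) : dt (m • u) v = m * dt u v := by
  simp [dt]; ring

theorem dt_smul_right (m : ℤ) (u v : V2) : dt u (m • v) = m * dt u v := by
  simp [dt]; ring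

theorem dt_anti (u v : V2) : dt v u = -dt u v := by simp [dt]; ring

theorem qr_smul_left (m : ℤ) (u v : V2) (x y : ℝ) : qr (m • u) v x y = m * qr u v x y := by
  simp [qr]; ring

theorem qr_smul_right (m : ℤ) (u v : V2) (x y : ℝ) : qr u (m • v) x y = m * qr u v x y := by
  simp [qr]; ring

theorem qr_comm (u v : V2) (x y : ℝ) : qr v u x y = qr u v x y := by
  simp [qr]; ring

/-- A matrix is determined by its values on two independent vectors. -/
theorem mulVec_pair_injective {u v : V2} (h : dt u v ≠ 0) {X Y : M2} (hu : X *ᵥ u = Y *ᵥ u)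
    (hv : X *ᵥ v = Y *ᵥ v) : X = Y := by
  have h1 := congrFun hu 0
  have h2 := congrFun hu 1
  have h3 := congrFun hv 0
  have h4 := congrFun hv 1
  rw [mulVec_0, mulVec_0] at h1 h3
  rw [mulVec_1, mulVec_1] at h2 h4
  unfold dt at h
  ext i j
  apply mul_left_cancel₀ h
  fin_cases i <;> fin_cases j <;> simp only [Fin.zero_eta, Fin.mk_one]
  · linear_combination v 1 * h1 - u 1 * h3
  · linear_combination u 0 * h3 - v 0 * h1
  · linear_combination v 1 * h2 - u 1 * h4
  · linear_combination u 0 * h4 - v 0 * h2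

/-- Boxes are finite. -/
theorem finite_box (C : ℤ) : {u : V2 | |u 0| ≤ C ∧ |u 1| ≤ C}.Finite := by
  refine (Set.finite_Icc (fun _ => -C : V2) (fun _ => C)).subset ?_
  rintro u ⟨h0, h1⟩
  rw [abs_le] at h0 h1
  constructor
  · intro i; fin_cases i
    · exact h0.1
    · exact h1.1
  · intro i; fin_cases i
    · exact h0.2
    · exact h1.2

/-- Vectors with bounded norm at some point of a bounded region are finite in number. -/
theorem finite_nr (m R B : ℝ) (hm : 0 < m) :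
    {u : V2 | ∃ x y : ℝ, m ≤ y ∧ |x| ≤ R ∧ nr u x y ≤ B}.Finite := by
  by_cases hB : 0 ≤ B
  swap
  · refine Set.finite_empty.subset ?_
    rintro u ⟨x, y, -, -, h⟩
    exact absurd (nr_nonneg u x y) (by linarith)
  obtain ⟨C, hC⟩ := exists_int_gt (Real.sqrt B / m + (Real.sqrt B + Real.sqrt B / m * |R|))
  refine (finite_box C).subset ?_
  rintro u ⟨x, y, hy, hx, h⟩
  have hs := Real.sqrt_nonneg B
  have hy0 : 0 < y := hm.trans_le hy
  have hu1 : |(u 1 : ℝ)| ≤ Real.sqrt B / m := by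
    have h1 : ((u 1 : ℝ) * m) ^ 2 ≤ B := by
      have h2 : ((u 1 : ℝ) * y) ^ 2 ≤ B := by
        unfold nr at h; nlinarith [sq_nonneg ((u 0 : ℝ) - u 1 * x)]
      have h3 : ((u 1 : ℝ) * m) ^ 2 ≤ ((u 1 : ℝ) * y) ^ 2 := by
        rw [mul_pow, mul_pow]
        have : m ^ 2 ≤ y ^ 2 := by nlinarith
        exact mul_le_mul_of_nonneg_left this (sq_nonneg _)
      exact h3.trans h2
    have h4 := Real.abs_le_sqrt h1
    rw [abs_mul, abs_of_pos hm] at h4
    rw [le_div_iff₀ hm]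
    exact h4
  have hu0 : |(u 0 : ℝ)| ≤ Real.sqrt B + Real.sqrt B / m * |R| := by
    have h2 : ((u 0 : ℝ) - u 1 * x) ^ 2 ≤ B := by
      unfold nr at h; nlinarith [sq_nonneg ((u 1 : ℝ) * y)]
    have h4 := Real.abs_le_sqrt h2
    have h5 : (u 0 : ℝ) = (u 0 - u 1 * x) + u 1 * x := by ring
    rw [h5]
    refine (abs_add_le _ _).trans (add_le_add h4 ?_)
    rw [abs_mul]
    exact mul_le_mul hu1 (hx.trans (le_abs_self R)) (abs_nonneg _) (by positivity)
  have hp1 : 0 ≤ Real.sqrt B / m := by positivity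
  have hp2 : 0 ≤ Real.sqrt B + Real.sqrt B / m * |R| := by positivity
  constructor
  · have : |(u 0 : ℝ)| ≤ C := by linarith
    exact_mod_cast this
  · have : |(u 1 : ℝ)| ≤ C := by linarith
    exact_mod_cast this

/-- Sign function with integral values. -/
def sg (r : ℝ) : ℤ := ((SignType.sign r : SignType) : ℤ)

theorem sg_pos {r : ℝ} (h : 0 < r) : sg r = 1 := by rw [sg, sign_pos h]; rfl
theorem sg_neg {r : ℝ} (h : r < 0) : sg r = -1 := by rw [sg, sign_neg h]; rfl
@[simp] theorem sg_zero : sg 0 = 0 := by rw [sg, sign_zero]; rfl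

theorem sg_mul_pos {r c : ℝ} (hc : 0 < c) : sg (c * r) = sg r := by
  rcases lt_trichotomy r 0 with h | h | h
  · rw [sg_neg h, sg_neg (mul_neg_of_pos_of_neg hc h)]
  · rw [h, mul_zero]
  · rw [sg_pos h, sg_pos (mul_pos hc h)]

theorem sg_neg' (r : ℝ) : sg (-r) = -sg r := by
  rcases lt_trichotomy r 0 with h | h | h
  · rw [sg_neg h, sg_pos (by linarith)]; norm_num
  · rw [h]; simp
  · rw [sg_pos h, sg_neg (by linarith)]

/-- The side of `z` with respect to the oriented geodesic from `u` to `v`. -/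
def sd (u v : V2) (z : ℍ) : ℤ := sg ((dt u v : ℝ) * qr u v z.re z.im)

theorem sd_smul_left {m : ℤ} (hm : m ≠ 0) (u v : V2) (z : ℍ) : sd (m • u) v z = sd u v z := by
  unfold sd
  rw [dt_smul_left, qr_smul_left]
  push_cast
  have : (m : ℝ) * (dt u v) * (m * qr u v z.re z.im) = (m : ℝ) ^ 2 * (dt u v * qr u v z.re z.im) := by
    ring
  rw [this, sg_mul_pos]
  have : (m : ℝ) ≠ 0 := by exact_mod_cast hm
  positivity

theorem sd_anti (u v : V2) (z : ℍ) : sd v u z = -sd u v z := by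
  unfold sd
  rw [dt_anti, qr_comm, ← sg_neg']
  push_cast
  congr 1; ring

theorem sd_smul_right {m : ℤ} (hm : m ≠ 0) (u v : V2) (z : ℍ) : sd u (m • v) z = sd u v z := by
  rw [sd_anti, sd_smul_left hm, ← sd_anti]

theorem sd_eq_zero_of_dt {u v : V2} (h : dt u v = 0) (z : ℍ) : sd u v z = 0 := by
  unfold sd; rw [h]; simp

@[simp] theorem sd_zero_left (v : V2) (z : ℍ) : sd 0 v z = 0 := sd_eq_zero_of_dt (by simp [dt]) z
@[simp] theorem sd_zero_right (v : V2) (z : ℍ) : sd v 0 z = 0 := sd_eq_zero_of_dt (by simp [dt]) z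

/-! ### action of integral matrices -/

/-- The element of `GL₂(ℝ)` attached to an integral matrix. -/
def glz (X : M2) : GL (Fin 2) ℝ :=
  if h : X.det ≠ 0 then Matrix.GeneralLinearGroup.mkOfDetNeZero (X.map (Int.cast : ℤ → ℝ)) (by
    have h1 := (Int.castRingHom ℝ).map_det X
    have h2 : (Int.castRingHom ℝ).mapMatrix X = X.map (Int.cast : ℤ → ℝ) := rfl
    rw [← h2, ← h1]
    change ((X.det : ℤ) : ℝ) ≠ 0
    exact_mod_cast h) else 1

theorem glz_val {X : M2} (h : X.det ≠ 0) :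
    (glz X : Matrix (Fin 2) (Fin 2) ℝ) = X.map (Int.cast : ℤ → ℝ) := by
  rw [glz, dif_pos h]; rfl

theorem det_glz {X : M2} (h : X.det ≠ 0) : ((glz X).det : ℝ) = X.det := by
  rw [Matrix.GeneralLinearGroup.val_det_apply, glz_val h]
  have h1 := (Int.castRingHom ℝ).map_det X
  exact h1.symm

/-- The action of integral matrices of nonzero determinant on the upper half plane. -/
def act (X : M2) (z : ℍ) : ℍ := glz X • z

theorem act_mul {X Y : M2} (hX : X.det ≠ 0) (hY : Y.det ≠ 0) (z : ℍ) :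
    act (X * Y) z = act X (act Y z) := by
  unfold act
  rw [← mul_smul]
  congr 1
  apply Units.ext
  rw [Units.val_mul, glz_val hX, glz_val hY, glz_val (by rw [Matrix.det_mul]; exact mul_ne_zero hX hY),
    map_mul_cast]

theorem act_one (z : ℍ) : act 1 z = z := by
  unfold act
  have : glz 1 = 1 := by
    apply Units.ext
    rw [glz_val (by simp)]
    ext i j
    fin_cases i <;> fin_cases j <;> simp
  rw [this, one_smul]

theorem coe_act {X : M2} (h : 0 < X.det) (z : ℍ) :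
    ((act X z : ℍ) : ℂ) = ((X 0 0 : ℂ) * z + X 0 1) / ((X 1 0 : ℂ) * z + X 1 1) := by
  unfold act
  have hdet : 0 < ((glz X).det : ℝ) := by rw [det_glz h.ne']; exact_mod_cast h
  rw [UpperHalfPlane.coe_smul_of_det_pos hdet]
  simp only [UpperHalfPlane.num, UpperHalfPlane.denom, glz_val h.ne', Matrix.map_apply]
  push_cast
  rfl

theorem denom_ne {X : M2} (h : 0 < X.det) (z : ℍ) : (X 1 0 : ℂ) * z + X 1 1 ≠ 0 := by
  intro h0
  have him := congrArg Complex.im h0
  have hre := congrArg Complex.re h0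
  simp at him hre
  rcases him with h1 | h1
  · rw [h1] at hre
    simp at hre
    rw [Matrix.det_fin_two, h1, hre] at h
    simp at h
  · exact z.im_pos.ne' h1

theorem qr_eq_re (u v : V2) (z : ℍ) :
    qr u v z.re z.im = (((u 0 : ℂ) - u 1 * z) * (starRingEnd ℂ) ((v 0 : ℂ) - v 1 * z)).re := by
  simp [qr]; ring

theorem sd_act {X : M2} (h : 0 < X.det) (u v : V2) (z : ℍ) :
    sd (X *ᵥ u) (X *ᵥ v) (act X z) = sd u v z := by
  have hden := denom_ne h z
  have hdetR : (0 : ℝ) < X.det := by exact_mod_cast h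
  have hp : ∀ u : V2, (((X *ᵥ u) 0 : ℤ) : ℂ) - ((X *ᵥ u) 1 : ℤ) * (act X z : ℍ) =
      X.det * ((u 0 : ℂ) - u 1 * z) / ((X 1 0 : ℂ) * z + X 1 1) := by
    intro u
    rw [coe_act h, mulVec_0, mulVec_1, Matrix.det_fin_two]
    push_cast
    field_simp
    ring
  have hns : 0 < Complex.normSq ((X 1 0 : ℂ) * z + X 1 1) := Complex.normSq_pos.mpr hden
  have hq : qr (X *ᵥ u) (X *ᵥ v) (act X z).re (act X z).im =
      (X.det : ℝ) ^ 2 / Complex.normSq ((X 1 0 : ℂ) * z + X 1 1) * qr u v z.re z.im := by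
    rw [qr_eq_re, qr_eq_re, hp, hp]
    have e : (X.det : ℂ) * ((u 0 : ℂ) - u 1 * z) / ((X 1 0 : ℂ) * z + X 1 1) *
        (starRingEnd ℂ) ((X.det : ℂ) * ((v 0 : ℂ) - v 1 * z) / ((X 1 0 : ℂ) * z + X 1 1)) =
        (((X.det : ℝ) ^ 2 / Complex.normSq ((X 1 0 : ℂ) * z + X 1 1) : ℝ) : ℂ) *
          (((u 0 : ℂ) - u 1 * z) * (starRingEnd ℂ) ((v 0 : ℂ) - v 1 * z)) := by
      rw [map_div₀, map_mul, map_intCast]
      have h1 : (((X.det : ℝ) ^ 2 / Complex.normSq ((X 1 0 : ℂ) * z + X 1 1) : ℝ) : ℂ) =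
          (X.det : ℂ) ^ 2 / (((X 1 0 : ℂ) * z + X 1 1) *
            (starRingEnd ℂ) ((X 1 0 : ℂ) * z + X 1 1)) := by
        rw [Complex.mul_conj]
        simp only [Complex.ofReal_div, Complex.ofReal_pow, Complex.ofReal_intCast]
      rw [h1]
      have hden' : (starRingEnd ℂ) ((X 1 0 : ℂ) * z + X 1 1) ≠ 0 :=
        (map_ne_zero _).mpr hden
      field_simp
    rw [e, Complex.re_ofReal_mul]
  unfold sd
  rw [dt_mulVec, hq]
  have : ((X.det * dt u v : ℤ) : ℝ) *
      ((X.det : ℝ) ^ 2 / Complex.normSq ((X 1 0 : ℂ) * z + X 1 1) * qr u v z.re z.im) =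
      ((X.det : ℝ) ^ 3 / Complex.normSq ((X 1 0 : ℂ) * z + X 1 1)) *
        (dt u v * qr u v z.re z.im) := by
    push_cast; ring
  rw [this, sg_mul_pos]
  positivity

theorem sd_act_adj {X : M2} (h : 0 < X.det) (u v : V2) (z : ℍ) :
    sd u v (act X z) = sd (X.adjugate *ᵥ u) (X.adjugate *ᵥ v) z := by
  rw [← sd_act h (X.adjugate *ᵥ u) (X.adjugate *ᵥ v) z, mulVec_mulVec, mulVec_mulVec,
    Matrix.mul_adjugate, smul_mulVec, smul_mulVec, one_mulVec, one_mulVec, sd_smul_left h.ne',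
    sd_smul_right h.ne']

end Fermat.Agent.Ihara
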