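import Fermat.Agent.Ihara.Lemma
import Fermat.Agent.Top.HomLattice

set_option autoImplicit false

/-!
# Ihara's lemma, annihilator form

There is an `n` depending only on `N` such that `T_ℓ - ℓ - 1`, for primes `ℓ ≡ 1` modulo `n`, kills
all homomorphisms `Γ₀(N) → k` which glue along `Γ₀(Nq)` and vanish on the standard unipotents.
-/

open CongruenceSubgroup
open scoped MatrixGroups

namespace Fermat.Agent.Ihara

open Fermat.Agent.Top

theorem exists_gens (N : ℕ) [NeZero N] : ∃ s : Finset (Gamma0 N),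
    Subgroup.closure (s : Set (Gamma0 N)) = ⊤ ∧ ∀ γ ∈ s, en γ 1 1 ≠ 0 := by
  classical
  obtain ⟨s, hs⟩ := Group.fg_def.mp (inferInstance : Group.FG (Gamma0 N))
  let f : Gamma0 N → Gamma0 N := fun γ => if en γ 1 1 = 0 then γ * tr N 1 else γ
  have hf : ∀ γ, en (f γ) 1 1 ≠ 0 := by
    intro γ
    simp only [f]
    split_ifs with h
    · have h11 : en (γ * tr N 1) 1 1 = en γ 1 0 := by
        rw [en_mul]; simp [tr, h]
      rw [h11]
      intro h0
      have hdet := en_det γ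
      rw [h, h0] at hdet
      simp at hdet
    · exact h
  refine ⟨insert (tr N 1) (s.image f), ?_, ?_⟩
  · rw [eq_top_iff, ← hs, Subgroup.closure_le]
    intro γ hγ
    have h1 : f γ ∈ Subgroup.closure ((insert (tr N 1) (s.image f) : Finset (Gamma0 N)) :
        Set (Gamma0 N)) := Subgroup.subset_closure (by
          rw [Finset.coe_insert]
          exact Or.inr (Finset.mem_coe.mpr (Finset.mem_image_of_mem f hγ)))
    have h2 : tr N 1 ∈ Subgroup.closure ((insert (tr N 1) (s.image f) : Finset (Gamma0 N)) :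
        Set (Gamma0 N)) := Subgroup.subset_closure (by
          rw [Finset.coe_insert]
          exact Or.inl rfl)
    simp only [f] at h1
    split_ifs at h1 with h
    · have := Subgroup.mul_mem _ h1 (Subgroup.inv_mem _ h2)
      rwa [mul_inv_cancel_right] at this
    · exact h1
  · intro γ hγ
    rw [Finset.mem_insert] at hγ
    rcases hγ with rfl | hγ
    · simp [tr]
    · obtain ⟨γ', -, rfl⟩ := Finset.mem_image.mp hγ
      exact hf γ'

/-- Generators of `Γ₀(N)` with nonzero lower right entry. -/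
noncomputable def gens (N : ℕ) [NeZero N] : Finset (Gamma0 N) := (exists_gens N).choose

theorem closure_gens (N : ℕ) [NeZero N] :
    Subgroup.closure (gens N : Set (Gamma0 N)) = ⊤ := (exists_gens N).choose_spec.1

theorem gens_ne (N : ℕ) [NeZero N] {γ : Gamma0 N} (h : γ ∈ gens N) : en γ 1 1 ≠ 0 :=
  (exists_gens N).choose_spec.2 γ h

/-- The modulus in Ihara's lemma. -/
noncomputable def nI (N : ℕ) [NeZero N] : ℕ := ∏ γ ∈ gens N, (en γ 1 1).natAbs

theorem nI_ne_zero (N : ℕ) [NeZero N] : nI N ≠ 0 :=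
  Finset.prod_ne_zero_iff.mpr fun _ h => Int.natAbs_ne_zero.mpr (gens_ne N h)

theorem hom_ext_gens {N : ℕ} [NeZero N] {A : Type*} [AddCommGroup A]
    {a b : Additive (Gamma0 N) →+ A} (h : ∀ γ ∈ gens N, ev a γ = ev b γ) : a = b := by
  have h1 : Subgroup.closure (gens N : Set (Gamma0 N)) ≤
      (AddMonoidHom.toMultiplicativeRight a).eqLocus (AddMonoidHom.toMultiplicativeRight b) := by
    rw [Subgroup.closure_le]
    intro x hx
    exact h x hx
  refine AddMonoidHom.ext fun x => ?_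
  have h2 : Additive.toMul x ∈ Subgroup.closure (gens N : Set (Gamma0 N)) := by
    rw [closure_gens]; trivial
  exact h1 h2

variable {N : ℕ} [NeZero N] {k : Type*} [Field k]

/-- A prime `ℓ` is good for `N`, `q`, `k`. -/
structure GoodP (N q : ℕ) (k : Type*) [Field k] (ℓ : ℕ) : Prop where
  hN : ¬ ℓ ∣ N
  h2 : ℓ ≠ 2
  hq : ℓ ≠ q
  hk : (ℓ : k) ≠ 0

/-- Ihara's lemma in the unipotent case. -/
theorem Glue.hop_eq {q : ℕ} (hq : q.Prime) (hqN : ¬ q ∣ N) {a b : Additive (Gamma0 N) →+ k}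
    (h : Glue (q : ℤ) a b) (ha : Unip a) (hb : Unip b) (ℓ : Nat.Primes) (hℓ : GoodP N q k ℓ)
    (h1 : (ℓ : ℕ) ≡ 1 [MOD nI N]) : hop N ℓ a = ((ℓ : ℕ) + 1) • a := by
  refine hom_ext_gens fun γ hγ => ?_
  have hd := gens_ne N hγ
  have hdvd : (en γ 1 1).natAbs ∣ nI N := Finset.dvd_prod_of_mem _ hγ
  have h2 : (ℓ : ℕ) ≡ 1 [MOD (en γ 1 1).natAbs] := h1.of_dvd hdvd
  have hcd : IsCoprime (en γ 1 0) (en γ 1 1) := ⟨-en γ 0 1, en γ 0 0, by
    linear_combination en_det γ⟩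
  have hNd : Nat.Coprime N (en γ 1 1).natAbs := by
    have := hcd.of_isCoprime_of_dvd_left (dvd_en γ)
    rw [Int.isCoprime_iff_gcd_eq_one] at this
    simpa [Int.gcd] using this
  have hu : IsUnit (en γ 1 0 : ZMod (en γ 1 1).natAbs) := by
    rw [ZMod.coe_int_isUnit_iff_isCoprime, Int.natCast_natAbs]
    rcases abs_choice (en γ 1 1) with h3 | h3
    · rw [h3]; exact hcd.symm
    · rw [h3]; exact hcd.symm.neg_left
  obtain ⟨x, hx⟩ := hu
  have hℓd : Nat.Coprime ℓ (en γ 1 1).natAbs := by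
    have : Nat.gcd ℓ (en γ 1 1).natAbs = Nat.gcd 1 (en γ 1 1).natAbs := h2.gcd_eq
    rw [Nat.gcd_one_left] at this
    exact this
  have hone : ZMod.unitOfCoprime _ hℓd = 1 := by
    apply Units.ext
    rw [ZMod.coe_unitOfCoprime, Units.val_one]
    have h3 := (ZMod.natCast_eq_natCast_iff (ℓ : ℕ) 1 (en γ 1 1).natAbs).mpr h2
    rw [h3, Nat.cast_one]
  have hTa := ha.hop ℓ hℓ.hN hℓ.hk
  have key := h.key' hq hqN (NeZero.ne N) ℓ hℓ.hN hℓ.h2 hℓ.hq hℓ.hk ha hb hd hNd hℓd x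
  rw [hone, inv_one, one_mul, ← hTa.phi_eq_Fd hd hNd x (dvd_en γ) hx.symm,
    ← ha.phi_eq_Fd hd hNd x (dvd_en γ) hx.symm, hTa.phi_eq γ rfl rfl, ha.phi_eq γ rfl rfl] at key
  rw [key]
  change _ = ((ℓ : ℕ) + 1) • ev a γ
  rw [nsmul_eq_mul]
  push_cast
  ring

omit [NeZero N] in
theorem ev_sub_smul (a a' : Additive (Gamma0 N) →+ k) (n : ℕ) (γ : Gamma0 N) :
    ev (a' - n • a) γ = ev a' γ - n * ev a γ := by
  change ev a' γ - n • ev a γ = _
  rw [nsmul_eq_mul]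

omit [NeZero N] in
theorem Glue.sub_smul {q : ℤ} {a b a' b' : Additive (Gamma0 N) →+ k}
    (h : Glue q a b) (h' : Glue q a' b') (n : ℕ) : Glue q (a' - n • a) (b' - n • b) := by
  intro γ γ' hr
  rw [ev_sub_smul, ev_sub_smul, h γ γ' hr, h' γ γ' hr]

omit [NeZero N] in
theorem unip_hop_sub (ℓ : Nat.Primes) (hℓN : ¬ (ℓ : ℕ) ∣ N) (hℓk : ((ℓ : ℕ) : k) ≠ 0)
    (a : Additive (Gamma0 N) →+ k) : Unip (hop N ℓ a - ((ℓ : ℕ) + 1) • a) := by
  constructor
  · rw [ev_sub_smul, ev_hop_tr ℓ hℓN hℓk]; push_cast; ring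
  · rw [ev_sub_smul, ev_hop_lo ℓ hℓN hℓk]; push_cast; ring

/-- **Ihara's lemma**, general case. -/
theorem Glue.hop_sq {q : ℕ} (hq : q.Prime) (hqN : ¬ q ∣ N) {a b : Additive (Gamma0 N) →+ k}
    (h : Glue (q : ℤ) a b) (ℓ ℓ' : Nat.Primes) (h' : Glue (q : ℤ) (hop N ℓ' a) (hop N ℓ' b))
    (hℓ : GoodP N q k ℓ) (hℓ' : GoodP N q k ℓ') (h1 : (ℓ : ℕ) ≡ 1 [MOD nI N]) :
    hop N ℓ (hop N ℓ' a - ((ℓ' : ℕ) + 1) • a) =
      ((ℓ : ℕ) + 1) • (hop N ℓ' a - ((ℓ' : ℕ) + 1) • a) :=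
  (h.sub_smul h' _).hop_eq hq hqN (unip_hop_sub ℓ' hℓ'.hN hℓ'.hk a)
    (unip_hop_sub ℓ' hℓ'.hN hℓ'.hk b) ℓ hℓ h1

end Fermat.Agent.Ihara
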