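import Fermat.Agent.Ihara.Sq

set_option autoImplicit false

/-!
# Modular symbols: `Γ₀(N)`-invariant additive functions of two cusps
-/

open CongruenceSubgroup
open scoped MatrixGroups

namespace Fermat.Agent.Ihara

open Fermat.Agent.Top Matrix

/-- Vectors; a nonzero vector represents a cusp. -/
abbrev V2 := Fin 2 → ℤ

/-- Integral matrices. -/
abbrev M2 := Matrix (Fin 2) (Fin 2) ℤ

variable {N M : ℕ} {A : Type*} [AddCommGroup A]

/-- The underlying matrix. -/
def mt (γ : Gamma0 N) : M2 := ((γ : SL(2, ℤ)) : Matrix (Fin 2) (Fin 2) ℤ)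

theorem mt_apply (γ : Gamma0 N) (i j : Fin 2) : mt γ i j = en γ i j := rfl

theorem mt_mul (γ γ' : Gamma0 N) : mt (γ * γ') = mt γ * mt γ' := by
  simp [mt]

theorem mt_one : mt (1 : Gamma0 N) = 1 := by simp [mt]

theorem det_mt (γ : Gamma0 N) : (mt γ).det = 1 := (γ : SL(2, ℤ)).det_coe

theorem mt_inv_mul (γ : Gamma0 N) : mt γ⁻¹ * mt γ = 1 := by
  rw [← mt_mul, inv_mul_cancel, mt_one]

theorem mt_mul_inv (γ : Gamma0 N) : mt γ * mt γ⁻¹ = 1 := by
  rw [← mt_mul, mul_inv_cancel, mt_one]

theorem mt_injective : Function.Injective (mt (N := N)) := by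
  intro γ γ' h
  apply Subtype.ext
  apply Subtype.ext
  exact h

theorem mt_mul_eq_iff (γ : Gamma0 N) (X Y : M2) : mt γ * X = Y ↔ X = mt γ⁻¹ * Y := by
  constructor
  · rintro rfl
    rw [← Matrix.mul_assoc, mt_inv_mul, Matrix.one_mul]
  · rintro rfl
    rw [← Matrix.mul_assoc, mt_mul_inv, Matrix.one_mul]

theorem mul_mt_cancel {X Y : M2} (γ : Gamma0 N) (h : X * mt γ = Y * mt γ) : X = Y := by
  have := congrArg (· * mt γ⁻¹) h
  simpa only [Matrix.mul_assoc, mt_mul_inv, Matrix.mul_one] using this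

theorem mt_mulVec_ne_zero (γ : Gamma0 N) {u : V2} (hu : u ≠ 0) : mt γ *ᵥ u ≠ 0 := by
  intro h
  apply hu
  have := congrArg (mt γ⁻¹ *ᵥ ·) h
  simpa only [mulVec_mulVec, mt_inv_mul, one_mulVec, mulVec_zero] using this

theorem mulVec_ne_zero_of_det {X : M2} (hX : X.det ≠ 0) {u : V2} (hu : u ≠ 0) : X *ᵥ u ≠ 0 :=
  fun h => hX ((Matrix.exists_mulVec_eq_zero_iff).mp ⟨u, hu, h⟩)

theorem mulVec_injective_of_det {X : M2} (hX : X.det ≠ 0) {u v : V2} (h : X *ᵥ u = X *ᵥ v) :
    u = v := by
  by_contra hne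
  apply mulVec_ne_zero_of_det hX (sub_ne_zero.mpr hne)
  rw [mulVec_sub, h, sub_self]

/-- Modular symbols with values in `A`. -/
structure IsSymb (N : ℕ) (f : V2 → V2 → A) : Prop where
  zero_left : ∀ v, f 0 v = 0
  zero_right : ∀ v, f v 0 = 0
  add : ∀ u v w, u ≠ 0 → v ≠ 0 → w ≠ 0 → f u v + f v w = f u w
  smul_left : ∀ (m : ℤ) u v, m ≠ 0 → f (m • u) v = f u v
  inv : ∀ (γ : Gamma0 N) u v, f (mt γ *ᵥ u) (mt γ *ᵥ v) = f u v

namespace IsSymb

variable {f g : V2 → V2 → A} (hf : IsSymb N f)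

include hf

theorem self (u : V2) : f u u = 0 := by
  by_cases hu : u = 0
  · subst hu; exact hf.zero_left 0
  · have := hf.add u u u hu hu hu
    exact add_eq_left.mp this

theorem anti (u v : V2) : f v u = -f u v := by
  by_cases hu : u = 0
  · subst hu; rw [hf.zero_left, hf.zero_right, neg_zero]
  by_cases hv : v = 0
  · subst hv; rw [hf.zero_left, hf.zero_right, neg_zero]
  have := hf.add u v u hu hv hu
  rw [hf.self] at this
  exact (neg_eq_of_add_eq_zero_right this).symm

theorem smul_right (m : ℤ) (u v : V2) (hm : m ≠ 0) : f u (m • v) = f u v := by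
  rw [hf.anti (m • v) u, hf.smul_left m v u hm, ← hf.anti]

theorem smul_smul {m : ℤ} (hm : m ≠ 0) (u v : V2) : f (m • u) (m • v) = f u v := by
  rw [hf.smul_left _ _ _ hm, hf.smul_right _ _ _ hm]

theorem neg_left (u v : V2) : f (-u) v = f u v := by
  have := hf.smul_left (-1) u v (by norm_num)
  simpa using this

theorem neg_right (u v : V2) : f u (-v) = f u v := by
  have := hf.smul_right (-1) u v (by norm_num)
  simpa using this

theorem sub_eq {u v w : V2} (hu : u ≠ 0) (hv : v ≠ 0) (hw : w ≠ 0) : f u w - f u v = f v w := by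
  rw [← hf.add u v w hu hv hw]; abel

theorem add' (hg : IsSymb N g) : IsSymb N (f + g) where
  zero_left v := by rw [Pi.add_apply, Pi.add_apply, hf.zero_left, hg.zero_left, add_zero]
  zero_right v := by rw [Pi.add_apply, Pi.add_apply, hf.zero_right, hg.zero_right, add_zero]
  add u v w hu hv hw := by
    simp only [Pi.add_apply]
    rw [← hf.add u v w hu hv hw, ← hg.add u v w hu hv hw]; abel
  smul_left m u v hm := by
    simp only [Pi.add_apply]
    rw [hf.smul_left m u v hm, hg.smul_left m u v hm]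
  inv γ u v := by
    simp only [Pi.add_apply]
    rw [hf.inv, hg.inv]

theorem neg' : IsSymb N (-f) where
  zero_left v := by simp [hf.zero_left]
  zero_right v := by simp [hf.zero_right]
  add u v w hu hv hw := by
    simp only [Pi.neg_apply]
    rw [← hf.add u v w hu hv hw]; abel
  smul_left m u v hm := by
    simp only [Pi.neg_apply]
    rw [hf.smul_left m u v hm]
  inv γ u v := by
    simp only [Pi.neg_apply]
    rw [hf.inv]

/-- Change of coefficients. -/
theorem map {B : Type*} [AddCommGroup B] (φ : A →+ B) : IsSymb N (fun u v => φ (f u v)) where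
  zero_left v := by simp [hf.zero_left]
  zero_right v := by simp [hf.zero_right]
  add u v w hu hv hw := by rw [← hf.add u v w hu hv hw, map_add]
  smul_left m u v hm := by rw [hf.smul_left m u v hm]
  inv γ u v := by rw [hf.inv]

end IsSymb

theorem IsSymb.zero : IsSymb N (0 : V2 → V2 → A) := by
  constructor <;> intros <;> simp

/-- The group of modular symbols. -/
def Symb (N : ℕ) (A : Type*) [AddCommGroup A] : AddSubgroup (V2 → V2 → A) where
  carrier := {f | IsSymb N f}
  add_mem' hf hg := IsSymb.add' hf hg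
  zero_mem' := IsSymb.zero
  neg_mem' hf := IsSymb.neg' hf

theorem mem_Symb {f : V2 → V2 → A} : f ∈ Symb N A ↔ IsSymb N f := Iff.rfl

instance : CoeFun (Symb N A) fun _ => V2 → V2 → A := ⟨fun f => f.1⟩

/-! ### Systems of representatives -/

/-- Two equivalent systems of representatives give the same sum. -/
theorem sum_eq_of_factor {I J : Type*} [Fintype I] [Fintype J] {D : I → M2} {E : J → M2}
    (F : M2 → A) (hF : ∀ (γ : Gamma0 N) X, F (mt γ * X) = F X)
    (hD : ∀ (γ' : Gamma0 N) i j, mt γ' * D i = D j → i = j)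
    (hcard : Fintype.card I = Fintype.card J)
    (h : ∀ i, ∃ (γ' : Gamma0 N) (j : J), D i = mt γ' * E j) :
    ∑ i, F (D i) = ∑ j, F (E j) := by
  choose g e he using h
  have hinj : Function.Injective e := by
    intro i j hij
    refine hD (g j * (g i)⁻¹) i j ?_
    rw [he i, he j, hij, mt_mul, Matrix.mul_assoc, ← Matrix.mul_assoc (mt (g i)⁻¹), mt_inv_mul,
      Matrix.one_mul]
  have hbij : Function.Bijective e := (Fintype.bijective_iff_injective_and_card e).mpr ⟨hinj, hcard⟩
  rw [← Equiv.sum_comp (Equiv.ofBijective e hbij) (fun j => F (E j))]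
  refine Finset.sum_congr rfl fun i _ => ?_
  rw [he i, hF]
  rfl

/-- A system of representatives inducing an operator from level `N` to level `M`. -/
structure RepSys (N M : ℕ) {I : Type*} (D : I → M2) : Prop where
  det : ∀ i, (D i).det ≠ 0
  ex : ∀ (γ : Gamma0 M) i, ∃ (γ' : Gamma0 N) (j : I), D i * mt γ = mt γ' * D j
  uniq : ∀ (γ' : Gamma0 N) i j, mt γ' * D i = D j → i = j

section opM

variable {I J : Type*} [Fintype I] [Fintype J]

/-- The operator attached to a finite family of matrices. -/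
def opM (D : I → M2) : (V2 → V2 → A) →+ (V2 → V2 → A) where
  toFun f := fun u v => ∑ i, f (D i *ᵥ u) (D i *ᵥ v)
  map_zero' := by ext; simp
  map_add' f g := by ext; simp [Finset.sum_add_distrib]

theorem opM_apply (D : I → M2) (f : V2 → V2 → A) (u v : V2) :
    opM D f u v = ∑ i, f (D i *ᵥ u) (D i *ᵥ v) := rfl

theorem opM_opM (D : I → M2) (E : J → M2) (f : V2 → V2 → A) :
    opM D (opM E f) = opM (fun x : J × I => E x.1 * D x.2) f := by
  funext u v
  simp only [opM_apply, mulVec_mulVec]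
  rw [Fintype.sum_prod_type_right]

theorem RepSys.sum_mul {D : I → M2} (hD : RepSys N M D) (F : M2 → A)
    (hF : ∀ (γ : Gamma0 N) X, F (mt γ * X) = F X) (γ : Gamma0 M) :
    ∑ i, F (D i * mt γ) = ∑ i, F (D i) :=
  sum_eq_of_factor (D := fun i => D i * mt γ) (E := D) F hF
    (fun γ' i j h => hD.uniq γ' i j (mul_mt_cancel γ (by rw [Matrix.mul_assoc]; exact h))) rfl
    (fun i => hD.ex γ i)

theorem IsSymb.left_inv {f : V2 → V2 → A} (hf : IsSymb N f) (u v : V2) (γ : Gamma0 N) (X : M2) :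
    f ((mt γ * X) *ᵥ u) ((mt γ * X) *ᵥ v) = f (X *ᵥ u) (X *ᵥ v) := by
  rw [← mulVec_mulVec, ← mulVec_mulVec, hf.inv]

theorem RepSys.isSymb {D : I → M2} (hD : RepSys N M D) {f : V2 → V2 → A} (hf : IsSymb N f) :
    IsSymb M (opM D f) where
  zero_left v := by
    rw [opM_apply]
    exact Finset.sum_eq_zero fun i _ => by rw [mulVec_zero, hf.zero_left]
  zero_right v := by
    rw [opM_apply]
    exact Finset.sum_eq_zero fun i _ => by rw [mulVec_zero, hf.zero_right]
  add u v w hu hv hw := by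
    simp only [opM_apply]
    rw [← Finset.sum_add_distrib]
    refine Finset.sum_congr rfl fun i _ => hf.add _ _ _ ?_ ?_ ?_ <;>
      exact mulVec_ne_zero_of_det (hD.det i) (by assumption)
  smul_left m u v hm := by
    simp only [opM_apply]
    exact Finset.sum_congr rfl fun i _ => by rw [mulVec_smul, hf.smul_left _ _ _ hm]
  inv γ u v := by
    simp only [opM_apply, mulVec_mulVec]
    exact hD.sum_mul (fun X => f (X *ᵥ u) (X *ᵥ v)) (fun γ X => hf.left_inv u v γ X) γ

/-- Two equivalent systems of representatives give the same operator. -/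
theorem opM_congr {D : I → M2} {E : J → M2}
    (hD : ∀ (γ' : Gamma0 N) i j, mt γ' * D i = D j → i = j)
    (hcard : Fintype.card I = Fintype.card J)
    (h : ∀ i, ∃ (γ' : Gamma0 N) (j : J), D i = mt γ' * E j) {f : V2 → V2 → A}
    (hf : IsSymb N f) : opM D f = opM E f := by
  funext u v
  simp only [opM_apply]
  exact sum_eq_of_factor (fun X => f (X *ᵥ u) (X *ᵥ v)) (fun γ X => hf.left_inv u v γ X) hD hcard h

end opM

/-! ### The homomorphism attached to a symbol -/

/-- The cusp `∞`. -/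
def e1 : V2 := ![1, 0]

/-- The cusp `0`. -/
def e2 : V2 := ![0, 1]

theorem e1_ne : e1 ≠ 0 := fun h => by simpa [e1] using congrFun h 0

theorem e2_ne : e2 ≠ 0 := fun h => by simpa [e2] using congrFun h 1

theorem IsSymb.indep {f : V2 → V2 → A} (hf : IsSymb N f) {u v : V2} (hu : u ≠ 0) (hv : v ≠ 0)
    (γ : Gamma0 N) : f u (mt γ *ᵥ u) = f v (mt γ *ᵥ v) := by
  have hu' := mt_mulVec_ne_zero γ hu
  have hv' := mt_mulVec_ne_zero γ hv
  have h1 := hf.add u v (mt γ *ᵥ v) hu hv hv'
  have h2 := hf.add u (mt γ *ᵥ u) (mt γ *ᵥ v) hu hu' hv'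
  rw [hf.inv] at h2
  rw [← h1, add_comm] at h2
  exact add_left_cancel h2

/-- The homomorphism attached to a modular symbol. -/
def toHom (f : Symb N A) : Additive (Gamma0 N) →+ A :=
  AddMonoidHom.mk' (fun γ => f e1 (mt γ.toMul *ᵥ e1)) (fun γ γ' => by
    have h := f.2.add e1 (mt γ.toMul *ᵥ e1) (mt (γ.toMul * γ'.toMul) *ᵥ e1) e1_ne
      (mt_mulVec_ne_zero _ e1_ne) (mt_mulVec_ne_zero _ e1_ne)
    rw [toMul_add, ← h]
    congr 1
    rw [mt_mul, ← mulVec_mulVec, f.2.inv])

theorem ev_toHom' (f : Symb N A) (γ : Gamma0 N) : ev (toHom f) γ = f e1 (mt γ *ᵥ e1) := rfl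

theorem ev_toHom (f : Symb N A) (γ : Gamma0 N) {u : V2} (hu : u ≠ 0) :
    ev (toHom f) γ = f u (mt γ *ᵥ u) := f.2.indep e1_ne hu γ

theorem toHom_add (f g : Symb N A) : toHom (f + g) = toHom f + toHom g := rfl

/-- `toHom` as a homomorphism. -/
def toHomA (N : ℕ) (A : Type*) [AddCommGroup A] : Symb N A →+ (Additive (Gamma0 N) →+ A) where
  toFun := toHom
  map_zero' := rfl
  map_add' _ _ := rfl

@[simp] theorem toHomA_apply (f : Symb N A) : toHomA N A f = toHom f := rfl

/-- An element fixing a cusp is killed. -/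
theorem ev_toHom_eq_zero (f : Symb N A) (γ : Gamma0 N) {u : V2} (hu : u ≠ 0) {m n : ℤ}
    (hm : m ≠ 0) (hn : n ≠ 0) (h : m • (mt γ *ᵥ u) = n • u) : ev (toHom f) γ = 0 := by
  rw [ev_toHom f γ hu, ← f.2.smul_right m _ _ hm, h, f.2.smul_right n _ _ hn, f.2.self]

end Fermat.Agent.Ihara
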