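import Fermat.Agent.Ihara.Basic

set_option autoImplicit false

/-!
# The relations coming from conjugation by `diag(q, 1)` and the units of `ℤ[1/q]`
-/

open CongruenceSubgroup
open scoped MatrixGroups

namespace Fermat.Agent.Ihara

variable {N : ℕ}

/-- `γ' = η γ η⁻¹` with `η = diag(q, 1)`. -/
structure Rel (q : ℤ) (γ γ' : Gamma0 N) : Prop where
  h00 : en γ' 0 0 = en γ 0 0
  h01 : en γ' 0 1 = q * en γ 0 1
  h10 : en γ 1 0 = q * en γ' 1 0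
  h11 : en γ' 1 1 = en γ 1 1

/-- `γ' diag(1,q) = diag(q,1) γ`. -/
structure Rel2 (q : ℤ) (γ γ' : Gamma0 N) : Prop where
  h00 : en γ' 0 0 = q * en γ 0 0
  h01 : en γ' 0 1 = en γ 0 1
  h10 : en γ' 1 0 = en γ 1 0
  h11 : en γ 1 1 = q * en γ' 1 1

theorem Rel2.mul_inv {q : ℤ} {γ₁ γ₁' γ₂ γ₂' : Gamma0 N} (h1 : Rel2 q γ₁ γ₁')
    (h2 : Rel2 q γ₂ γ₂') : Rel q (γ₁ * γ₂⁻¹) (γ₁' * γ₂'⁻¹) := by
  obtain ⟨a1, a2, a3, a4⟩ := h1
  obtain ⟨b1, b2, b3, b4⟩ := h2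
  obtain ⟨i1, i2, i3, i4⟩ := en_inv γ₂
  obtain ⟨j1, j2, j3, j4⟩ := en_inv γ₂'
  constructor <;> simp only [en_mul, i1, i2, i3, i4, j1, j2, j3, j4, a1, a2, a3, a4, b1, b2, b3, b4] <;> ring

variable {A : Type*} [AddCommGroup A]

/-- A pair of homomorphisms satisfying the gluing relation along `Γ₀(Nq)`. -/
def Glue (q : ℤ) (a b : Additive (Gamma0 N) →+ A) : Prop :=
  ∀ γ γ' : Gamma0 N, Rel q γ γ' → ev a γ = ev b γ'

theorem exists_tau {q : ℤ} (hq : IsCoprime q (N : ℤ)) :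
    ∃ (τ σ : Gamma0 N), Rel2 q τ σ ∧ ∀ γ γ' : Gamma0 N, Rel q γ γ' →
      Rel q (τ * γ' * τ⁻¹) (σ * γ * σ⁻¹) := by
  obtain ⟨u, v, huv⟩ := hq
  -- `q u - N (-v) = 1`
  refine ⟨mkG 1 (-v) N (q * u) (by linear_combination huv) dvd_rfl,
    mkG q (-v) N u (by linear_combination huv) dvd_rfl, ⟨by simp, by simp, by simp, by simp⟩, ?_⟩
  intro γ γ' ⟨a1, a2, a3, a4⟩
  obtain ⟨i1, i2, i3, i4⟩ := en_inv (mkG (N := N) 1 (-v) N (q * u) (by linear_combination huv) dvd_rfl)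
  obtain ⟨j1, j2, j3, j4⟩ := en_inv (mkG (N := N) q (-v) N u (by linear_combination huv) dvd_rfl)
  constructor <;> simp only [en_mul, i1, i2, i3, i4, j1, j2, j3, j4, a1, a2, a3, a4, en_mkG_00,
    en_mkG_01, en_mkG_10, en_mkG_11] <;> ring

/-- The gluing relation is symmetric. -/
theorem Glue.symm {q : ℤ} (hq : IsCoprime q (N : ℤ)) {a b : Additive (Gamma0 N) →+ A}
    (h : Glue q a b) : Glue q b a := by
  obtain ⟨τ, σ, -, hR⟩ := exists_tau hq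
  intro γ γ' hγ
  have := h _ _ (hR γ γ' hγ)
  rw [ev_conj, ev_conj] at this
  exact this.symm

theorem Glue.exists_const {q : ℤ} (hq : IsCoprime q (N : ℤ)) {a b : Additive (Gamma0 N) →+ A}
    (h : Glue q a b) : ∃ κ : A, ∀ γ γ' : Gamma0 N, Rel2 q γ γ' → ev a γ = ev b γ' + κ := by
  obtain ⟨τ, σ, h0, -⟩ := exists_tau hq
  refine ⟨ev a τ - ev b σ, fun γ γ' hγ => ?_⟩
  have := h _ _ (hγ.mul_inv h0)
  rw [ev_mul, ev_mul, ev_inv, ev_inv] at this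
  rw [← sub_eq_zero] at this ⊢
  rw [← this]; abel

/-- Existence of `γ, γ'` related by `Rel2`, with `γ'` having bottom row `(c, d)`. -/
theorem exists_rel2 {q c d : ℤ} (hc : (N : ℤ) ∣ c) (hcd : IsCoprime c (q * d)) :
    ∃ γ γ' : Gamma0 N, Rel2 q γ γ' ∧ en γ 1 0 = c ∧ en γ 1 1 = q * d ∧ en γ' 1 0 = c ∧
      en γ' 1 1 = d := by
  obtain ⟨u, v, huv⟩ := hcd
  exact ⟨mkG v (-u) c (q * d) (by linear_combination huv) hc,
    mkG (q * v) (-u) c d (by linear_combination huv) hc, ⟨rfl, rfl, rfl, rfl⟩, rfl, rfl, rfl, rfl⟩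

/-- Multiplication of `d` by `q²`. -/
theorem Glue.exists_phi_sq {q : ℤ} (hq : IsCoprime q (N : ℤ)) {a b : Additive (Gamma0 N) →+ A}
    (h : Glue q a b) (ha : Unip a) (hb : Unip b) : ∃ κ : A, ∀ c d : ℤ, (N : ℤ) ∣ c →
      IsCoprime c q → IsCoprime c d → phi a c (q ^ 2 * d) = phi a c d + κ := by
  obtain ⟨κ, hκ⟩ := h.exists_const hq
  obtain ⟨κ', hκ'⟩ := (h.symm hq).exists_const hq
  refine ⟨κ' + κ, fun c d hc hcq hcd => ?_⟩
  obtain ⟨γ, γ', h1, h2, h3, h4, h5⟩ := exists_rel2 (q := q) (d := q * d) hc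
    (hcq.mul_right (hcq.mul_right hcd))
  obtain ⟨δ, δ', k1, k2, k3, k4, k5⟩ := exists_rel2 (q := q) (d := d) hc (hcq.mul_right hcd)
  rw [ha.phi_eq γ h2 (h3.trans (by ring)), hκ _ _ h1, ha.phi_eq δ' k4 k5,
    hb.ev_eq (h4.trans k2.symm) (h5.trans k3.symm), hκ' _ _ k1]
  abel

/-- Multiplication of `d` by `q^(2k)`. -/
theorem Glue.exists_phi_pow {q : ℤ} (hq : IsCoprime q (N : ℤ)) {a b : Additive (Gamma0 N) →+ A}
    (h : Glue q a b) (ha : Unip a) (hb : Unip b) : ∃ κ : A, ∀ c d : ℤ, (N : ℤ) ∣ c →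
      IsCoprime c q → IsCoprime c d → ∀ k : ℕ, phi a c (q ^ (2 * k) * d) = phi a c d + k • κ := by
  obtain ⟨κ, hκ⟩ := h.exists_phi_sq hq ha hb
  refine ⟨κ, fun c d hc hcq hcd k => ?_⟩
  induction k with
  | zero => simp
  | succ k ih =>
    have : q ^ (2 * (k + 1)) * d = q ^ 2 * (q ^ (2 * k) * d) := by ring
    rw [this, hκ c _ hc hcq ((hcq.pow_right).mul_right hcd), ih, succ_nsmul]
    abel

end Fermat.Agent.Ihara
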